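/-
Reductions at `2` of models with multiplicative reduction.
-/
import Fermat.Prelude.Def_FLTPrelim_Modularity
import Mathlib.Data.ZMod.Basic
import Mathlib.Tactic.LinearCombination

set_option autoImplicit false

open WeierstrassCurve

namespace FA.Switch

/-- The affine points of a cubic over `ZMod 2`, as a decidable set. -/
def nsSet (a₁ a₂ a₃ a₄ a₆ : ZMod 2) : Finset (ZMod 2 × ZMod 2) :=
  Finset.univ.filter fun P =>
    (P.2 ^ 2 + a₁ * P.1 * P.2 + a₃ * P.2 = P.1 ^ 3 + a₂ * P.1 ^ 2 + a₄ * P.1 + a₆) ∧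
      (a₁ * P.2 ≠ 3 * P.1 ^ 2 + 2 * a₂ * P.1 + a₄ ∨ P.2 ≠ -P.2 - a₁ * P.1 - a₃)

lemma card_eq_nsSet (E : WeierstrassCurve (ZMod 2)) :
    E.card = (nsSet E.a₁ E.a₂ E.a₃ E.a₄ E.a₆).card + 1 := by
  classical
  have h : ∀ P : ZMod 2 × ZMod 2,
      P ∈ nsSet E.a₁ E.a₂ E.a₃ E.a₄ E.a₆ ↔ E.toAffine.Nonsingular P.1 P.2 := fun P => by
    simp only [nsSet, Finset.mem_filter, Finset.mem_univ, true_and, Affine.nonsingular_iff,
      Affine.equation_iff]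
  let e : E.toAffine.Point ≃ Option {P // P ∈ nsSet E.a₁ E.a₂ E.a₃ E.a₄ E.a₆} :=
    { toFun := fun
        | .zero => none
        | .some x y hxy => Option.some ⟨(x, y), (h _).mpr hxy⟩
      invFun := fun
        | none => .zero
        | Option.some P => .some P.1.1 P.1.2 ((h _).mp P.2)
      left_inv := fun P => by cases P <;> rfl
      right_inv := fun P => by cases P <;> rfl }
  rw [WeierstrassCurve.card, Nat.card_congr e, Nat.card_eq_fintype_card, Fintype.card_option,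
    Fintype.card_coe]

/-- The trace at `2` of a model with good reduction shaped like `y² + y = x³ + a`. -/
lemma apOfModel_two_eq_zero {W : WeierstrassCurve ℤ}
    (h : W.reductionMod 2 = ⟨0, 0, 1, 0, (W.a₆ : ZMod 2)⟩) : W.apOfModel 2 = 0 := by
  have key : ∀ c : ZMod 2, (nsSet 0 0 1 0 c).card = 2 := by decide
  rw [apOfModel, traceOfFrobenius, card_eq_nsSet, h, key, Nat.card_zmod]
  norm_num

/-- The number of points of a nodal cubic over `ZMod 2`. -/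
lemma nsSet_node : ∀ a₁ a₂ a₃ a₄ a₆ : ZMod 2, a₁ = 1 →
    (⟨a₁, a₂, a₃, a₄, a₆⟩ : WeierstrassCurve (ZMod 2)).Δ = 0 →
      (nsSet a₁ a₂ a₃ a₄ a₆).card = (nsSet 1 (a₂ + a₃) 0 0 0).card := by
  intro a₁ a₂ a₃ a₄ a₆
  simp only [WeierstrassCurve.Δ, WeierstrassCurve.b₂, WeierstrassCurve.b₄, WeierstrassCurve.b₆,
    WeierstrassCurve.b₈]
  revert a₁ a₂ a₃ a₄ a₆
  decide

/-- Two models with multiplicative reduction at `2` have the same trace if their reductions have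
the same tangents. -/
lemma apOfModel_two_eq {W : WeierstrassCurve ℤ} (hΔ : (2 : ℤ) ∣ W.Δ) (h₁ : (W.a₁ : ZMod 2) = 1)
    {W' : WeierstrassCurve ℤ}
    (h' : W'.reductionMod 2 = ⟨1, (W.a₂ : ZMod 2) + W.a₃, 0, 0, 0⟩) :
    W'.apOfModel 2 = W.apOfModel 2 := by
  rw [apOfModel, apOfModel, traceOfFrobenius, traceOfFrobenius, card_eq_nsSet, card_eq_nsSet, h']
  have hred : W.reductionMod 2 = ⟨(W.a₁ : ZMod 2), W.a₂, W.a₃, W.a₄, W.a₆⟩ := by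
    ext <;> simp [reductionMod]
  have hd : (⟨(W.a₁ : ZMod 2), W.a₂, W.a₃, W.a₄, W.a₆⟩ : WeierstrassCurve (ZMod 2)).Δ = 0 := by
    rw [← hred, reductionMod, WeierstrassCurve.map_Δ, eq_intCast]
    exact (ZMod.intCast_zmod_eq_zero_iff_dvd _ _).mpr hΔ
  rw [hred, nsSet_node _ _ _ _ _ h₁ hd]

lemma a₁_odd {W : WeierstrassCurve ℤ} (h4 : ¬ (2 : ℤ) ∣ W.c₄) : ¬ (2 : ℤ) ∣ W.a₁ := by
  rintro ⟨c, hc⟩
  refine h4 ⟨(2 * c ^ 2 + 2 * W.a₂) * (4 * c ^ 2 + 4 * W.a₂) - 12 * W.b₄, ?_⟩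
  simp only [WeierstrassCurve.c₄, WeierstrassCurve.b₂, hc]
  ring

lemma c₆_mod_four {W : WeierstrassCurve ℤ} (h4 : ¬ (2 : ℤ) ∣ W.c₄) :
    ((W.c₆ : ℤ) : ZMod 4) = 3 := by
  have ho : ((W.a₁ : ℤ) : ZMod 4) = 1 ∨ ((W.a₁ : ℤ) : ZMod 4) = 3 := by
    obtain ⟨k, hk⟩ := (Int.not_even_iff_odd.mp fun h => a₁_odd h4 (even_iff_two_dvd.mp h))
    rw [hk]
    push_cast
    have : ∀ x : ZMod 4, 2 * x + 1 = 1 ∨ 2 * x + 1 = 3 := by decide
    exact this _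
  simp only [WeierstrassCurve.c₆, WeierstrassCurve.b₂, WeierstrassCurve.b₄, WeierstrassCurve.b₆]
  push_cast
  generalize ((W.a₂ : ℤ) : ZMod 4) = a₂
  generalize ((W.a₃ : ℤ) : ZMod 4) = a₃
  generalize ((W.a₄ : ℤ) : ZMod 4) = a₄
  generalize ((W.a₆ : ℤ) : ZMod 4) = a₆
  rw [show (36 : ZMod 4) = 0 from rfl, show (216 : ZMod 4) = 0 from rfl, show (4 : ZMod 4) = 0 from rfl]
  rcases ho with h | h <;> rw [h] <;> simp <;> decide

/-- The tangents at `2` in terms of an integer approximating the scale. -/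
lemma exists_tangent_coeff {W : WeierstrassCurve ℤ} (h4 : ¬ (2 : ℤ) ∣ W.c₄) {n : ℤ}
    (hn : (8 : ℤ) ∣ n ^ 3 + W.c₆) :
    ∃ a : ℤ, 1 + 4 * a = n ∧ (a : ZMod 2) = (W.a₂ : ZMod 2) + W.a₃ := by
  obtain ⟨k, hk⟩ := (Int.not_even_iff_odd.mp fun h => a₁_odd h4 (even_iff_two_dvd.mp h))
  have h0 : ((n ^ 3 + W.c₆ : ℤ) : ZMod 8) = 0 := (ZMod.intCast_zmod_eq_zero_iff_dvd _ _).mpr hn
  simp only [WeierstrassCurve.c₆, WeierstrassCurve.b₂, WeierstrassCurve.b₄, WeierstrassCurve.b₆,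
    hk] at h0
  push_cast at h0
  have hb : ∀ k' a₂ a₃ a₄ n' : ZMod 8,
      n' ^ 3 + (-((2 * k' + 1) ^ 2 + 4 * a₂) ^ 3 +
        4 * ((2 * k' + 1) ^ 2 + 4 * a₂) * (2 * a₄ + (2 * k' + 1) * a₃)) = 0 →
      n' = 1 + 4 * (a₂ + a₃) := by
    decide +kernel
  have h8 := hb k W.a₂ W.a₃ W.a₄ n (by
    rw [← h0, show (216 : ZMod 8) = 0 from rfl, show (36 : ZMod 8) = 4 from rfl]
    ring)
  rw [show (1 : ZMod 8) + 4 * ((W.a₂ : ZMod 8) + W.a₃) = ((1 + 4 * (W.a₂ + W.a₃) : ℤ) : ZMod 8) by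
    push_cast; rfl] at h8
  obtain ⟨c, hc⟩ := (ZMod.intCast_eq_intCast_iff_dvd_sub _ _ _).mp h8
  refine ⟨W.a₂ + W.a₃ - 2 * c, by push_cast at hc; linear_combination hc, ?_⟩
  push_cast
  rw [show (2 : ZMod 2) = 0 from rfl, zero_mul, sub_zero]

end FA.Switch
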