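/-
Klein's icosahedral forms and the universal curve with level `5` structure:
`E_{u,v} : y² = x³ - 27 c₄(u,v) x - 54 c₆(u,v)`, with explicit points of order `5`.
-/
import Mathlib.Tactic.FieldSimp
import Mathlib.Tactic.LinearCombination
import Mathlib.Algebra.MvPolynomial.PDeriv
import Mathlib.Algebra.CharZero.Defs

set_option autoImplicit false

namespace FA.Switch

variable {R : Type*} [CommRing R]

/-- `c₄` as a binary quartic in `U = u⁵`, `V = v⁵`. -/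
def c4UV (U V : R) : R := U ^ 4 + 228 * U ^ 3 * V + 494 * U ^ 2 * V ^ 2 - 228 * U * V ^ 3 + V ^ 4

/-- `c₆` as a binary sextic in `U = u⁵`, `V = v⁵`. -/
def c6UV (U V : R) : R :=
  -U ^ 6 + 522 * U ^ 5 * V + 10005 * U ^ 4 * V ^ 2 + 10005 * U ^ 2 * V ^ 4 - 522 * U * V ^ 5 - V ^ 6

/-- `c₄` of the family. -/
def klC4 (u v : R) : R := c4UV (u ^ 5) (v ^ 5)

/-- `c₆` of the family. -/
def klC6 (u v : R) : R := c6UV (u ^ 5) (v ^ 5)

/-- Klein's form of degree `12`. -/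
def klF (u v : R) : R := u * v * ((u ^ 5) ^ 2 - 11 * u ^ 5 * v ^ 5 - (v ^ 5) ^ 2)

lemma klein_syzygy (u v : R) : klC4 u v ^ 3 - klC6 u v ^ 2 = 1728 * klF u v ^ 5 := by
  simp only [klC4, klC6, c4UV, c6UV, klF]
  ring

variable {K : Type*} [Field K]

/-- The abscissa of the basic point of order `5`. -/
def ptX (η U V : K) : K :=
  (-93 / 5 - 36 / 5 * η) * U ^ 2 + (198 / 5 + 396 / 5 * η) * U * V +
    (-57 / 5 + 36 / 5 * η) * V ^ 2

/-- The ordinate of the basic point of order `5`. -/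
def ptY (η δ U V : K) : K :=
  δ * ((-216 / 5 - 108 / 5 * η) * U ^ 3 + (2484 / 5 + 972 / 5 * η) * U ^ 2 * V +
    (-972 / 5 + 2484 / 5 * η) * U * V ^ 2 + (-108 / 5 + 216 / 5 * η) * V ^ 3)

/-- The slope of the tangent at the basic point of order `5`. -/
def ptL (η δ U V : K) : K :=
  δ * ((21 / 5 - 3 / 5 * η) * U + (-3 / 5 - 21 / 5 * η) * V)

variable [CharZero K] {η δ : K} (hη : η ^ 2 + η - 1 = 0) (hδ : δ ^ 2 + η + 3 = 0) (U V : K)

include hη hδ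

lemma pt_equation :
    ptY η δ U V ^ 2 = ptX η U V ^ 3 - 27 * c4UV U V * ptX η U V - 54 * c6UV U V := by
  simp only [ptX, ptY, c4UV, c6UV]
  linear_combination ((209952/25) * U * V^5 + (-956448/25) * U * V^5 * η + (1073088/25) * U * V^5 * η^2 + (81648/5) * U^2 * V^4 + (-793152/5) * U^2 * V^4 * η + (1318032/5) * U^2 * V^4 * η^2 + (-956448/5) * U^3 * V^3 + (2076192/5) * U^3 * V^3 * η + (956448/5) * U^3 * V^3 * η^2 + (1318032/5) * U^4 * V^2 + (793152/5) * U^4 * V^2 * η + (81648/5) * U^4 * V^2 * η^2 + (-1073088/25) * U^5 * V + (-956448/25) * U^5 * V * η + (-209952/25) * U^5 * V * η^2 + (46656/25) * U^6 + (46656/25) * U^6 * η + (11664/25) * U^6 * η^2 + (11664/25) * V^6 + (-46656/25) * V^6 * η + (46656/25) * V^6 * η^2) * hδ + ((-303264/125) * U * V^5 + (-6905088/125) * U * V^5 * η + (-3895776/25) * U^2 * V^4 + (-9949392/25) * U^2 * V^4 * η + (-25847424/25) * U^3 * V^3 +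 (-16586208/25) * U^3 * V^3 * η + (3895776/25) * U^4 * V^2 + (2950992/25) * U^4 * V^2 * η + (-303264/125) * U^5 * V + (-489888/125) * U^5 * V * η + (-34992/125) * U^6 + (-11664/125) * U^6 * η + (34992/125) * V^6 + (-279936/125) * V^6 * η) * hη

lemma pt_tangent :
    2 * ptY η δ U V * ptL η δ U V = 3 * ptX η U V ^ 2 - 27 * c4UV U V := by
  simp only [ptX, ptY, ptL, c4UV]
  linear_combination ((1296/25) * U * V^3 + (7128/5) * U * V^3 * η + (-105624/25) * U * V^3 * η^2 + (-55728/25) * U^2 * V^2 + (-55728/25) * U^2 * V^2 * η^2 + (105624/25) * U^3 * V + (7128/5) * U^3 * V * η + (-1296/25) * U^3 * V * η^2 + (-9072/25) * U^4 + (-648/5) * U^4 * η + (648/25) * U^4 * η^2 + (648/25) * V^4 + (648/5) * V^4 * η + (-9072/25) * V^4 * η^2) * hδ + ((90072/25) * U * V^3 + (105624/25) * U * V^3 * η + (-351216/25) * U^2 * V^2 + (55728/25) * U^2 * V^2 * η + (52488/25) * U^3 * V + (1296/25)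 * U^3 * V * η + (-1944/25) * U^4 + (-648/25) * U^4 * η + (11016/25) * V^4 + (9072/25) * V^4 * η) * hη

lemma pt_double_x : ptX (-1 - η) U V = ptL η δ U V ^ 2 - 2 * ptX η U V := by
  simp only [ptX, ptL]
  linear_combination ((126/25) * U * V + (864/25) * U * V * η + (-126/25) * U * V * η^2 + (-441/25) * U^2 + (126/25) * U^2 * η + (-9/25) * U^2 * η^2 + (-9/25) * V^2 + (-126/25) * V^2 * η + (-441/25) * V^2 * η^2) * hδ + ((-612/25) * U * V + (126/25) * U * V * η + (-108/25) * U^2 + (9/25) * U^2 * η + (1008/25) * V^2 + (441/25) * V^2 * η) * hη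

omit hδ in
lemma pt_double_y : ptY (-1 - η) (η * δ) U V =
    -(ptL η δ U V * (ptX (-1 - η) U V - ptX η U V) + ptY η δ U V) := by
  simp only [ptX, ptY, ptL]
  linear_combination ((4428/25) * U * V^2 * δ + (-3996/25) * U^2 * V * δ + (324/25) * U^3 * δ + (432/25) * V^3 * δ) * hη

omit hδ in
lemma eta_conj : (-1 - η) ^ 2 + (-1 - η) - 1 = 0 := by linear_combination hη

lemma delta_conj : (η * δ) ^ 2 + (-1 - η) + 3 = 0 := by
  linear_combination η ^ 2 * hδ + (-η - 2) * hη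

omit hδ U V in
/-- The invariance of Klein's form under the icosahedral involution, before scaling. -/
lemma klF_klein_M (u v : K) :
    (8 * η + 13) * klF (-u - η * v) (v - η * u) = 125 * klF u v := by
  simp only [klF]
  linear_combination (-146 * η * u * v^11 + 143 * η * u^2 * v^10 + 858 * η * u^5 * v^7 - 1144 * η * u^6 * v^6 - 858 * η * u^7 * v^5 + 143 * η * u^10 * v^2 + 146 * η * u^11 * v - 13 * η * u^12 - 13 * η * v^12 - 141 * η^2 * u * v^11 + 231 * η^2 * u^2 * v^10 - 715 * η^2 * u^3 * v^9 + 2145 * η^2 * u^4 * v^8 + 1386 * η^2 * u^5 * v^7 - 7524 * η^2 * u^6 * v^6 - 1386 * η^2 * u^7 * v^5 + 2145 * η^2 * u^8 * v^4 + 715 * η^2 * u^9 * v^3 + 231 * η^2 * u^10 * v^2 + 141 * η^2 * u^11 * v - 21 * η^2 * u^12 - 21 * η^2 * v^12 - 199 * η^3 * u * v^11 - 341 * η^3 * u^2 * v^10 + 1705 * η^3 * u^3 * v^9 + 5610 * η^3 * u^4 * v^8 - 10626 * η^3 * u^5 * v^7 - 11836 * η^3 * u^6 *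 v^6 + 10626 * η^3 * u^7 * v^5 + 5610 * η^3 * u^8 * v^4 - 1705 * η^3 * u^9 * v^3 - 341 * η^3 * u^10 * v^2 + 199 * η^3 * u^11 * v - 34 * η^3 * u^12 - 34 * η^3 * v^12 - 340 * η^4 * u * v^11 + 1595 * η^4 * u^2 * v^10 + 4895 * η^4 * u^3 * v^9 - 8085 * η^4 * u^4 * v^8 - 21450 * η^4 * u^5 * v^7 + 12815 * η^4 * u^6 * v^6 + 21450 * η^4 * u^7 * v^5 - 8085 * η^4 * u^8 * v^4 - 4895 * η^4 * u^9 * v^3 + 1595 * η^4 * u^10 * v^2 + 340 * η^4 * u^11 * v - 55 * η^4 * u^12 - 55 * η^4 * v^12 + 319 * η^5 * u * v^11 + 2574 * η^5 * u^2 * v^10 - 4950 * η^5 * u^3 * v^9 - 17325 * η^5 * u^4 * v^8 + 8184 * η^5 * u^5 * v^7 + 32791 * η^5 * u^6 * v^6 - 8184 * η^5 * u^7 * v^5 - 17325 * η^5 * u^8 * v^4 + 4950 * η^5 * u^9 * v^3 + 2574 * η^5 * u^10 * v^2 - 319 * η^5 * u^11 * v - 89 * η^5 * u^12 - 89 * η^5 * v^12 + 507 * η^6 * u * v^11 - 979 * η^6 * u^2 * v^10 - 7975 * η^6 * u^3 * v^9 + 4125 * η^6 * u^4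 * v^8 + 25146 * η^6 * u^5 * v^7 - 4202 * η^6 * u^6 * v^6 - 25146 * η^6 * u^7 * v^5 + 4125 * η^6 * u^8 * v^4 + 7975 * η^6 * u^9 * v^3 - 979 * η^6 * u^10 * v^2 - 507 * η^6 * u^11 * v - η^6 * u^12 - η^6 * v^12 - 32 * η^7 * u * v^11 - 1573 * η^7 * u^2 * v^10 - 55 * η^7 * u^3 * v^9 + 10890 * η^7 * u^4 * v^8 - 2178 * η^7 * u^5 * v^7 - 18623 * η^7 * u^6 * v^6 + 2178 * η^7 * u^7 * v^5 + 10890 * η^7 * u^8 * v^4 + 55 * η^7 * u^9 * v^3 - 1573 * η^7 * u^10 * v^2 + 32 * η^7 * u^11 * v - 2 * η^7 * u^12 - 2 * η^7 * v^12 - 53 * η^8 * u * v^11 - 407 * η^8 * u^2 * v^10 + 2035 * η^8 * u^3 * v^9 + 495 * η^8 * u^4 * v^8 - 7722 * η^8 * u^5 * v^7 + 1958 * η^8 * u^6 * v^6 + 7722 * η^8 * u^7 * v^5 + 495 * η^8 * u^8 * v^4 - 2035 * η^8 * u^9 * v^3 - 407 * η^8 * u^10 * v^2 + 53 * η^8 * u^11 * v - 3 * η^8 * u^12 - 3 * η^8 * v^12 - 85 * η^9 * u * v^11 + 55 * η^9 * u^2 * v^10 + 440 * η^9 * u^3 * v^9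 - 1320 * η^9 * u^4 * v^8 + 330 * η^9 * u^5 * v^7 + 3135 * η^9 * u^6 * v^6 - 330 * η^9 * u^7 * v^5 - 1320 * η^9 * u^8 * v^4 - 440 * η^9 * u^9 * v^3 + 55 * η^9 * u^10 * v^2 + 85 * η^9 * u^11 * v - 5 * η^9 * u^12 - 5 * η^9 * v^12 + 5 * η^10 * u * v^11 + 88 * η^10 * u^2 * v^10 + 528 * η^10 * u^5 * v^7 - 55 * η^10 * u^6 * v^6 - 528 * η^10 * u^7 * v^5 + 88 * η^10 * u^10 * v^2 - 5 * η^10 * u^11 * v - 8 * η^10 * u^12 - 8 * η^10 * v^12 + 8 * η^11 * u * v^11 - 88 * η^11 * u^6 * v^6 - 8 * η^11 * u^11 * v - 138 * u * v^11 - 1232 * u^6 * v^6 + 138 * u^11 * v) * hη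

end FA.Switch
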