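/-
The invariance of Klein's forms under the icosahedral involution, obtained from the invariance
of the form of degree `12` through its Hessian and Jacobian covariants.
-/
import Fermat.Agent.Switch.KleinIdentities
import Mathlib.Algebra.MvPolynomial.Funext
import Mathlib.LinearAlgebra.Matrix.Determinant.Basic
import Mathlib.LinearAlgebra.Matrix.Notation

set_option autoImplicit false
set_option linter.unusedSectionVars false

open MvPolynomial

namespace FA.Switch

variable {K : Type*} [Field K]

/-- Substitution of a linear map in a polynomial in two variables. -/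
noncomputable def linSubst (g : Matrix (Fin 2) (Fin 2) K) :
    MvPolynomial (Fin 2) K →ₐ[K] MvPolynomial (Fin 2) K :=
  aeval fun i => C (g i 0) * X 0 + C (g i 1) * X 1

lemma pderiv_linSubst (g : Matrix (Fin 2) (Fin 2) K) (p : MvPolynomial (Fin 2) K) (j : Fin 2) :
    pderiv j (linSubst g p) =
      C (g 0 j) * linSubst g (pderiv 0 p) + C (g 1 j) * linSubst g (pderiv 1 p) := by
  induction p using MvPolynomial.induction_on with
  | C a => simp [linSubst]
  | add p q hp hq => simp only [map_add, hp, hq]; ring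
  | mul_X p i hp =>
    simp only [map_mul, pderiv_mul, pderiv_X, map_add, hp]
    fin_cases i <;> fin_cases j <;> simp [linSubst, pderiv_X] <;> ring

/-- The Hessian of a polynomial in two variables. -/
noncomputable def hess (p : MvPolynomial (Fin 2) K) : MvPolynomial (Fin 2) K :=
  pderiv 0 (pderiv 0 p) * pderiv 1 (pderiv 1 p) - pderiv 1 (pderiv 0 p) * pderiv 0 (pderiv 1 p)

/-- The Jacobian of two polynomials in two variables. -/
noncomputable def jac (p q : MvPolynomial (Fin 2) K) : MvPolynomial (Fin 2) K :=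
  pderiv 0 p * pderiv 1 q - pderiv 1 p * pderiv 0 q

lemma hess_linSubst (g : Matrix (Fin 2) (Fin 2) K) (p : MvPolynomial (Fin 2) K) :
    hess (linSubst g p) = C (g.det ^ 2) * linSubst g (hess p) := by
  simp only [hess, pderiv_linSubst, map_add, pderiv_mul, pderiv_C, zero_mul, zero_add,
    Matrix.det_fin_two, map_sub, map_mul, map_pow]
  ring

lemma jac_linSubst (g : Matrix (Fin 2) (Fin 2) K) (p q : MvPolynomial (Fin 2) K) :
    jac (linSubst g p) (linSubst g q) = C g.det * linSubst g (jac p q) := by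
  simp only [jac, pderiv_linSubst, Matrix.det_fin_two, map_sub, map_mul]
  ring

lemma eval_linSubst (g : Matrix (Fin 2) (Fin 2) K) (p : MvPolynomial (Fin 2) K) (w : Fin 2 → K) :
    eval w (linSubst g p) = eval (g.mulVec w) p := by
  induction p using MvPolynomial.induction_on with
  | C a => simp [linSubst]
  | add p q hp hq => simp only [map_add, hp, hq]
  | mul_X p i hp =>
    rw [map_mul, map_mul, map_mul, hp]
    simp [linSubst, Matrix.mulVec, dotProduct, Fin.sum_univ_two]

variable (K) in
/-- Klein's form as a polynomial. -/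
noncomputable def polyF : MvPolynomial (Fin 2) K := klF (X 0) (X 1)

variable (K) in
/-- `c₄` as a polynomial. -/
noncomputable def polyC4 : MvPolynomial (Fin 2) K := klC4 (X 0) (X 1)

variable (K) in
/-- `c₆` as a polynomial. -/
noncomputable def polyC6 : MvPolynomial (Fin 2) K := klC6 (X 0) (X 1)

lemma eval_polyF (w : Fin 2 → K) : eval w (polyF K) = klF (w 0) (w 1) := by
  simp [polyF, klF]

lemma eval_polyC4 (w : Fin 2 → K) : eval w (polyC4 K) = klC4 (w 0) (w 1) := by
  simp [polyC4, klC4, c4UV, map_ofNat]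

lemma eval_polyC6 (w : Fin 2 → K) : eval w (polyC6 K) = klC6 (w 0) (w 1) := by
  simp [polyC6, klC6, c6UV, map_ofNat]

lemma pderiv_numeral (i : Fin 2) (n : ℕ) [n.AtLeastTwo] :
    pderiv i (OfNat.ofNat n : MvPolynomial (Fin 2) K) = 0 := by
  rw [← map_ofNat (C : K →+* MvPolynomial (Fin 2) K) n, pderiv_C]

lemma hess_polyF : hess (polyF K) = -121 * polyC4 K := by
  simp [hess, polyF, polyC4, klF, klC4, c4UV, pderiv_mul, pderiv_pow, pderiv_X, Pi.single_apply,
    pderiv_numeral (K := K) _ 2, pderiv_numeral (K := K) _ 5, pderiv_numeral (K := K) _ 11, pderiv_numeral (K := K) _ 228, pderiv_numeral (K := K) _ 494, pderiv_numeral (K := K) _ 522, pderiv_numeral (K := K) _ 10005]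
  ring

lemma jac_polyF_polyC4 : jac (polyF K) (polyC4 K) = 20 * polyC6 K := by
  simp [jac, polyF, polyC4, polyC6, klF, klC4, klC6, c4UV, c6UV, pderiv_mul, pderiv_pow, pderiv_X,
    Pi.single_apply, pderiv_numeral (K := K) _ 2, pderiv_numeral (K := K) _ 5, pderiv_numeral (K := K) _ 11, pderiv_numeral (K := K) _ 228, pderiv_numeral (K := K) _ 494, pderiv_numeral (K := K) _ 522, pderiv_numeral (K := K) _ 10005]
  ring

lemma num_ne_zero [CharZero K] (n : ℕ) [n.AtLeastTwo] :
    (OfNat.ofNat n : MvPolynomial (Fin 2) K) ≠ 0 := by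
  rw [← map_ofNat (C : K →+* MvPolynomial (Fin 2) K) n, C_ne_zero]
  exact OfNat.ofNat_ne_zero n

/-- A unimodular substitution fixing Klein's form fixes `c₄` and `c₆`. -/
theorem invariant_of_klF [CharZero K] {g : Matrix (Fin 2) (Fin 2) K} (hdet : g.det = 1)
    (hF : ∀ w, klF (g.mulVec w 0) (g.mulVec w 1) = klF (w 0) (w 1)) (w : Fin 2 → K) :
    klC4 (g.mulVec w 0) (g.mulVec w 1) = klC4 (w 0) (w 1) ∧
      klC6 (g.mulVec w 0) (g.mulVec w 1) = klC6 (w 0) (w 1) := by
  have : Infinite K := Infinite.of_injective ((↑) : ℕ → K) Nat.cast_injective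
  have hF' : linSubst g (polyF K) = polyF K := MvPolynomial.funext fun w => by
    rw [eval_linSubst, eval_polyF, eval_polyF, hF]
  have h4 : linSubst g (polyC4 K) = polyC4 K := by
    have h := hess_linSubst g (polyF K)
    rw [hF', hess_polyF, hdet, one_pow, C_1, one_mul, map_mul, map_neg, map_ofNat] at h
    exact (mul_left_cancel₀ (neg_ne_zero.mpr (num_ne_zero 121)) h).symm
  have h6 : linSubst g (polyC6 K) = polyC6 K := by
    have h := jac_linSubst g (polyF K) (polyC4 K)
    rw [hF', h4, jac_polyF_polyC4, hdet, C_1, one_mul, map_mul, map_ofNat] at h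
    exact (mul_left_cancel₀ (num_ne_zero 20) h).symm
  refine ⟨?_, ?_⟩
  · rw [← eval_polyC4, ← eval_linSubst, h4, eval_polyC4]
  · rw [← eval_polyC6, ← eval_linSubst, h6, eval_polyC6]

/-- The icosahedral involution, for `η = ζ + ζ⁻¹`, `δ = ζ - ζ⁻¹`. -/
noncomputable def kleinS (η δ : K) : Matrix (Fin 2) (Fin 2) K :=
  (δ / (2 * η + 1)) • !![-1, -η; -η, 1]

variable [CharZero K] {η δ : K} (hη : η ^ 2 + η - 1 = 0) (hδ : δ ^ 2 + η + 3 = 0)

include hη in
lemma two_eta_add_one_ne_zero : (2 * η + 1) ≠ 0 := by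
  intro h
  have : (5 : K) = 0 := by linear_combination (2 * η + 1) * h - 4 * hη
  norm_num at this

include hη hδ in
lemma scalar_sq : (δ / (2 * η + 1)) ^ 2 = -(η + 3) / 5 := by
  have h := two_eta_add_one_ne_zero hη
  rw [div_pow, div_eq_div_iff (pow_ne_zero 2 h) (by norm_num)]
  linear_combination 5 * hδ + (4 * (η + 3)) * hη

include hη hδ in
lemma kleinS_det : (kleinS η δ).det = 1 := by
  rw [kleinS, Matrix.det_smul, Fintype.card_fin, scalar_sq hη hδ]
  simp [Matrix.det_fin_two]
  linear_combination ((η + 2) / 5 : K) * hη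

include hη hδ in
lemma kleinS_klF (w : Fin 2 → K) :
    klF ((kleinS η δ).mulVec w 0) ((kleinS η δ).mulVec w 1) = klF (w 0) (w 1) := by
  have key := klF_klein_M hη (w 0) (w 1)
  have h12 : (δ / (2 * η + 1)) ^ 12 = (8 * η + 13) / 125 := by
    rw [pow_mul (δ / (2 * η + 1)) 2 6, scalar_sq hη hδ]
    linear_combination ((η ^ 4 + 17 * η ^ 3 + 119 * η ^ 2 + 438 * η + 896) / 15625 : K) * hη
  have hhom : ∀ c u v : K, klF (c * u) (c * v) = c ^ 12 * klF u v := fun c u v => by
    simp only [klF]; ring
  simp only [kleinS, Matrix.smul_mulVec, Pi.smul_apply, smul_eq_mul]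
  rw [hhom, h12]
  simp [Matrix.mulVec, dotProduct, Fin.sum_univ_two, ← sub_eq_add_neg]
  rw [show -(η * w 0) + w 1 = w 1 - η * w 0 by ring, div_mul_eq_mul_div, key]
  ring

include hη hδ in
lemma kleinS_sq : kleinS η δ * kleinS η δ = (-1 : K) • 1 := by
  have h := scalar_sq hη hδ
  rw [kleinS, Matrix.smul_mul, Matrix.mul_smul, smul_smul, ← sq, h]
  ext i j
  fin_cases i <;> fin_cases j <;> simp [Matrix.mul_apply, Fin.sum_univ_two] <;>
    linear_combination (-(η + 2) / 5 : K) * hη

end FA.Switch
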