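/-
Specialisation of `p`-torsion points of a Weierstrass curve over an integrally closed domain.
-/
import Fermat.Agent.EC.TorsionCard
import Mathlib.RingTheory.IntegralClosure.IntegrallyClosed
import Mathlib.FieldTheory.Separable

set_option autoImplicit false
set_option linter.unusedSectionVars false

open WeierstrassCurve Polynomial FA.EC

namespace FA.Switch

lemma nsmul_of_mem_torsionBy {A : Type*} [AddCommGroup A] {n : ℕ}
    (P : Submodule.torsionBy ℤ A n) : n • P.1 = 0 := by
  have := P.2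
  rwa [Submodule.mem_torsionBy_iff, natCast_zsmul] at this

universe u v w

variable {R : Type u} [CommRing R] {F : Type v} [Field F] [Algebra R F] {K : Type w} [Field K]
  (ev : R →+* K)

/-- `a ∈ F` is a fraction with denominator not vanishing at `ev`, of value `α`. -/
def Rel (a : F) (α : K) : Prop :=
  ∃ r s : R, ev s ≠ 0 ∧ a * algebraMap R F s = algebraMap R F r ∧ α * ev s = ev r

variable {ev}

lemma rel_of (r : R) : Rel (F := F) ev (algebraMap R F r) (ev r) :=
  ⟨r, 1, by simp, by simp, by simp⟩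

lemma Rel.unique [IsFractionRing R F] {a : F} {α β : K} (h : Rel ev a α) (h' : Rel ev a β) :
    α = β := by
  obtain ⟨r, s, hs, e, e'⟩ := h
  obtain ⟨r', s', hs', f, f'⟩ := h'
  have key : r * s' = r' * s := IsFractionRing.injective R F (by
    rw [map_mul, map_mul, ← e, ← f]; ring)
  have h2 := congrArg ev key
  rw [map_mul, map_mul, ← e', ← f'] at h2
  exact mul_right_cancel₀ (mul_ne_zero hs hs') (by linear_combination h2)

lemma Rel.add {a b : F} {α β : K} (h : Rel ev a α) (h' : Rel ev b β) :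
    Rel ev (a + b) (α + β) := by
  obtain ⟨r, s, hs, e, e'⟩ := h
  obtain ⟨r', s', hs', f, f'⟩ := h'
  refine ⟨r * s' + r' * s, s * s', by rw [map_mul]; exact mul_ne_zero hs hs', ?_, ?_⟩
  · simp only [map_mul, map_add]; rw [← e, ← f]; ring
  · simp only [map_mul, map_add]; rw [← e', ← f']; ring

lemma Rel.mul {a b : F} {α β : K} (h : Rel ev a α) (h' : Rel ev b β) :
    Rel ev (a * b) (α * β) := by
  obtain ⟨r, s, hs, e, e'⟩ := h
  obtain ⟨r', s', hs', f, f'⟩ := h'
  refine ⟨r * r', s * s', by rw [map_mul]; exact mul_ne_zero hs hs', ?_, ?_⟩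
  · simp only [map_mul]; rw [← e, ← f]; ring
  · simp only [map_mul]; rw [← e', ← f']; ring

lemma Rel.neg {a : F} {α : K} (h : Rel ev a α) : Rel ev (-a) (-α) := by
  obtain ⟨r, s, hs, e, e'⟩ := h
  exact ⟨-r, s, hs, by rw [map_neg, ← e]; ring, by rw [map_neg, ← e']; ring⟩

lemma Rel.sub {a b : F} {α β : K} (h : Rel ev a α) (h' : Rel ev b β) :
    Rel ev (a - b) (α - β) := by
  rw [sub_eq_add_neg, sub_eq_add_neg]; exact h.add h'.neg

lemma Rel.pow {a : F} {α : K} (h : Rel ev a α) (n : ℕ) : Rel ev (a ^ n) (α ^ n) := by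
  induction n with
  | zero =>
    have h1 : Rel (F := F) ev (algebraMap R F 1) (ev 1) := rel_of 1
    simpa using h1
  | succ n ih => rw [pow_succ, pow_succ]; exact ih.mul h

lemma Rel.ne_zero [IsFractionRing R F] {a : F} {α : K} (h : Rel ev a α) (hα : α ≠ 0) : a ≠ 0 := by
  obtain ⟨r, s, hs, e, e'⟩ := h
  rintro rfl
  rw [zero_mul, ← map_zero (algebraMap R F)] at e
  rw [← IsFractionRing.injective R F e, map_zero] at e'
  exact mul_ne_zero hα hs e'

lemma Rel.inv [IsFractionRing R F] {a : F} {α : K} (h : Rel ev a α) (hα : α ≠ 0) :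
    Rel ev a⁻¹ α⁻¹ := by
  have ha := h.ne_zero hα
  obtain ⟨r, s, hs, e, e'⟩ := h
  exact ⟨s, r, e' ▸ mul_ne_zero hα hs, by rw [← e]; field_simp, by rw [← e']; field_simp⟩

lemma Rel.div [IsFractionRing R F] {a b : F} {α β : K} (h : Rel ev a α) (h' : Rel ev b β)
    (hβ : β ≠ 0) : Rel ev (a / b) (α / β) := by
  rw [div_eq_mul_inv, div_eq_mul_inv]; exact h.mul (h'.inv hβ)

lemma rel_natCast (n : ℕ) : Rel (F := F) ev (n : F) (n : K) := by
  have h : Rel (F := F) ev (algebraMap R F (n : R)) (ev (n : R)) := rel_of _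
  simpa using h

section curve

variable (W : WeierstrassCurve R)

/-- The generic curve. -/
local notation "WF" => W.map (algebraMap R F)
/-- The special curve. -/
local notation "WK" => W.map ev

variable (ev) in
/-- `Q` is the specialisation of `P`. -/
def SpecPt : (WF).toAffine.Point → (WK).toAffine.Point → Prop
  | .zero, .zero => True
  | .some X Y _, .some x y _ => Rel ev X x ∧ Rel ev Y y
  | _, _ => False

lemma specPt_zero : SpecPt ev W (0 : (WF).toAffine.Point) (0 : (WK).toAffine.Point) := trivial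

variable {W}

lemma SpecPt.zero_left {Q : (WK).toAffine.Point} (h : SpecPt ev W (0 : (WF).toAffine.Point) Q) :
    Q = 0 := by
  rcases Q with _ | ⟨x, y, hQ⟩
  · rfl
  · exact h.elim

lemma SpecPt.zero_right {P : (WF).toAffine.Point} (h : SpecPt ev W P (0 : (WK).toAffine.Point)) :
    P = 0 := by
  rcases P with _ | ⟨x, y, hP⟩
  · rfl
  · exact h.elim

lemma SpecPt.unique [IsFractionRing R F] {P : (WF).toAffine.Point} {Q Q' : (WK).toAffine.Point}
    (h : SpecPt ev W P Q) (h' : SpecPt ev W P Q') : Q = Q' := by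
  rcases P with _ | ⟨X, Y, hP⟩
  · exact (SpecPt.zero_left h).trans (SpecPt.zero_left h').symm
  rcases Q with _ | ⟨x, y, hQ⟩
  · exact h.elim
  rcases Q' with _ | ⟨x', y', hQ'⟩
  · exact h'.elim
  obtain ⟨hx, hy⟩ := h
  obtain ⟨hx', hy'⟩ := h'
  simp only [Affine.Point.some.injEq]
  exact ⟨hx.unique hx', hy.unique hy'⟩

lemma rel_negY {X Y : F} {x y : K} (hx : Rel ev X x) (hy : Rel ev Y y) :
    Rel ev ((WF).toAffine.negY X Y) ((WK).toAffine.negY x y) :=
  (hy.neg.sub ((rel_of W.a₁).mul hx)).sub (rel_of W.a₃)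

lemma SpecPt.neg {P : (WF).toAffine.Point} {Q : (WK).toAffine.Point} (h : SpecPt ev W P Q) :
    SpecPt ev W (-P) (-Q) := by
  rcases P with _ | ⟨X, Y, hP⟩ <;> rcases Q with _ | ⟨x, y, hQ⟩
  · trivial
  · exact h.elim
  · exact h.elim
  · exact ⟨h.1, rel_negY h.1 h.2⟩

lemma SpecPt.xc {P : (WF).toAffine.Point} {Q : (WK).toAffine.Point} (h : SpecPt ev W P Q)
    (hP : P ≠ 0) : Rel ev (FA.EC.xc P) (FA.EC.xc Q) := by
  rcases P with _ | ⟨X, Y, hX⟩
  · exact absurd rfl hP
  rcases Q with _ | ⟨x, y, hQ⟩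
  · exact h.elim
  exact h.1

variable [DecidableEq F] [DecidableEq K] [IsFractionRing R F]

/-- Addition commutes with specialisation away from the degenerate case. -/
lemma specPt_add_some {X X' Y Y' : F} {x x' y y' : K} (hP : (WF).toAffine.Nonsingular X Y)
    (hP' : (WF).toAffine.Nonsingular X' Y') (hQ : (WK).toAffine.Nonsingular x y)
    (hQ' : (WK).toAffine.Nonsingular x' y') (hx : Rel ev X x) (hy : Rel ev Y y)
    (hx' : Rel ev X' x') (hy' : Rel ev Y' y')
    (hne : x ≠ x' ∨ (X = X' ∧ Y = Y' ∧ y ≠ (WK).toAffine.negY x y)) :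
    SpecPt ev W (Affine.Point.some X Y hP + .some X' Y' hP')
      (Affine.Point.some x y hQ + .some x' y' hQ') := by
  have hadd : ∀ {l : F} {μ : K}, Rel ev l μ →
      Rel ev ((WF).toAffine.addX X X' l) ((WK).toAffine.addX x x' μ) ∧
      Rel ev ((WF).toAffine.addY X X' Y l) ((WK).toAffine.addY x x' y μ) := fun {l μ} hl => by
    have h1 : Rel ev ((WF).toAffine.addX X X' l) ((WK).toAffine.addX x x' μ) :=
      ((((hl.pow 2).add ((rel_of W.a₁).mul hl)).sub (rel_of W.a₂)).sub hx).sub hx'
    exact ⟨h1, rel_negY h1 ((hl.mul (h1.sub hx)).add hy)⟩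
  rcases hne with hne | ⟨rfl, rfl, hne⟩
  · have hX : X ≠ X' := fun h => hne ((h ▸ hx).unique hx')
    rw [Affine.Point.add_of_X_ne hX, Affine.Point.add_of_X_ne hne]
    refine hadd ?_
    rw [Affine.slope_of_X_ne hX, Affine.slope_of_X_ne hne]
    exact (hy.sub hy').div (hx.sub hx') (sub_ne_zero.mpr hne)
  · obtain rfl := hx.unique hx'
    obtain rfl := hy.unique hy'
    have hY : Y ≠ (WF).toAffine.negY X Y := fun h => hne ((h ▸ hy).unique (rel_negY hx hy))
    rw [Affine.Point.add_self_of_Y_ne hY, Affine.Point.add_self_of_Y_ne hne]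
    refine hadd ?_
    rw [Affine.slope_of_Y_ne rfl hY, Affine.slope_of_Y_ne rfl hne]
    have h3 : Rel (F := F) ev ((3 : ℕ) : F) ((3 : ℕ) : K) := rel_natCast 3
    have h2 : Rel (F := F) ev ((2 : ℕ) : F) ((2 : ℕ) : K) := rel_natCast 2
    push_cast at h2 h3
    exact ((((h3.mul (hx.pow 2)).add ((h2.mul (rel_of W.a₂)).mul hx)).add (rel_of W.a₄)).sub
      ((rel_of W.a₁).mul hy)).div (hy.sub (rel_negY hx hy)) (sub_ne_zero.mpr hne)

end curve

section torsion

variable [IsDomain R] [IsIntegrallyClosed R] [IsFractionRing R F]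
  [DecidableEq F] [DecidableEq K] [IsAlgClosed K]
  {W : WeierstrassCurve R} [(W.map (algebraMap R F)).IsElliptic] [(W.map ev).IsElliptic]
  {p : ℕ}

/-- The local notation for the generic curve. -/
local notation "WF" => W.map (algebraMap R F)
/-- The local notation for the special curve. -/
local notation "WK" => W.map ev

/-- `ΨSqₚ = preΨ'ₚ²` for odd `p`. -/
lemma nsmul_eq_zero_iff_preΨ' {L : Type*} [Field L] [DecidableEq L] {E : WeierstrassCurve L}
    [E.IsElliptic] (hp : Odd p) {x y : L} (h : E.toAffine.Nonsingular x y) :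
    p • Affine.Point.some x y h = 0 ↔ (E.preΨ' p).eval x = 0 := by
  rw [FA.EC.nsmul_eq_zero_iff, ΨSq_ofNat, if_neg (Nat.not_even_iff_odd.mpr hp), mul_one, eval_pow,
    pow_eq_zero_iff two_ne_zero]

/-- The roots of `preΨ'ₚ` are simple over an algebraically closed field. -/
lemma separable_preΨ' {E : WeierstrassCurve K} [E.IsElliptic] (hp : Odd p) (hpK : (p : K) ≠ 0) :
    (E.preΨ' p).Separable := by
  classical
  set g := E.preΨ' p
  have hg : g ≠ 0 := E.preΨ'_ne_zero hpK
  rw [← nodup_roots_iff_of_splits hg (IsAlgClosed.splits _)]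
  rw [← Multiset.toFinset_card_eq_card_iff_nodup]
  refine le_antisymm (Multiset.toFinset_card_le _) ?_
  have hsq : p ^ 2 = Nat.card {P : E.toAffine.Point // p • P = 0} :=
    (natCard_nsmul_eq_zero E hpK).symm
  have hfin : Finite {P : E.toAffine.Point // p • P = 0} :=
    Nat.finite_of_card_ne_zero (hsq ▸ pow_ne_zero 2 hp.pos.ne')
  have := Fintype.ofFinite {P : E.toAffine.Point // p • P = 0}
  let Z : {P : E.toAffine.Point // p • P = 0} := ⟨0, nsmul_zero p⟩
  have key : (Finset.univ.erase Z).card ≤ 2 * g.roots.toFinset.card := by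
    refine (Finset.card_le_mul_card_image (f := fun P => xc P.1) (n := 2) _ fun a _ => ?_).trans
      (Nat.mul_le_mul_left 2 (Finset.card_le_card fun a ha => ?_))
    · rcases (Finset.filter (fun P => xc P.1 = a) (Finset.univ.erase Z)).eq_empty_or_nonempty with
        he | ⟨P₀, hP₀⟩
      · simp [he]
      simp only [Finset.mem_filter, Finset.mem_erase, Finset.mem_univ, and_true] at hP₀
      refine (Finset.card_le_card (t := {P₀, ⟨-P₀.1, by rw [smul_neg, P₀.2, neg_zero]⟩})
        fun P hP => ?_).trans Finset.card_le_two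
      simp only [Finset.mem_filter, Finset.mem_erase, Finset.mem_univ, and_true] at hP
      rcases eq_or_eq_neg_of_xc_eq (fun h => hP.1 (Subtype.ext h))
        (fun h => hP₀.1 (Subtype.ext h)) (hP.2.trans hP₀.2.symm) with h | h
      · simp [Subtype.ext_iff, h]
      · simp [Subtype.ext_iff, h]
    · simp only [Finset.mem_image, Finset.mem_erase, Finset.mem_univ, and_true] at ha
      obtain ⟨⟨P, hP⟩, hPZ, rfl⟩ := ha
      obtain ⟨x, y, h, rfl⟩ := exists_some_of_ne_zero (fun h => hPZ (Subtype.ext h))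
      rw [Multiset.mem_toFinset, mem_roots hg]
      exact (nsmul_eq_zero_iff_preΨ' hp h).mp hP
  rw [Finset.card_erase_of_mem (Finset.mem_univ _), Finset.card_univ, ← Nat.card_eq_fintype_card,
    ← hsq] at key
  have hroots : g.roots.card ≤ (p ^ 2 - 1) / 2 := by
    refine (card_roots' g).trans ?_
    have := E.natDegree_preΨ'_le p
    rwa [if_neg (Nat.not_even_iff_odd.mpr hp)] at this
  omega

variable (hp : Odd p) (hpR : IsUnit (p : R))

include hp hpR

lemma natCast_ne_zero_K (ev : R →+* K) : (p : K) ≠ 0 := by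
  have h := hpR.map ev
  rw [map_natCast] at h
  exact h.ne_zero

/-- The coordinates of a `p`-torsion point are integral. -/
lemma exists_coords {X Y : F} (h : (WF).toAffine.Nonsingular X Y)
    (ht : p • Affine.Point.some X Y h = 0) :
    ∃ r s : R, algebraMap R F r = X ∧ algebraMap R F s = Y := by
  have hroot := (nsmul_eq_zero_iff_preΨ' hp h).mp ht
  rw [map_preΨ', eval_map] at hroot
  have hX : IsIntegral R X := by
    obtain ⟨c, hc⟩ := hpR.exists_left_inv
    refine ⟨C c * W.preΨ' p, ?_, ?_⟩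
    · refine monic_of_natDegree_le_of_coeff_eq_one ((p ^ 2 - if Even p then 4 else 1) / 2)
        ((natDegree_C_mul_le _ _).trans (W.natDegree_preΨ'_le p)) ?_
      rw [coeff_C_mul, W.coeff_preΨ', if_neg (Nat.not_even_iff_odd.mpr hp), hc]
    · rw [eval₂_mul, hroot, mul_zero]
  obtain ⟨r, hr⟩ := IsIntegrallyClosed.isIntegral_iff.mp hX
  have hY : IsIntegral R Y := by
    refine ⟨Polynomial.X ^ 2 + C (W.a₁ * r + W.a₃) * Polynomial.X -
      C (r ^ 3 + W.a₂ * r ^ 2 + W.a₄ * r + W.a₆), ?_, ?_⟩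
    · monicity!
    · have he := (Affine.equation_iff X Y).mp h.1
      simp only [map_a₁, map_a₂, map_a₃, map_a₄, map_a₆] at he
      simp only [eval₂_sub, eval₂_add, eval₂_mul, eval₂_pow, eval₂_C, eval₂_X, map_add, map_mul,
        map_pow, hr]
      linear_combination he
  obtain ⟨s, hs⟩ := IsIntegrallyClosed.isIntegral_iff.mp hY
  exact ⟨r, s, hr, hs⟩

/-- A specialisation of a `p`-torsion point exists and is `p`-torsion. -/
lemma exists_specPt {P : (WF).toAffine.Point} (ht : p • P = 0) :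
    ∃ Q : (WK).toAffine.Point, p • Q = 0 ∧ SpecPt ev W P Q := by
  rcases P with _ | ⟨X, Y, h⟩
  · exact ⟨0, nsmul_zero p, trivial⟩
  obtain ⟨r, s, rfl, rfl⟩ := exists_coords hp hpR h ht
  have he : (W).toAffine.Equation r s :=
    (Affine.map_equation (W := W.toAffine) (IsFractionRing.injective R F) r s).mp h.1
  have hn : (WK).toAffine.Nonsingular (ev r) (ev s) :=
    Affine.equation_iff_nonsingular.mp (he.map ev)
  refine ⟨.some _ _ hn, ?_, rel_of r, rel_of s⟩
  rw [nsmul_eq_zero_iff_preΨ' hp hn, map_preΨ', eval_map, eval₂_at_apply]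
  have hroot := (nsmul_eq_zero_iff_preΨ' hp h).mp ht
  rw [map_preΨ', eval_map, eval₂_at_apply] at hroot
  rw [(map_eq_zero_iff _ (IsFractionRing.injective R F)).mp hroot, map_zero]

/-- Two torsion points with congruent abscissae have equal abscissae. -/
lemma xc_eq_of_spec {X X' Y Y' : F} (h : (WF).toAffine.Nonsingular X Y)
    (h' : (WF).toAffine.Nonsingular X' Y') (ht : p • Affine.Point.some X Y h = 0)
    (ht' : p • Affine.Point.some X' Y' h' = 0) {x : K} (hx : Rel ev X x) (hx' : Rel ev X' x) :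
    X = X' := by
  by_contra hne
  obtain ⟨r, -, hr, -⟩ := exists_coords hp hpR h ht
  obtain ⟨r', -, hr', -⟩ := exists_coords hp hpR h' ht'
  have e1 : (W.preΨ' p).eval r = 0 := by
    have hroot := (nsmul_eq_zero_iff_preΨ' hp h).mp ht
    rw [map_preΨ', eval_map, ← hr, eval₂_at_apply] at hroot
    exact (map_eq_zero_iff _ (IsFractionRing.injective R F)).mp hroot
  have e2 : (W.preΨ' p).eval r' = 0 := by
    have hroot := (nsmul_eq_zero_iff_preΨ' hp h').mp ht'
    rw [map_preΨ', eval_map, ← hr', eval₂_at_apply] at hroot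
    exact (map_eq_zero_iff _ (IsFractionRing.injective R F)).mp hroot
  have hrr : r - r' ≠ 0 := sub_ne_zero.mpr fun h => hne (by rw [← hr, ← hr', h])
  obtain ⟨q, hq⟩ := (dvd_iff_isRoot (p := W.preΨ' p)).mpr e1
  have e3 : q.eval r' = 0 := by
    rw [hq] at e2
    simp only [eval_mul, eval_sub, eval_X, eval_C] at e2
    exact (mul_eq_zero.mp e2).resolve_left (by rw [← neg_sub]; exact neg_ne_zero.mpr hrr)
  obtain ⟨q', hq'⟩ := (dvd_iff_isRoot (p := q)).mpr e3
  have hxr : ev r = x := (rel_of r).unique (hr.symm ▸ hx)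
  have hxr' : ev r' = x := (rel_of r').unique (hr'.symm ▸ hx')
  have hsep := separable_preΨ' (E := WK) hp (natCast_ne_zero_K hp hpR ev)
  rw [map_preΨ', hq, hq', Polynomial.map_mul, Polynomial.map_mul, Polynomial.map_sub,
    Polynomial.map_sub, map_X, map_C, map_C, hxr, hxr', ← mul_assoc] at hsep
  exact not_isUnit_X_sub_C x (hsep.squarefree (Polynomial.X - C x) ⟨_, rfl⟩)

/-- Specialisation is injective on `p`-torsion. -/
lemma specPt_injective {P P' : (WF).toAffine.Point} {Q : (WK).toAffine.Point} (ht : p • P = 0)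
    (ht' : p • P' = 0) (hQ : p • Q = 0) (h : SpecPt ev W P Q) (h' : SpecPt ev W P' Q) :
    P = P' := by
  rcases Q with _ | ⟨x, y, hy⟩
  · exact (SpecPt.zero_right h).trans (SpecPt.zero_right h').symm
  rcases P with _ | ⟨X, Y, hP⟩
  · exact h.elim
  rcases P' with _ | ⟨X', Y', hP'⟩
  · exact h'.elim
  have hxx := xc_eq_of_spec hp hpR hP hP' ht ht' h.1 h'.1
  rcases Affine.Point.X_eq_iff (h₁ := hP) (h₂ := hP') |>.mp hxx with e | e
  · exact e
  · exfalso
    have hh : SpecPt ev W (Affine.Point.some X Y hP) (-(Affine.Point.some x y hy)) :=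
      e ▸ SpecPt.neg h'
    have e2 := SpecPt.unique h hh
    have h2 : (2 : ℕ) • Affine.Point.some x y hy = 0 := by
      rw [two_nsmul]; nth_rw 1 [e2]; exact neg_add_cancel _
    obtain ⟨k, hk⟩ := hp
    rw [hk, add_nsmul, mul_comm, mul_nsmul', h2, nsmul_zero, zero_add, one_nsmul] at hQ
    exact Affine.Point.some_ne_zero hy hQ

/-- Specialisation is additive on `p`-torsion. -/
lemma specPt_add {P P' : (WF).toAffine.Point} {Q Q' : (WK).toAffine.Point} (ht : p • P = 0)
    (ht' : p • P' = 0) (hQ : p • Q = 0) (h : SpecPt ev W P Q) (h' : SpecPt ev W P' Q') :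
    SpecPt ev W (P + P') (Q + Q') := by
  rcases P with _ | ⟨X, Y, hP⟩
  · rw [show Q = 0 from SpecPt.zero_left h, ← Affine.Point.zero_def, zero_add, zero_add]
    exact h'
  rcases P' with _ | ⟨X', Y', hP'⟩
  · rw [show Q' = 0 from SpecPt.zero_left h', ← Affine.Point.zero_def, add_zero, add_zero]
    exact h
  rcases Q with _ | ⟨x, y, hQ1⟩
  · exact h.elim
  rcases Q' with _ | ⟨x', y', hQ1'⟩
  · exact h'.elim
  by_cases hx : x = x'
  · obtain rfl := xc_eq_of_spec hp hpR hP hP' ht ht' h.1 (hx ▸ h'.1)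
    rcases Affine.Point.X_eq_iff (h₁ := hP) (h₂ := hP') |>.mp rfl with e | e
    · simp only [Affine.Point.some.injEq, true_and] at e
      refine specPt_add_some hP hP' hQ1 hQ1' h.1 h.2 h'.1 h'.2 (Or.inr ⟨rfl, e, fun hy => ?_⟩)
      obtain ⟨k, hk⟩ := hp
      rw [hk, add_nsmul, mul_comm, mul_nsmul', two_nsmul, Affine.Point.add_self_of_Y_eq hy,
        nsmul_zero, zero_add, one_nsmul] at hQ
      exact Affine.Point.some_ne_zero hQ1 hQ
    · have e2 := SpecPt.unique (e ▸ h :) (SpecPt.neg h')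
      rw [e, neg_add_cancel, e2, neg_add_cancel]
      trivial
  · exact specPt_add_some hP hP' hQ1 hQ1' h.1 h.2 h'.1 h'.2 (Or.inl hx)

/-- The specialisation homomorphism on `p`-torsion. -/
noncomputable def specHom :
    Submodule.torsionBy ℤ (WF).toAffine.Point p →+ Submodule.torsionBy ℤ (WK).toAffine.Point p :=
  have h : ∀ P : Submodule.torsionBy ℤ (WF).toAffine.Point p, p • P.1 = 0 := fun P => by
    have := P.2; rwa [Submodule.mem_torsionBy_iff, natCast_zsmul] at this
  AddMonoidHom.mk'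
    (fun P => ⟨(exists_specPt (ev := ev) hp hpR (h P)).choose, by
      rw [Submodule.mem_torsionBy_iff, natCast_zsmul]
      exact (exists_specPt hp hpR (h P)).choose_spec.1⟩)
    (fun P P' => Subtype.ext <| SpecPt.unique (exists_specPt hp hpR (h (P + P'))).choose_spec.2
      (specPt_add hp hpR (h P) (h P') (exists_specPt hp hpR (h P)).choose_spec.1
        (exists_specPt hp hpR (h P)).choose_spec.2 (exists_specPt hp hpR (h P')).choose_spec.2))

lemma specHom_spec (P : Submodule.torsionBy ℤ (WF).toAffine.Point p) :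
    SpecPt ev W P.1 (specHom (ev := ev) (F := F) (W := W) hp hpR P).1 :=
  (exists_specPt (ev := ev) hp hpR (nsmul_of_mem_torsionBy P)).choose_spec.2

lemma specHom_injective : Function.Injective (specHom (ev := ev) (F := F) (W := W) hp hpR) := fun P P' h => by
  have e : ∀ Q : Submodule.torsionBy ℤ (WF).toAffine.Point p, p • Q.1 = 0 := fun Q => by
    have := Q.2; rwa [Submodule.mem_torsionBy_iff, natCast_zsmul] at this
  have h1 := (specHom (ev := ev) (F := F) (W := W) hp hpR P').2
  rw [Submodule.mem_torsionBy_iff, natCast_zsmul] at h1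
  exact Subtype.ext <| specPt_injective hp hpR (e P) (e P') h1 (h ▸ specHom_spec hp hpR P)
    (specHom_spec hp hpR P')

end torsion

end FA.Switch
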