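/-
The universal curve `y² = x³ - 27 c₄(u,v) x - 54 c₆(u,v)` over the polynomial ring, its explicit
`5`-torsion points, their specialisations, and the action of the symmetries of `(c₄, c₆)`.
-/
import Fermat.Agent.Switch.SpecTorsion
import Fermat.Agent.Switch.Icosahedral
import Fermat.Agent.Frob.MapHom
import Mathlib.RingTheory.Polynomial.UniqueFactorization
import Mathlib.RingTheory.Localization.FractionRing

set_option autoImplicit false
set_option linter.unusedSectionVars false

open WeierstrassCurve MvPolynomial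

namespace FA.Switch

/-- The short model with `(c₄, c₆)` proportional to `(a, b)`. -/
def shortKl {A : Type*} [CommRing A] (a b : A) : WeierstrassCurve A :=
  ⟨0, 0, 0, -27 * a, -54 * b⟩

lemma shortKl_map {A B : Type*} [CommRing A] [CommRing B] (f : A →+* B) (a b : A) :
    (shortKl a b).map f = shortKl (f a) (f b) := by
  ext <;> simp [shortKl, map_ofNat]

lemma shortKl_Δ {A : Type*} [CommRing A] (a b : A) :
    (shortKl a b).Δ = 1259712 * (a ^ 3 - b ^ 2) := by
  simp only [shortKl, WeierstrassCurve.Δ, WeierstrassCurve.b₂, WeierstrassCurve.b₄,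
    WeierstrassCurve.b₆, WeierstrassCurve.b₈]
  ring

lemma shortKl_isElliptic {L : Type*} [Field L] [CharZero L] {a b : L} (h : a ^ 3 ≠ b ^ 2) :
    (shortKl a b).IsElliptic :=
  ⟨by rw [shortKl_Δ]; exact (mul_ne_zero (by norm_num) (sub_ne_zero.mpr h)).isUnit⟩

section maps

variable {A B : Type*} [CommRing A] [CommRing B]

lemma map_klC4 (f : A →+* B) (u v : A) : f (klC4 u v) = klC4 (f u) (f v) := by
  simp [klC4, c4UV, map_ofNat]

lemma map_klC6 (f : A →+* B) (u v : A) : f (klC6 u v) = klC6 (f u) (f v) := by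
  simp [klC6, c6UV, map_ofNat]

lemma map_klF (f : A →+* B) (u v : A) : f (klF u v) = klF (f u) (f v) := by
  simp [klF, map_ofNat]

variable {L M : Type*} [Field L] [Field M] (f : L →+* M) (η δ U V : L)

lemma map_ptX : f (ptX η U V) = ptX (f η) (f U) (f V) := by
  simp [ptX, map_ofNat]

lemma map_ptY : f (ptY η δ U V) = ptY (f η) (f δ) (f U) (f V) := by
  simp [ptY, map_ofNat]

lemma map_ptL : f (ptL η δ U V) = ptL (f η) (f δ) (f U) (f V) := by
  simp [ptL, map_ofNat]

end maps

section dblPt

variable {L : Type*} [Field L] [CharZero L] [DecidableEq L] {η δ U V : L}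
  (hη : η ^ 2 + η - 1 = 0) (hδ : δ ^ 2 + η + 3 = 0) {W : WeierstrassCurve L} [W.IsElliptic]
  (hW : W = shortKl (c4UV U V) (c6UV U V))

include hη hδ hW

lemma nonsingular_pt : W.toAffine.Nonsingular (ptX η U V) (ptY η δ U V) := by
  refine Affine.equation_iff_nonsingular.mp ?_
  subst hW
  rw [Affine.equation_iff]
  simp only [shortKl, zero_mul, add_zero]
  linear_combination pt_equation hη hδ U V

lemma ptY_ne_zero : ptY η δ U V ≠ 0 := by
  intro h0
  have hn := nonsingular_pt hη hδ hW
  subst hW
  rw [Affine.nonsingular_iff] at hn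
  simp only [shortKl, zero_mul, h0, mul_zero, neg_zero, add_zero, sub_zero, ne_eq] at hn
  refine hn.2.elim (fun h => h ?_) (fun h => h trivial)
  have ht := pt_tangent hη hδ U V
  rw [h0] at ht
  linear_combination ht

lemma pt_add_self :
    Affine.Point.some _ _ (nonsingular_pt hη hδ hW) + .some _ _ (nonsingular_pt hη hδ hW) =
      .some _ _ (nonsingular_pt (eta_conj hη) (delta_conj hη hδ) hW) := by
  have hY := ptY_ne_zero hη hδ hW
  subst hW
  have hne : ptY η δ U V ≠
      (shortKl (c4UV U V) (c6UV U V)).toAffine.negY (ptX η U V) (ptY η δ U V) := by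
    simp only [Affine.negY, shortKl, zero_mul, sub_zero]
    intro h
    exact hY (by linear_combination h / 2)
  have hs : (shortKl (c4UV U V) (c6UV U V)).toAffine.slope (ptX η U V) (ptX η U V) (ptY η δ U V)
      (ptY η δ U V) = ptL η δ U V := by
    rw [Affine.slope_of_Y_ne rfl hne]
    simp only [Affine.negY, shortKl, zero_mul, sub_zero, mul_zero, add_zero]
    rw [div_eq_iff (by intro h; exact hY (by linear_combination h / 2))]
    linear_combination -pt_tangent hη hδ U V
  rw [Affine.Point.add_self_of_Y_ne hne]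
  simp only [Affine.Point.some.injEq, hs]
  constructor
  · simp only [Affine.addX, shortKl, zero_mul, add_zero, sub_zero]
    linear_combination -pt_double_x hη hδ U V
  · simp only [Affine.addY, Affine.negAddY, Affine.negY, Affine.addX, shortKl, zero_mul, add_zero,
      sub_zero]
    rw [pt_double_y hη U V, pt_double_x hη hδ U V]
    ring

omit hη hδ hW in
lemma delta_conj_conj (η δ : L) (hη : η ^ 2 + η - 1 = 0) : (-1 - η) * (η * δ) = -δ := by
  linear_combination -δ * hη

lemma five_nsmul_pt : (5 : ℕ) • Affine.Point.some _ _ (nonsingular_pt hη hδ hW) = 0 := by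
  set P := Affine.Point.some _ _ (nonsingular_pt hη hδ hW) with hP
  set Q := Affine.Point.some _ _ (nonsingular_pt (eta_conj hη) (delta_conj hη hδ) hW) with hQ
  have h2 : P + P = Q := pt_add_self hη hδ hW
  have h4 : Q + Q = -P := by
    rw [hQ, pt_add_self (eta_conj hη) (delta_conj hη hδ) hW, hP, Affine.Point.neg_some]
    simp only [Affine.Point.some.injEq]
    subst hW
    simp only [Affine.negY, shortKl, zero_mul, sub_zero, sub_sub_cancel_left, neg_neg,
      sub_sub_cancel, delta_conj_conj η δ hη, true_and]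
    simp only [ptY]
    ring
  have : (5 : ℕ) • P = (P + P) + (P + P) + P := by abel
  rw [this, h2, h4, neg_add_cancel]

end dblPt

variable (K : Type*) [Field K] [CharZero K]

/-- The parameter ring. -/
abbrev ParR := MvPolynomial (Fin 2) K

/-- The function field of the parameters. -/
abbrev ParF := FractionRing (ParR K)

noncomputable instance : DecidableEq (ParF K) := Classical.decEq _

/-- The universal curve. -/
noncomputable def WR : WeierstrassCurve (ParR K) := shortKl (polyC4 K) (polyC6 K)

/-- The generic curve. -/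
noncomputable abbrev EG : WeierstrassCurve (ParF K) :=
  (WR K).map (algebraMap (ParR K) (ParF K))

lemma polyF_ne_zero : polyF K ≠ 0 := fun h => by
  have h1 := congrArg (MvPolynomial.eval (fun _ => (1 : K))) h
  rw [eval_polyF, map_zero, klF] at h1
  norm_num at h1

lemma WR_Δ_ne_zero : (WR K).Δ ≠ 0 := by
  have h : (WR K).Δ = 1259712 * (1728 * polyF K ^ 5) := by
    rw [WR, shortKl_Δ, polyC4, polyC6, klein_syzygy, polyF]
  rw [h]
  exact mul_ne_zero (num_ne_zero 1259712) (mul_ne_zero (num_ne_zero 1728)
    (pow_ne_zero 5 (polyF_ne_zero K)))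

instance : (EG K).IsElliptic := ⟨by
  rw [WeierstrassCurve.map_Δ]
  exact ((map_ne_zero_iff _ (IsFractionRing.injective _ _)).mpr (WR_Δ_ne_zero K)).isUnit⟩

/-- The `5`-torsion of the generic curve. -/
noncomputable abbrev T5 := Submodule.torsionBy ℤ (EG K).toAffine.Point 5

variable {K}

/-- The embedding of constants. -/
noncomputable abbrev cF : K →+* ParF K := (algebraMap (ParR K) (ParF K)).comp MvPolynomial.C

/-- The variables in the function field. -/
noncomputable abbrev xF (i : Fin 2) : ParF K := algebraMap (ParR K) (ParF K) (X i)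

lemma EG_eq : EG K = shortKl (c4UV (xF (K := K) 0 ^ 5) (xF 1 ^ 5))
    (c6UV (xF (K := K) 0 ^ 5) (xF 1 ^ 5)) := by
  rw [EG, WR, shortKl_map, polyC4, polyC6, map_klC4, map_klC6, klC4, klC6]

lemma mem_T5 {P : (EG K).toAffine.Point} (h : (5 : ℕ) • P = 0) :
    P ∈ Submodule.torsionBy ℤ (EG K).toAffine.Point 5 := by
  rw [Submodule.mem_torsionBy_iff, ← h]
  exact_mod_cast (natCast_zsmul P 5)

lemma nsmul_T5 (P : T5 K) : (5 : ℕ) • P.1 = 0 := by
  have := (Submodule.mem_torsionBy_iff _ _).mp P.2
  rw [← natCast_zsmul]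
  exact_mod_cast this

lemma isUnit_five : IsUnit ((5 : ℕ) : ParR K) := by
  rw [← map_natCast (MvPolynomial.C : K →+* ParR K) 5]
  exact (Nat.cast_ne_zero.mpr (by norm_num)).isUnit.map _

lemma odd_five : Odd (5 : ℕ) := ⟨2, rfl⟩

/-- The coordinates of a non-zero torsion point are polynomials. -/
lemma T5_cases (P : T5 K) :
    P = 0 ∨ ∃ (r s : ParR K) (h : (EG K).toAffine.Nonsingular (algebraMap _ _ r) (algebraMap _ _ s)),
      P.1 = .some _ _ h := by
  rcases hP : P.1 with _ | ⟨X, Y, h⟩
  · exact .inl (Subtype.ext hP)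
  · obtain ⟨r, s, rfl, rfl⟩ := exists_coords odd_five isUnit_five h (hP ▸ nsmul_T5 P)
    exact .inr ⟨r, s, h, rfl⟩

section endo

variable (φ : ParR K →+* ParR K) (hφ : Function.Injective φ)

/-- The extension to fractions. -/
noncomputable def fracExt : ParF K →+* ParF K := IsFractionRing.map hφ

lemma fracExt_algebraMap (r : ParR K) :
    fracExt φ hφ (algebraMap (ParR K) (ParF K) r) = algebraMap _ _ (φ r) :=
  by simp [fracExt, IsFractionRing.map]

variable (h4 : φ (polyC4 K) = polyC4 K) (h6 : φ (polyC6 K) = polyC6 K)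

include h4 h6 in
lemma EG_map_fracExt : (EG K).map (fracExt φ hφ) = EG K := by
  rw [EG, WR, shortKl_map, shortKl_map, fracExt_algebraMap, fracExt_algebraMap, h4, h6]

/-- The endomorphism of the generic `5`-torsion induced by a symmetry of the parameters. -/
noncomputable def endoT : T5 K →+ T5 K :=
  AddMonoidHom.mk'
    (fun P => ⟨FA.Frob.mapHom (fracExt φ hφ) (EG_map_fracExt φ hφ h4 h6) P.1,
      mem_T5 (by rw [← map_nsmul, nsmul_T5, map_zero])⟩)
    fun P Q => Subtype.ext (map_add (FA.Frob.mapHom (fracExt φ hφ) _) P.1 Q.1)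

lemma endoT_some {P : T5 K} {x y : ParF K} {h : (EG K).toAffine.Nonsingular x y}
    (hP : P.1 = .some x y h) :
    (endoT φ hφ h4 h6 P).1 = .some (fracExt φ hφ x) (fracExt φ hφ y)
      (FA.Frob.nonsingular_mapHom _ (EG_map_fracExt φ hφ h4 h6) h) := by
  show FA.Frob.mapHom _ _ P.1 = _
  rw [hP]; rfl

end endo

section spec

variable [IsAlgClosed K] [DecidableEq K]

/-- The parameters `w` give the curve with invariants `(a, b)`. -/
structure Sat (w : Fin 2 → K) (a b : K) : Prop where
  eq4 : klC4 (w 0) (w 1) = a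
  eq6 : klC6 (w 0) (w 1) = b
  disc : a ^ 3 ≠ b ^ 2

lemma Sat.WR_map {w : Fin 2 → K} {a b : K} (h : Sat w a b) :
    (WR K).map (MvPolynomial.eval w) = shortKl a b := by
  rw [WR, shortKl_map, eval_polyC4, eval_polyC6, h.eq4, h.eq6]

lemma Sat.klF_ne_zero {w : Fin 2 → K} {a b : K} (h : Sat w a b) : klF (w 0) (w 1) ≠ 0 := by
  intro h0
  have := klein_syzygy (w 0) (w 1)
  rw [h.eq4, h.eq6, h0] at this
  exact h.disc (by linear_combination this)

lemma Sat.isElliptic {w : Fin 2 → K} {a b : K} (h : Sat w a b) :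
    ((WR K).map (MvPolynomial.eval w)).IsElliptic := by
  rw [h.WR_map]; exact shortKl_isElliptic h.disc

/-- The identification of the special curve with its short model. -/
noncomputable def transfer {w : Fin 2 → K} {a b : K} (h : Sat w a b) :
    ((WR K).map (MvPolynomial.eval w)).toAffine.Point →+ (shortKl a b).toAffine.Point :=
  FA.Frob.mapHom (W := ((WR K).map (MvPolynomial.eval w)).toAffine) (RingHom.id K)
    ((WeierstrassCurve.map_id _).trans h.WR_map)

/-- Specialisation of the generic `5`-torsion at `w`. -/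
noncomputable def spt {w : Fin 2 → K} {a b : K} (h : Sat w a b) :
    T5 K →+ (shortKl a b).toAffine.Point :=
  haveI := h.isElliptic
  (transfer h).comp
    ((Submodule.torsionBy ℤ _ _).subtype.toAddMonoidHom.comp
      (specHom (ev := MvPolynomial.eval w) (F := ParF K) (W := WR K) odd_five isUnit_five))

variable {w : Fin 2 → K} {a b : K} (hw : Sat w a b)

lemma five_nsmul_spt (P : T5 K) : (5 : ℕ) • spt hw P = 0 := by
  rw [← map_nsmul, show (5 : ℕ) • P = 0 from Subtype.ext (nsmul_T5 P), map_zero]

lemma spt_injective : Function.Injective (spt hw) := by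
  haveI := hw.isElliptic
  exact (show Function.Injective (transfer hw) from FA.Frob.mapHom_injective _ _).comp
    (Subtype.val_injective.comp (specHom_injective odd_five isUnit_five))

lemma spt_some {P : T5 K} {r s : ParR K}
    {h : (EG K).toAffine.Nonsingular (algebraMap _ _ r) (algebraMap _ _ s)}
    (hP : P.1 = .some _ _ h) :
    ∃ h', spt hw P = .some (MvPolynomial.eval w r) (MvPolynomial.eval w s) h' := by
  haveI := hw.isElliptic
  have hs := specHom_spec (ev := MvPolynomial.eval w) (F := ParF K) (W := WR K) odd_five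
    isUnit_five P
  rw [hP] at hs
  rcases hQ : (specHom (ev := MvPolynomial.eval w) (F := ParF K) (W := WR K) odd_five isUnit_five
    P).1 with _ | ⟨x, y, hxy⟩
  · exfalso
    rw [hQ] at hs
    exact hs
  · rw [hQ] at hs
    have hx := hs.1.unique (rel_of r)
    have hy := hs.2.unique (rel_of s)
    subst hx hy
    refine ⟨FA.Frob.nonsingular_mapHom (W := ((WR K).map (MvPolynomial.eval w)).toAffine)
      (RingHom.id K) ((WeierstrassCurve.map_id _).trans hw.WR_map) hxy, ?_⟩
    show transfer hw ((specHom (ev := MvPolynomial.eval w) (F := ParF K) (W := WR K)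
      odd_five isUnit_five P).1) = _
    rw [hQ]
    rfl

/-- Specialisation commutes with the symmetries. -/
theorem spt_natural {w' : Fin 2 → K} {a' b' : K} (hw' : Sat w' a' b') (φ : ParR K →+* ParR K)
    (hφ : Function.Injective φ) (h4 : φ (polyC4 K) = polyC4 K) (h6 : φ (polyC6 K) = polyC6 K)
    (τ : K →+* K) (hτ : (shortKl a' b').map τ = shortKl a b)
    (hev : ∀ p, MvPolynomial.eval w (φ p) = τ (MvPolynomial.eval w' p)) (P : T5 K) :
    spt hw (endoT φ hφ h4 h6 P) = FA.Frob.mapHom τ hτ (spt hw' P) := by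
  rcases T5_cases P with rfl | ⟨r, s, h, hP⟩
  · simp
  obtain ⟨h', e'⟩ := spt_some hw' hP
  have h2 : (endoT φ hφ h4 h6 P).1 = Affine.Point.some (algebraMap (ParR K) (ParF K) (φ r))
      (algebraMap (ParR K) (ParF K) (φ s))
      (by simpa only [fracExt_algebraMap] using
        FA.Frob.nonsingular_mapHom _ (EG_map_fracExt φ hφ h4 h6) h) := by
    rw [endoT_some φ hφ h4 h6 hP]
    simp only [fracExt_algebraMap]
  obtain ⟨h'', e''⟩ := spt_some hw h2
  rw [e', e'', FA.Frob.mapHom_some]
  simp only [hev]

end spec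

end FA.Switch
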