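/-
Algebraic numbers fixed by the decomposition group of a place can be approximated by rationals.
-/
import Fermat.Agent.TW.Frobenius
import Mathlib.FieldTheory.Galois.Infinite

set_option autoImplicit false

open FA.Deform Polynomial
open scoped Pointwise

namespace FA.Switch

noncomputable section

local notation "Qb" => AlgebraicClosure ℚ
local notation "GQ" => AlgebraicClosure ℚ ≃ₐ[ℚ] AlgebraicClosure ℚ

variable {A : ValuationSubring Qb} {q : ℕ}

lemma v_natPrime_lt (hA : A.LiesOverPrime q) : A.valuation (q : Qb) < 1 := A.mem_nonunits_iff.mp hA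

lemma v_natPrime_ne (hq : q.Prime) : A.valuation (q : Qb) ≠ 0 :=
  (_root_.map_ne_zero _).mpr (Nat.cast_ne_zero.mpr hq.ne_zero)

lemma v_zbar_le (x : ZBar) : A.valuation (x : Qb) ≤ 1 :=
  (A.valuation_le_one_iff _).mpr (zbar_mem_valuationSubring A x)

/-- The value of a nonzero integer is a power of the value of `q`. -/
lemma v_intCast_eq_pow (hq : q.Prime) (hA : A.LiesOverPrime q) {n : ℤ} (hn : n ≠ 0) :
    ∃ j : ℕ, A.valuation (n : Qb) = A.valuation (q : Qb) ^ j := by
  obtain ⟨j, m, hm, hnm⟩ := Nat.exists_eq_pow_mul_and_not_dvd (Int.natAbs_ne_zero.mpr hn) q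
    hq.ne_one
  refine ⟨j, ?_⟩
  have e : A.valuation (n : Qb) = A.valuation ((n.natAbs : ℕ) : Qb) := by
    rcases Int.natAbs_eq n with h | h <;>
      conv_lhs => rw [h]
    · simp
    · simp
  have hm1 : A.valuation (m : Qb) = 1 := by
    refine le_antisymm ?_ (not_lt.mp fun h => hm ?_)
    · have := v_zbar_le (A := A) (m : ZBar)
      simpa using this
    · have h' : ((m : ℤ) : ZBar) ∈ primeAt A := by
        rw [mem_primeAt, A.mem_nonunits_iff]
        simpa using h
      exact Int.natCast_dvd_natCast.mp ((intCast_mem_primeAt_iff hq hA _).mp h')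
  rw [e, hnm, Nat.cast_mul, Nat.cast_pow, map_mul, map_pow, hm1, mul_one]

lemma exists_int_mul_zbar (x : Qb) : ∃ n : ℤ, n ≠ 0 ∧ IsIntegral ℤ ((n : Qb) * x) := by
  have hx : IsAlgebraic ℤ x := (IsFractionRing.isAlgebraic_iff ℤ ℚ Qb).mpr
    ((AlgebraicClosure.isAlgebraic ℚ).isAlgebraic x)
  obtain ⟨n, hn, hint⟩ := hx.exists_integral_multiple
  exact ⟨n, hn, by simpa [Algebra.smul_def] using hint⟩

/-- Every value is bounded by a negative power of the value of `q`. -/
lemma exists_pow_mul_le (hq : q.Prime) (hA : A.LiesOverPrime q) (x : Qb) :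
    ∃ j : ℕ, A.valuation (q : Qb) ^ j * A.valuation x ≤ 1 := by
  obtain ⟨n, hn, hint⟩ := exists_int_mul_zbar x
  obtain ⟨j, hj⟩ := v_intCast_eq_pow hq hA hn
  refine ⟨j, ?_⟩
  rw [← hj, ← map_mul]
  exact v_zbar_le (⟨_, hint⟩ : ZBar)

/-- A small algebraic integer has a power divisible by `q`. -/
lemma exists_pow_le (hq : q.Prime) (hA : A.LiesOverPrime q) (x : ZBar)
    (hx : A.valuation (x : Qb) < 1) :
    ∃ N : ℕ, 0 < N ∧ A.valuation (x : Qb) ^ N ≤ A.valuation (q : Qb) := by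
  rcases eq_or_ne (x : Qb) 0 with h0 | h0
  · exact ⟨1, one_pos, by rw [h0, map_zero, pow_one]; exact zero_le⟩
  obtain ⟨f, hf, hfx⟩ := x.2
  set v := A.valuation
  set n := f.natDegree
  have hsum : ∑ i ∈ Finset.range (n + 1), ((f.coeff i : ℤ) : Qb) * (x : Qb) ^ i = 0 := by
    rw [eval₂_eq_sum_range] at hfx
    simpa using hfx
  -- the dominant term is attained twice
  obtain ⟨i, hi, j, hj, hij, hci, hcj, he⟩ : ∃ i ∈ Finset.range (n + 1), ∃ j ∈ Finset.range (n + 1),
      i < j ∧ f.coeff i ≠ 0 ∧ f.coeff j ≠ 0 ∧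
      v (((f.coeff i : ℤ) : Qb) * (x : Qb) ^ i) = v (((f.coeff j : ℤ) : Qb) * (x : Qb) ^ j) := by
    by_contra hcon
    push Not at hcon
    obtain ⟨k, hk, hmax⟩ := Finset.exists_max_image (Finset.range (n + 1))
      (fun i => v (((f.coeff i : ℤ) : Qb) * (x : Qb) ^ i)) ⟨n, by simp⟩
    have hk0 : v (((f.coeff k : ℤ) : Qb) * (x : Qb) ^ k) ≠ 0 := by
      intro h
      have := le_antisymm ((hmax n (by simp)).trans h.le) zero_le
      rw [show f.coeff n = 1 from hf.coeff_natDegree] at this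
      simp [v, h0] at this
    have hck : f.coeff k ≠ 0 := fun h => by simp [h] at hk0
    have := v.map_sum_eq_of_lt (s := Finset.range (n + 1))
      (f := fun i => ((f.coeff i : ℤ) : Qb) * (x : Qb) ^ i) hk fun i hi => by
        rw [Finset.mem_sdiff, Finset.mem_singleton] at hi
        refine lt_of_le_of_ne (hmax i hi.1) fun heq => ?_
        have hci : f.coeff i ≠ 0 := fun h => hk0 (by rw [← heq]; simp [h])
        rcases Nat.lt_or_gt_of_ne hi.2 with hlt | hlt
        · exact hcon i hi.1 k hk hlt hci hck heq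
        · exact hcon k hk i hi.1 hlt hck hci heq.symm
    rw [hsum, map_zero] at this
    exact hk0 this.symm
  obtain ⟨a, ha⟩ := v_intCast_eq_pow hq hA hci
  obtain ⟨b, hb⟩ := v_intCast_eq_pow hq hA hcj
  obtain ⟨d, hd, rfl⟩ : ∃ d, 0 < d ∧ j = i + d := ⟨j - i, by omega, by omega⟩
  rw [map_mul, map_mul, map_pow, map_pow, ha, hb, pow_add] at he
  have he' : v (q : Qb) ^ a = v (q : Qb) ^ b * v (x : Qb) ^ d :=
    mul_right_cancel₀ (pow_ne_zero i ((_root_.map_ne_zero v).mpr h0))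
      (by rw [he, mul_assoc, mul_comm (v (x : Qb) ^ i)])
  have hba : b < a := by
    refine not_le.mp fun hle => ?_
    obtain ⟨c, rfl⟩ := Nat.exists_eq_add_of_le hle
    have h1 : (1 : A.ValueGroup) = v (q : Qb) ^ c * v (x : Qb) ^ d := by
      refine mul_left_cancel₀ (pow_ne_zero a (v_natPrime_ne (A := A) hq)) ?_
      rw [mul_one, ← mul_assoc, ← pow_add]
      exact he'
    refine absurd h1.symm (ne_of_lt ?_)
    exact (mul_le_of_le_one_left' (pow_le_one₀ zero_le (v_natPrime_lt hA).le)).trans_lt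
      (pow_lt_one₀ zero_le hx hd.ne')
  obtain ⟨c, rfl⟩ := Nat.exists_eq_add_of_lt hba
  refine ⟨d, hd, ?_⟩
  have h2 : v (x : Qb) ^ d = v (q : Qb) ^ (c + 1) := by
    refine mul_left_cancel₀ (pow_ne_zero b (v_natPrime_ne (A := A) hq)) ?_
    rw [← pow_add, ← he']
    rfl
  rw [h2]
  exact pow_le_of_le_one zero_le (v_natPrime_lt hA).le (by omega)

lemma primeAt_isMaximal (hq : q.Prime) (hA : A.LiesOverPrime q) : (primeAt A).IsMaximal := by
  refine Ideal.isMaximal_of_isIntegral_of_isMaximal_comap (R := ℤ) _ ?_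
  have : (primeAt A).comap (algebraMap ℤ ZBar) = Ideal.span {(q : ℤ)} := by
    ext n
    rw [Ideal.mem_comap, Ideal.mem_span_singleton, eq_intCast (algebraMap ℤ ZBar),
      intCast_mem_primeAt_iff hq hA]
  rw [this]
  exact PrincipalIdealRing.isMaximal_of_irreducible (Nat.prime_iff_prime_int.mp hq).irreducible

/-- An automorphism which maps small integers to small integers stabilises the place. -/
lemma smul_eq_of_small (hq : q.Prime) (hA : A.LiesOverPrime q) (ρ : GQ)
    (h : ∀ x : ZBar, A.valuation (x : Qb) < 1 → A.valuation (ρ (x : Qb)) < 1) : ρ • A = A := by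
  let f : ZBar →+* ZBar := MulSemiringAction.toRingHom GQ ZBar ρ
  have hle : primeAt A ≤ (primeAt A).comap f := fun x hx => by
    rw [Ideal.mem_comap, mem_primeAt, A.mem_nonunits_iff]
    rw [mem_primeAt, A.mem_nonunits_iff] at hx
    simpa [f, integralClosure.coe_smul] using h x hx
  have heq : primeAt A = (primeAt A).comap f := (primeAt_isMaximal hq hA).eq_of_le
    (Ideal.comap_ne_top _ (primeAt_isMaximal hq hA).ne_top) hle
  have hiff : ∀ b : ZBar, ρ • b ∈ primeAt A ↔ b ∈ primeAt A := fun b => by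
    conv_rhs => rw [heq, Ideal.mem_comap]
    rfl
  have hiff' : ∀ b : ZBar, ρ⁻¹ • b ∈ primeAt A ↔ b ∈ primeAt A := fun b => by
    conv_rhs => rw [show b = ρ • (ρ⁻¹ • b) by simp, hiff]
  ext x
  rw [ValuationSubring.mem_pointwise_smul_iff_inv_smul_mem, AlgEquiv.smul_def]
  refine ⟨fun hx => ?_, fun hx => FA.TW.apply_mem_of_primeAt hq hA ρ⁻¹ hiff' hx⟩
  have := FA.TW.apply_mem_of_primeAt hq hA ρ hiff hx
  simpa using this

lemma continuous_apply' (x : Qb) (P : Qb → Prop) : IsOpen {σ : GQ | P (σ x)} := by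
  have hx : IsIntegral ℚ x := ((AlgebraicClosure.isAlgebraic ℚ).isAlgebraic x).isIntegral
  rw [isOpen_iff_forall_mem_open]
  intro σ hσ
  refine ⟨(fun τ => σ * τ) '' (MulAction.stabilizer GQ x : Set GQ), ?_, ?_, 1,
    MulAction.mem_stabilizer_iff.mpr (one_smul _ _), mul_one σ⟩
  · rintro _ ⟨τ, hτ, rfl⟩
    have : τ x = x := hτ
    simp only [Set.mem_setOf_eq, AlgEquiv.mul_apply, this]
    exact hσ
  · exact (Homeomorph.mulLeft σ).isOpenMap _ (stabilizer_isOpen_of_isIntegral (K := ℚ) x)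

lemma isClosed_apply' (x : Qb) (P : Qb → Prop) : IsClosed {σ : GQ | P (σ x)} :=
  ⟨continuous_apply' x fun y => ¬ P y⟩

lemma finite_orbit (x : Qb) : (Set.range fun σ : GQ => σ x).Finite := by
  have hx : IsIntegral ℚ x := ((AlgebraicClosure.isAlgebraic ℚ).isAlgebraic x).isIntegral
  refine (Polynomial.rootSet_finite (minpoly ℚ x) Qb).subset ?_
  rintro _ ⟨σ, rfl⟩
  rw [Polynomial.mem_rootSet_of_ne (minpoly.ne_zero hx)]
  show aeval ((σ : Qb →ₐ[ℚ] Qb) x) (minpoly ℚ x) = 0
  rw [aeval_algHom_apply, minpoly.aeval, map_zero]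

/-- Uniform bound along the conjugates. -/
lemma exists_uniform_pow (hq : q.Prime) (hA : A.LiesOverPrime q) (x : ZBar) :
    ∃ N : ℕ, 0 < N ∧ ∀ σ : GQ, A.valuation (σ (x : Qb)) < 1 →
      A.valuation (σ (x : Qb)) ^ N ≤ A.valuation (q : Qb) := by
  classical
  have key : ∀ s : Finset Qb, (∀ y ∈ s, IsIntegral ℤ y) → ∃ N : ℕ, 0 < N ∧
      ∀ y ∈ s, A.valuation y < 1 → A.valuation y ^ N ≤ A.valuation (q : Qb) := by
    intro s
    induction s using Finset.induction_on with
    | empty => exact fun _ => ⟨1, one_pos, by simp⟩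
    | insert a s _ ih =>
      intro hs
      obtain ⟨N, hN, hNs⟩ := ih fun y hy => hs y (Finset.mem_insert_of_mem hy)
      by_cases ha : A.valuation a < 1
      · obtain ⟨M, hM, hMa⟩ := exists_pow_le hq hA ⟨a, hs a (Finset.mem_insert_self a s)⟩ ha
        refine ⟨N + M, by omega, fun y hy hy1 => ?_⟩
        rcases Finset.mem_insert.mp hy with rfl | hy
        · exact (pow_le_pow_of_le_one zero_le hy1.le (by omega)).trans hMa
        · exact (pow_le_pow_of_le_one zero_le hy1.le (by omega)).trans (hNs y hy hy1)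
      · refine ⟨N, hN, fun y hy hy1 => ?_⟩
        rcases Finset.mem_insert.mp hy with rfl | hy
        · exact absurd hy1 ha
        · exact hNs y hy hy1
  obtain ⟨N, hN, h⟩ := key (finite_orbit (x : Qb)).toFinset fun y hy => by
    obtain ⟨σ, rfl⟩ := (Set.Finite.mem_toFinset _).mp hy
    exact x.2.map (σ : Qb →ₐ[ℚ] Qb).toRingHom.toIntAlgHom
  exact ⟨N, hN, fun σ => h _ ((Set.Finite.mem_toFinset _).mpr ⟨σ, rfl⟩)⟩

/-- A separating integer: close to `1` on `H`, small off `H`. -/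
lemma exists_separator (hq : q.Prime) (hA : A.LiesOverPrime q) (α : Qb)
    (hfix : ∀ σ : GQ, σ • A = A → σ α = α) :
    ∃ e : ZBar, (∀ σ : GQ, σ α = α → A.valuation (σ ((1 - e : ZBar) : Qb)) < 1) ∧
      ∀ σ : GQ, σ α ≠ α → A.valuation (σ (e : Qb)) < 1 := by
  classical
  have : Algebra.IsAlgebraic ℚ Qb := AlgebraicClosure.isAlgebraic ℚ
  have : IsAlgClosure ℚ Qb := ⟨inferInstance, inferInstance⟩
  have : Normal ℚ Qb := IsAlgClosure.normal ℚ Qb
  have : IsGalois ℚ Qb := ⟨⟩
  set v := A.valuation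
  have hsep : ∀ h τ : GQ, h α = α → τ α ≠ α →
      ∃ x : ZBar, v (τ (x : Qb)) < 1 ∧ ¬ v (h (x : Qb)) < 1 := by
    intro h τ hh hτ
    by_contra hcon
    push Not at hcon
    have hρ : (h * τ⁻¹) • A = A := smul_eq_of_small hq hA _ fun x hx => by
      have h1 := hcon (τ⁻¹ • x) (by
        rw [integralClosure.coe_smul, AlgEquiv.smul_def, AlgEquiv.aut_inv, AlgEquiv.apply_symm_apply]
        exact hx)
      rwa [integralClosure.coe_smul, AlgEquiv.smul_def, ← AlgEquiv.mul_apply] at h1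
    have hb := hfix _ hρ
    refine hτ ?_
    have h2 : τ⁻¹ α = α := h.injective (by rw [hh, ← AlgEquiv.mul_apply]; exact hb)
    conv_lhs => rw [← h2]
    exact τ.apply_symm_apply α
  have hstep : ∀ h : GQ, h α = α → ∃ e : ZBar,
      v (h ((1 - e : ZBar) : Qb)) < 1 ∧ ∀ σ : GQ, σ α ≠ α → v (σ (e : Qb)) < 1 := by
    intro h hh
    choose! x hx using fun τ hτ => hsep h τ hh hτ
    obtain ⟨t, ht, hcov⟩ := (isClosed_apply' α fun y => y ≠ α).isCompact.elim_nhds_subcover
      (fun τ => {σ : GQ | v (σ (x τ : Qb)) < 1})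
      (fun τ hτ => (continuous_apply' _ fun y => v y < 1).mem_nhds (hx τ hτ).1)
    set s : ZBar := ∏ τ ∈ t, x τ with hs
    have hsmem : h • s ∉ primeAt A := by
      rw [hs, Finset.smul_prod']
      intro hmem
      obtain ⟨τ, hτ, hτm⟩ := (inferInstance : (primeAt A).IsPrime).prod_mem_iff.mp hmem
      refine (hx τ (ht τ hτ)).2 ?_
      rw [mem_primeAt, A.mem_nonunits_iff, integralClosure.coe_smul, AlgEquiv.smul_def] at hτm
      exact hτm
    obtain ⟨b, i, hi, hbi⟩ := (primeAt_isMaximal hq hA).exists_inv hsmem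
    refine ⟨s * h⁻¹ • b, ?_, fun σ hσ => ?_⟩
    · have e1 : h • (1 - s * h⁻¹ • b) = i := by
        rw [smul_sub, smul_one, smul_mul', smul_inv_smul, ← hbi]; ring
      have e2 := congrArg (fun z : ZBar => v (z : Qb)) e1
      simp only [integralClosure.coe_smul, AlgEquiv.smul_def] at e2
      rw [e2]
      exact A.mem_nonunits_iff.mp (mem_primeAt.mp hi)
    · obtain ⟨τ, hτ, hστ⟩ := Set.mem_iUnion₂.mp (hcov hσ)
      have hdvd : x τ ∣ s * h⁻¹ • b := dvd_mul_of_dvd_left (Finset.dvd_prod_of_mem _ hτ) _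
      obtain ⟨c, hc⟩ := hdvd
      rw [hc]
      push_cast
      rw [map_mul, map_mul]
      refine mul_lt_one_of_lt_of_le hστ ?_
      exact v_zbar_le (⟨σ (c : Qb), c.2.map (σ : Qb →ₐ[ℚ] Qb).toRingHom.toIntAlgHom⟩ : ZBar)
  choose! e he using hstep
  obtain ⟨t, ht, hcov⟩ := (isClosed_apply' α fun y => y = α).isCompact.elim_nhds_subcover
    (fun h => {σ : GQ | v (σ ((1 - e h : ZBar) : Qb)) < 1})
    (fun h hh => (continuous_apply' _ fun y => v y < 1).mem_nhds (he h hh).1)
  have hint : ∀ (σ : GQ) (c : ZBar), v (σ (c : Qb)) ≤ 1 := fun σ c => by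
    have h := v_zbar_le (A := A) (σ • c)
    rwa [integralClosure.coe_smul, AlgEquiv.smul_def] at h
  refine ⟨1 - ∏ h ∈ t, (1 - e h), fun σ hσ => ?_, fun σ hσ => ?_⟩
  · obtain ⟨h, hh, hσh⟩ := Set.mem_iUnion₂.mp (hcov hσ)
    obtain ⟨c, hc⟩ := Finset.dvd_prod_of_mem (fun h => 1 - e h) hh
    rw [sub_sub_cancel, hc, MulMemClass.coe_mul, map_mul, map_mul]
    exact mul_lt_one_of_lt_of_le hσh (hint σ c)
  · have key : ∀ s : Finset GQ, (∀ h ∈ s, v (σ (e h : Qb)) < 1) →
        v (σ ((1 - ∏ h ∈ s, (1 - e h) : ZBar) : Qb)) < 1 := by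
      intro s
      induction s using Finset.induction_on with
      | empty => intro _; simp [v]
      | insert a s has ih =>
        intro hs
        rw [Finset.prod_insert has]
        have e1 : (1 - (1 - e a) * ∏ h ∈ s, (1 - e h) : ZBar) =
            e a * (∏ h ∈ s, (1 - e h)) + (1 - ∏ h ∈ s, (1 - e h)) := by ring
        rw [e1, AddMemClass.coe_add, MulMemClass.coe_mul, map_add, map_mul]
        refine A.valuation.map_add_lt ?_ (ih fun h hh => hs h (Finset.mem_insert_of_mem hh))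
        rw [map_mul]
        exact mul_lt_one_of_lt_of_le (hs a (Finset.mem_insert_self a s)) (hint σ _)
    exact key t fun h hh => (he h (ht h hh)).2 σ hσ

lemma v_prod_sub_one_le {ι : Type*} (s : Finset ι) (f : ι → Qb) {δ : A.ValueGroup} (hδ1 : δ ≤ 1)
    (hf : ∀ i ∈ s, A.valuation (f i - 1) ≤ δ) : A.valuation (∏ i ∈ s, f i - 1) ≤ δ := by
  classical
  induction s using Finset.induction_on with
  | empty => simp
  | insert a s has ih =>
    rw [Finset.prod_insert has,
      show f a * ∏ i ∈ s, f i - 1 = f a * (∏ i ∈ s, f i - 1) + (f a - 1) by ring]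
    refine A.valuation.map_add_le ?_ (hf a (Finset.mem_insert_self a s))
    rw [map_mul]
    refine mul_le_of_le_one_of_le ?_ (ih fun i hi => hf i (Finset.mem_insert_of_mem hi))
    rw [show f a = (f a - 1) + 1 by ring]
    exact A.valuation.map_add_le ((hf a (Finset.mem_insert_self a s)).trans hδ1)
      (le_of_eq A.valuation.map_one)

/-- **Rational approximation at a place**: an algebraic number fixed by the decomposition group
of `A` is a limit of rational numbers. -/
theorem exists_rat_near (hq : q.Prime) (hA : A.LiesOverPrime q) {α : Qb}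
    (hfix : ∀ σ : GQ, σ • A = A → σ α = α) (k : ℕ) :
    ∃ r : ℚ, A.valuation (α - (r : Qb)) ≤ A.valuation (q : Qb) ^ k := by
  classical
  set v := A.valuation
  have hq1 : v (q : Qb) ≤ 1 := (v_natPrime_lt hA).le
  obtain ⟨e, he1, he0⟩ := exists_separator hq hA α hfix
  obtain ⟨N₁, hN₁, hu₁⟩ := exists_uniform_pow hq hA e
  obtain ⟨N₂, hN₂, hu₂⟩ := exists_uniform_pow hq hA (1 - e)
  -- bound for the conjugates of `α`
  obtain ⟨j, hj⟩ : ∃ j, ∀ y ∈ (finite_orbit α).toFinset, v (q : Qb) ^ j * v y ≤ 1 := by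
    induction (finite_orbit α).toFinset using Finset.induction_on with
    | empty => exact ⟨0, by simp⟩
    | insert a s _ ih =>
      obtain ⟨j, hj⟩ := ih
      obtain ⟨i, hi⟩ := exists_pow_mul_le hq hA a
      refine ⟨j + i, fun y hy => ?_⟩
      rw [pow_add]
      rcases Finset.mem_insert.mp hy with rfl | hy
      · rw [mul_assoc]; exact mul_le_one' (pow_le_one₀ zero_le hq1) hi
      · rw [mul_comm (v (q : Qb) ^ j), mul_assoc]
        exact mul_le_one' (pow_le_one₀ zero_le hq1) (hj y hy)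
  set M := (N₁ + N₂) * (k + j) with hM
  set δ := v (q : Qb) ^ (k + j)
  have hδ1 : δ ≤ 1 := pow_le_one₀ zero_le hq1
  set ε : ZBar := (1 - (1 - e) ^ M) ^ M
  have hint : ∀ (σ : GQ) (c : ZBar), v (σ (c : Qb)) ≤ 1 := fun σ c => by
    have h := v_zbar_le (A := A) (σ • c)
    rwa [integralClosure.coe_smul, AlgEquiv.smul_def] at h
  have hsmall : ∀ (σ : GQ) (y : ZBar) (N : ℕ), v (σ (y : Qb)) < 1 →
      v (σ (y : Qb)) ^ N ≤ v (q : Qb) → N ≤ N₁ + N₂ → v (σ (y : Qb)) ^ M ≤ δ := by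
    intro σ y N hy hN hle
    rw [hM, pow_mul]
    exact pow_le_pow_left₀ zero_le ((pow_le_pow_of_le_one zero_le hy.le hle).trans hN) _
  have hdvd : ∀ (σ : GQ) (a b : ZBar), a ∣ b → v (σ (b : Qb)) ≤ v (σ (a : Qb)) := by
    rintro σ a b ⟨c, rfl⟩
    rw [MulMemClass.coe_mul, map_mul, map_mul]
    exact mul_le_of_le_one_right' (hint σ c)
  have hε1 : ∀ σ : GQ, σ α = α → v (σ (ε : Qb) - 1) ≤ δ := by
    intro σ hσ
    have e1 : σ (ε : Qb) - 1 = σ ((ε - 1 : ZBar) : Qb) := by simp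
    rw [e1]
    refine le_trans ?_ (hsmall σ _ N₂ (he1 σ hσ) (hu₂ σ (he1 σ hσ)) (by omega))
    rw [← map_pow, ← map_pow, ← SubmonoidClass.coe_pow]
    refine hdvd σ _ _ ?_
    have h := sub_dvd_pow_sub_pow (1 - (1 - e) ^ M) 1 M
    rwa [one_pow, sub_sub_cancel_left, neg_dvd] at h
  have hε0 : ∀ σ : GQ, σ α ≠ α → v (σ (ε : Qb)) ≤ δ := by
    intro σ hσ
    refine le_trans ?_ (hsmall σ _ N₁ (he0 σ hσ) (hu₁ σ (he0 σ hσ)) (by omega))
    rw [← map_pow, ← map_pow, ← SubmonoidClass.coe_pow]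
    refine hdvd σ _ _ (pow_dvd_pow_of_dvd ?_ M)
    have h := sub_dvd_pow_sub_pow 1 (1 - e) M
    rwa [one_pow, sub_sub_cancel] at h
  -- make it invariant under the stabiliser of `α`
  have hfinO : ((fun σ : GQ => σ (ε : Qb)) '' {σ | σ α = α}).Finite :=
    (finite_orbit (ε : Qb)).subset (Set.image_subset_range _ _)
  set O := hfinO.toFinset
  set η := ∏ y ∈ O, y with hη
  have hηfix : ∀ σ : GQ, σ α = α → σ η = η := by
    intro σ hσ
    have himg : O.image σ = O := by
      refine Finset.eq_of_subset_of_card_le ?_ (by rw [Finset.card_image_of_injective _ σ.injective])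
      intro y hy
      obtain ⟨z, hz, rfl⟩ := Finset.mem_image.mp hy
      obtain ⟨τ, hτ, rfl⟩ := (Set.Finite.mem_toFinset _).mp hz
      exact (Set.Finite.mem_toFinset _).mpr ⟨σ * τ, by simp [show τ α = α from hτ, hσ], rfl⟩
    conv_rhs => rw [hη, ← himg, Finset.prod_image (fun a _ b _ h => σ.injective h)]
    rw [hη, map_prod]
  have hη1 : v (η - 1) ≤ δ := v_prod_sub_one_le O id hδ1 fun y hy => by
    obtain ⟨σ, hσ, rfl⟩ := (Set.Finite.mem_toFinset _).mp hy
    exact hε1 σ hσ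
  have hη0 : ∀ σ : GQ, σ α ≠ α → v (σ η) ≤ δ := by
    intro σ hσ
    have hmem : (ε : Qb) ∈ O := (Set.Finite.mem_toFinset _).mpr ⟨1, by simp, by simp⟩
    rw [hη, ← Finset.mul_prod_erase O (fun y => y) hmem, map_mul, map_mul]
    refine mul_le_of_le_of_le_one (hε0 σ hσ) ?_
    rw [map_prod, map_prod]
    refine Finset.prod_le_one' fun y hy => ?_
    obtain ⟨τ, -, rfl⟩ := (Set.Finite.mem_toFinset _).mp (Finset.mem_of_mem_erase hy)
    show v (σ (τ (ε : Qb))) ≤ 1
    exact hint (σ * τ) ε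
  -- the trace
  set C := (finite_orbit α).toFinset with hC
  have hmemC : ∀ σ : GQ, σ α ∈ C := fun σ => (Set.Finite.mem_toFinset _).mpr ⟨σ, rfl⟩
  have hex : ∀ y ∈ C, ∃ σ : GQ, σ α = y := fun y hy =>
    (Set.Finite.mem_toFinset (finite_orbit α)).mp hy
  choose! pick hpick using hex
  set y₀ := α * η with hy₀
  have hindep : ∀ σ τ : GQ, σ α = τ α → σ y₀ = τ y₀ := by
    intro σ τ h
    have hh : (τ⁻¹ * σ) α = α := by
      rw [AlgEquiv.mul_apply, h, AlgEquiv.aut_inv, AlgEquiv.symm_apply_apply]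
    have h2 : (τ⁻¹ * σ) y₀ = y₀ := by rw [hy₀, map_mul, hh, hηfix _ hh]
    conv_rhs => rw [← h2]
    rw [AlgEquiv.mul_apply, AlgEquiv.aut_inv, AlgEquiv.apply_symm_apply]
  set T := ∑ y ∈ C, pick y y₀ with hT
  have hTfix : ∀ σ : GQ, σ T = T := fun σ => by
    rw [hT, map_sum]
    refine Finset.sum_nbij (fun y => σ y) (fun y hy => ?_) (fun a _ b _ h => σ.injective h) ?_
      fun y hy => ?_
    · rw [← hpick y hy]; exact hmemC (σ * pick y)
    · intro y hy
      refine ⟨σ⁻¹ y, ?_, σ.apply_symm_apply y⟩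
      rw [Finset.mem_coe, ← hpick y hy]
      exact hmemC (σ⁻¹ * pick y)
    · refine hindep (σ * pick y) (pick (σ y)) ?_
      have hσy : σ y ∈ C := by rw [← hpick y hy]; exact hmemC (σ * pick y)
      rw [AlgEquiv.mul_apply, hpick y hy, hpick _ hσy]
  obtain ⟨r, hr⟩ := FA.Local.exists_ratCast_of_fixed T hTfix
  refine ⟨r, ?_⟩
  have hα : α ∈ C := by simpa using hmemC 1
  rw [hr, hT, ← Finset.add_sum_erase C _ hα, ← sub_sub]
  refine (A.valuation.map_sub _ _).trans (max_le ?_ ?_)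
  · rw [show pick α y₀ = y₀ by simpa using hindep (pick α) 1 (by simpa using hpick α hα), hy₀,
      show α - α * η = -(α * (η - 1)) by ring, A.valuation.map_neg, map_mul]
    refine (mul_le_mul' le_rfl hη1).trans ?_
    calc v α * δ = v (q : Qb) ^ k * (v (q : Qb) ^ j * v α) := by
          rw [show δ = v (q : Qb) ^ (k + j) from rfl, pow_add]; ac_rfl
      _ ≤ v (q : Qb) ^ k := mul_le_of_le_one_right' (hj α hα)
  · refine A.valuation.map_sum_le fun y hy => ?_
    obtain ⟨hyne, hy⟩ := Finset.mem_erase.mp hy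
    rw [hy₀, map_mul, map_mul, hpick y hy]
    refine (mul_le_mul' le_rfl (hη0 _ (by rw [hpick y hy]; exact hyne))).trans ?_
    calc v y * δ = v (q : Qb) ^ k * (v (q : Qb) ^ j * v y) := by
          rw [show δ = v (q : Qb) ^ (k + j) from rfl, pow_add]; ac_rfl
      _ ≤ v (q : Qb) ^ k := mul_le_of_le_one_right' (hj y hy)

end

end FA.Switch
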