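/-
Valuation tools for choosing parameters with prescribed local behaviour.
-/
import Fermat.Agent.Switch.Approx
import Mathlib.Algebra.MvPolynomial.Basic

set_option autoImplicit false

open scoped Pointwise

namespace FA.Switch

noncomputable section

local notation "Qb" => AlgebraicClosure ℚ
local notation "GQ" => AlgebraicClosure ℚ ≃ₐ[ℚ] AlgebraicClosure ℚ

variable {A : ValuationSubring Qb} {q : ℕ}

/-! ### Invariance under the decomposition group -/

lemma apply_mem_iff {σ : GQ} (hσ : σ • A = A) (x : Qb) : σ x ∈ A ↔ x ∈ A := by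
  conv_lhs => rw [← hσ]
  rw [← AlgEquiv.smul_def, ValuationSubring.smul_mem_pointwise_smul_iff]

lemma v_apply_le_iff {σ : GQ} (hσ : σ • A = A) (x y : Qb) :
    A.valuation (σ x) ≤ A.valuation (σ y) ↔ A.valuation x ≤ A.valuation y := by
  rcases eq_or_ne y 0 with rfl | hy
  · simp
  have hy' : σ y ≠ 0 := (_root_.map_ne_zero σ).mpr hy
  rw [← div_le_one₀ (zero_lt_iff.mpr ((_root_.map_ne_zero _).mpr hy')),
    ← div_le_one₀ (zero_lt_iff.mpr ((_root_.map_ne_zero _).mpr hy)), ← map_div₀, ← map_div₀,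
    ← map_div₀, A.valuation_le_one_iff, A.valuation_le_one_iff, apply_mem_iff hσ]

lemma v_apply_lt_one_iff {σ : GQ} (hσ : σ • A = A) (x : Qb) :
    A.valuation (σ x) < 1 ↔ A.valuation x < 1 := by
  rw [← not_le, ← not_le, not_iff_not]
  have h := v_apply_le_iff hσ 1 x
  rwa [map_one, map_one] at h

/-! ### Small roots -/

lemma coeff_bound_of_large_roots {s : Multiset Qb} (h : ∀ a ∈ s, 1 ≤ A.valuation a) :
    A.valuation ((s.map fun a => Polynomial.X - Polynomial.C a).prod.coeff 1) ≤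
      A.valuation ((s.map fun a => Polynomial.X - Polynomial.C a).prod.coeff 0) := by
  induction s using Multiset.induction_on with
  | empty => simp [Polynomial.coeff_one]
  | cons a s ih =>
    have ih' := ih fun b hb => h b (Multiset.mem_cons_of_mem hb)
    have ha := h a (Multiset.mem_cons_self a s)
    set P := (s.map fun a => Polynomial.X - Polynomial.C a).prod
    rw [Multiset.map_cons, Multiset.prod_cons, sub_mul, Polynomial.coeff_sub, Polynomial.coeff_sub,
      Polynomial.coeff_X_mul, Polynomial.coeff_X_mul_zero, Polynomial.coeff_C_mul,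
      Polynomial.coeff_C_mul, zero_sub, Valuation.map_neg, map_mul]
    refine A.valuation.map_sub _ _ |>.trans (max_le (le_mul_of_one_le_left zero_le ha) ?_)
    rw [map_mul]
    exact mul_le_mul' le_rfl ih'

/-- A polynomial whose constant coefficient is smaller than its linear one has a small root. -/
theorem exists_small_root (f : Polynomial Qb)
    (h : A.valuation (f.coeff 0) < A.valuation (f.coeff 1)) :
    ∃ x, A.valuation x < 1 ∧ f.IsRoot x := by
  by_contra hcon
  push Not at hcon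
  have hf : f ≠ 0 := fun h0 => by simp [h0] at h
  have hb := coeff_bound_of_large_roots (A := A) (s := f.roots) fun a ha => by
    by_contra hlt
    exact hcon a (not_le.mp hlt) ((Polynomial.mem_roots hf).mp ha)
  rw [(IsAlgClosed.splits f).eq_prod_roots] at h
  rw [Polynomial.coeff_C_mul, Polynomial.coeff_C_mul, map_mul, map_mul] at h
  exact absurd (mul_le_mul' le_rfl hb) (not_le.mpr h)

/-! ### Continuity of polynomials -/

lemma exists_pow_le_of_bound (hq : q.Prime) (hA : A.LiesOverPrime q) (x : Qb) (k : ℕ) :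
    ∃ n : ℕ, ∀ y : Qb, A.valuation y ≤ A.valuation (q : Qb) ^ n →
      A.valuation (x * y) ≤ A.valuation (q : Qb) ^ k := by
  obtain ⟨j, hj⟩ := exists_pow_mul_le hq hA x
  refine ⟨j + k, fun y hy => ?_⟩
  rw [map_mul]
  refine (mul_le_mul' le_rfl hy).trans ?_
  rw [pow_add, ← mul_assoc, mul_comm (A.valuation x)]
  exact mul_le_of_le_one_left' hj

lemma pow_q_anti (hA : A.LiesOverPrime q) {m n : ℕ} (h : m ≤ n) :
    A.valuation (q : Qb) ^ n ≤ A.valuation (q : Qb) ^ m :=
  pow_le_pow_of_le_one zero_le (v_natPrime_lt hA).le h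

/-- Polynomials in two variables are continuous. -/
theorem exists_continuity (hq : q.Prime) (hA : A.LiesOverPrime q)
    (P : MvPolynomial (Fin 2) Qb) (x : Fin 2 → Qb) (k : ℕ) :
    ∃ n : ℕ, ∀ y : Fin 2 → Qb, (∀ i, A.valuation (y i - x i) ≤ A.valuation (q : Qb) ^ n) →
      A.valuation (MvPolynomial.eval y P - MvPolynomial.eval x P) ≤
        A.valuation (q : Qb) ^ k := by
  induction P using MvPolynomial.induction_on generalizing k with
  | C a => exact ⟨0, fun y _ => by simp⟩
  | add P Q hP hQ =>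
    obtain ⟨n₁, h₁⟩ := hP k
    obtain ⟨n₂, h₂⟩ := hQ k
    refine ⟨max n₁ n₂, fun y hy => ?_⟩
    rw [map_add, map_add, add_sub_add_comm]
    exact A.valuation.map_add_le (h₁ y fun i => (hy i).trans (pow_q_anti hA (le_max_left _ _)))
      (h₂ y fun i => (hy i).trans (pow_q_anti hA (le_max_right _ _)))
  | mul_X P i hP =>
    obtain ⟨j, hj⟩ := exists_pow_mul_le hq hA (x i)
    obtain ⟨n₁, h₁⟩ := hP (k + j)
    obtain ⟨n₂, h₂⟩ := exists_pow_le_of_bound hq hA (MvPolynomial.eval x P) k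
    obtain ⟨n₃, h₃⟩ := hP k
    refine ⟨max (max n₁ n₂) n₃, fun y hy => ?_⟩
    have e : MvPolynomial.eval y (P * MvPolynomial.X i) - MvPolynomial.eval x (P * MvPolynomial.X i)
        = (MvPolynomial.eval y P - MvPolynomial.eval x P) * (y i - x i) +
          (MvPolynomial.eval y P - MvPolynomial.eval x P) * x i +
          MvPolynomial.eval x P * (y i - x i) := by
      simp only [map_mul, MvPolynomial.eval_X]; ring
    rw [e]
    have hd := h₁ y fun l => (hy l).trans
      (pow_q_anti hA ((le_max_left _ _).trans (le_max_left _ _)))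
    refine A.valuation.map_add_le (A.valuation.map_add_le ?_ ?_) ?_
    · rw [map_mul]
      exact (mul_le_of_le_one_right' ((hy i).trans (pow_le_one₀ zero_le (v_natPrime_lt hA).le))).trans
        (h₃ y fun l => (hy l).trans (pow_q_anti hA (le_max_right _ _)))
    · rw [map_mul]
      refine (mul_le_mul' hd le_rfl).trans ?_
      rw [pow_add, mul_assoc]
      exact mul_le_of_le_one_right' hj
    · exact h₂ _ ((hy i).trans (pow_q_anti hA ((le_max_right _ _).trans (le_max_left _ _))))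

/-! ### Integers -/

lemma v_natCast_eq_one (hq : q.Prime) (hA : A.LiesOverPrime q) {n : ℕ} (h : ¬ q ∣ n) :
    A.valuation (n : Qb) = 1 := by
  have := FA.Local.natCast_eq_one_of_not_dvd (v := A.valuation) hq (v_natPrime_lt hA)
    (n := (n : ℤ)) (by rwa [Int.natCast_dvd_natCast])
  simpa using this

lemma intCast_le_pow_iff (hq : q.Prime) (hA : A.LiesOverPrime q) (n : ℤ) (k : ℕ) :
    A.valuation (n : Qb) ≤ A.valuation (q : Qb) ^ k ↔ (q : ℤ) ^ k ∣ n := by
  constructor
  · intro h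
    induction k generalizing n with
    | zero => simp
    | succ k ih =>
      have h1 := ih n (h.trans (pow_q_anti hA (Nat.le_succ k)))
      obtain ⟨c, rfl⟩ := h1
      rw [Int.cast_mul, Int.cast_pow, Int.cast_natCast, map_mul, map_pow, pow_succ] at h
      have hc : A.valuation (c : Qb) ≤ A.valuation (q : Qb) :=
        le_of_mul_le_mul_left h (pow_pos (zero_lt_iff.mpr (v_natPrime_ne hq)) k)
      rw [pow_succ]
      refine mul_dvd_mul_left _ ?_
      by_contra hndvd
      rw [FA.Local.natCast_eq_one_of_not_dvd (v := A.valuation) hq (v_natPrime_lt hA) hndvd] at hc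
      exact absurd hc (not_le.mpr (v_natPrime_lt hA))
  · rintro ⟨c, rfl⟩
    rw [Int.cast_mul, Int.cast_pow, Int.cast_natCast, map_mul, map_pow]
    exact mul_le_of_le_one_right' (FA.Local.intCast_le_one c)

lemma intCast_lt_one_iff (hq : q.Prime) (hA : A.LiesOverPrime q) (n : ℤ) :
    A.valuation (n : Qb) < 1 ↔ (q : ℤ) ∣ n := by
  constructor
  · intro h
    by_contra hn
    rw [FA.Local.natCast_eq_one_of_not_dvd (v := A.valuation) hq (v_natPrime_lt hA) hn] at h
    exact lt_irrefl _ h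
  · intro h
    exact ((intCast_le_pow_iff hq hA n 1).mpr (by simpa using h)).trans_lt
      (by simpa using v_natPrime_lt hA)

/-- A rational number which is integral at a place over every prime is an integer. -/
theorem exists_int_of_integral {x : ℚ}
    (h : ∀ q : ℕ, q.Prime → ∃ A : ValuationSubring Qb, A.LiesOverPrime q ∧
      A.valuation (x : Qb) ≤ 1) : ∃ n : ℤ, (n : ℚ) = x := by
  refine ⟨x.num, Rat.coe_int_num_of_den_eq_one ?_⟩
  by_contra hd
  obtain ⟨p, hp, hpd⟩ := Nat.exists_prime_and_dvd hd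
  obtain ⟨A, hA, hx⟩ := h p hp
  have hnum : ¬ (p : ℤ) ∣ x.num := fun hn =>
    Nat.not_coprime_of_dvd_of_dvd hp.one_lt (Int.natCast_dvd.mp hn) hpd x.reduced
  have e : A.valuation (x : Qb) * A.valuation ((x.den : ℤ) : Qb) = A.valuation (x.num : Qb) := by
    rw [← map_mul, Rat.cast_def, Int.cast_natCast,
      div_mul_cancel₀ _ (Nat.cast_ne_zero.mpr x.den_nz)]
  rw [FA.Local.natCast_eq_one_of_not_dvd (v := A.valuation) hp (v_natPrime_lt hA) hnum] at e
  have h1 := (intCast_lt_one_iff hp hA (x.den : ℤ)).mpr (Int.natCast_dvd_natCast.mpr hpd)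
  exact absurd e (ne_of_lt ((mul_le_of_le_one_left' hx).trans_lt h1))

/-- A rational number is `q`-adically close to one with a `q`-power denominator. -/
lemma exists_qpow_near (hq : q.Prime) (hA : A.LiesOverPrime q) (x : ℚ) (n : ℕ) :
    ∃ (j : ℕ) (t : ℤ), A.valuation ((x : Qb) - (t : Qb) / (q : Qb) ^ j) ≤
      A.valuation (q : Qb) ^ n := by
  obtain ⟨j, d, hd, hxd⟩ := Nat.exists_eq_pow_mul_and_not_dvd x.den_nz q hq.ne_one
  have hco : IsCoprime (d : ℤ) ((q : ℤ) ^ (n + j)) :=
    (((Nat.prime_iff_prime_int.mp hq).coprime_iff_not_dvd).mpr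
      (by rwa [Int.natCast_dvd_natCast])).symm.pow_right
  obtain ⟨α, β, hαβ⟩ := hco
  refine ⟨j, x.num * α, ?_⟩
  have hd0 : (d : Qb) ≠ 0 := Nat.cast_ne_zero.mpr fun h => hd (h ▸ dvd_zero q)
  have hq0 : (q : Qb) ≠ 0 := Nat.cast_ne_zero.mpr hq.ne_zero
  have h1 : (α : Qb) * (d : Qb) + (β : Qb) * (q : Qb) ^ (n + j) = 1 := by
    have := congrArg (fun m : ℤ => (m : Qb)) hαβ
    push_cast at this
    exact this
  have e : (x : Qb) - ((x.num * α : ℤ) : Qb) / (q : Qb) ^ j =
      ((x.num * β : ℤ) : Qb) / (d : Qb) * (q : Qb) ^ n := by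
    rw [Rat.cast_def, hxd]
    push_cast
    field_simp
    rw [pow_add] at h1
    linear_combination -(x.num : Qb) * h1
  rw [e, map_mul, map_pow, map_div₀, v_natCast_eq_one hq hA hd, div_one]
  exact mul_le_of_le_one_left' (FA.Local.intCast_le_one _)

/-- The Chinese remainder theorem for prime powers. -/
lemma exists_int_congr (T : Finset ℕ) (hT : ∀ p ∈ T, p.Prime) (N : ℕ → ℕ) (t : ℕ → ℤ) :
    ∃ a : ℤ, ∀ p ∈ T, (p : ℤ) ^ N p ∣ a - t p := by
  classical
  induction T using Finset.induction_on with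
  | empty => exact ⟨0, by simp⟩
  | insert p T hp ih =>
    obtain ⟨a, ha⟩ := ih fun q hq => hT q (Finset.mem_insert_of_mem hq)
    have hco : IsCoprime ((p : ℤ) ^ N p) (∏ r ∈ T, (r : ℤ) ^ N r) := by
      refine IsCoprime.prod_right fun r hr => IsCoprime.pow ?_
      rw [Int.isCoprime_iff_gcd_eq_one, Int.gcd_natCast_natCast]
      exact (Nat.coprime_primes (hT p (Finset.mem_insert_self p T))
        (hT r (Finset.mem_insert_of_mem hr))).mpr fun h => hp (h ▸ hr)
    obtain ⟨x, y, hxy⟩ := hco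
    refine ⟨a + (t p - a) * (y * ∏ r ∈ T, (r : ℤ) ^ N r), fun r hr => ?_⟩
    rcases Finset.mem_insert.mp hr with rfl | hr
    · exact ⟨-(t r - a) * x, by linear_combination (t r - a) * hxy⟩
    · obtain ⟨c, hc⟩ := ha r hr
      obtain ⟨c', hc'⟩ := Finset.dvd_prod_of_mem (fun r : ℕ => (r : ℤ) ^ N r) hr
      exact ⟨c + (t p - a) * y * c', by rw [hc']; linear_combination hc⟩

/-- **Simultaneous approximation**: a fixed first coordinate and a progression of second
coordinates, integral and primitive outside `S`. -/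
theorem exists_approx (S : Finset ℕ) (hS : ∀ p ∈ S, p.Prime)
    (P : ℕ → ValuationSubring Qb) (hP : ∀ p ∈ S, (P p).LiesOverPrime p) (r s : ℕ → Qb)
    (hfix : ∀ p ∈ S, ∀ σ : GQ, σ • P p = P p → σ (r p) = r p ∧ σ (s p) = s p) (n : ℕ → ℕ) :
    ∃ (m M : ℕ) (a b : ℤ), 0 < m ∧ (∀ p : ℕ, p.Prime → p ∣ m → p ∈ S) ∧
      0 < M ∧ (∀ p : ℕ, p.Prime → p ∣ M → p ∈ S) ∧ a ≠ 0 ∧
      (∀ p : ℕ, p.Prime → p ∉ S → (p : ℤ) ∣ a → ¬ (p : ℤ) ∣ b) ∧
      ∀ p ∈ S, ∀ i j : ℤ,
        (P p).valuation ((((a + M * i : ℤ)) : Qb) / m - r p) ≤ (P p).valuation (p : Qb) ^ n p ∧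
        (P p).valuation ((((b + M * j : ℤ)) : Qb) / m - s p) ≤ (P p).valuation (p : Qb) ^ n p := by
  classical
  have key : ∀ p ∈ S, ∀ α : Qb, (∀ σ : GQ, σ • P p = P p → σ α = α) →
      ∃ (j : ℕ) (t : ℤ), (P p).valuation (α - (t : Qb) / (p : Qb) ^ j) ≤
        (P p).valuation (p : Qb) ^ n p := by
    intro p hp α hα
    obtain ⟨x, hx⟩ := exists_rat_near (hS p hp) (hP p hp) hα (n p)
    obtain ⟨j, t, ht⟩ := exists_qpow_near (hS p hp) (hP p hp) x (n p)
    refine ⟨j, t, ?_⟩
    rw [← sub_add_sub_cancel α (x : Qb)]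
    exact (P p).valuation.map_add_le hx ht
  choose! jr tr hr using fun p hp => key p hp (r p) fun σ h => (hfix p hp σ h).1
  choose! js ts hs using fun p hp => key p hp (s p) fun σ h => (hfix p hp σ h).2
  set m := ∏ p ∈ S, p ^ (jr p + js p) with hm
  set E : ℕ → ℕ := fun p => n p + jr p + js p with hE
  set M := ∏ p ∈ S, p ^ E p with hM
  have hsupp : ∀ f : ℕ → ℕ, 0 < ∏ p ∈ S, p ^ f p ∧
      ∀ l : ℕ, l.Prime → l ∣ ∏ p ∈ S, p ^ f p → l ∈ S := fun f =>
    ⟨Finset.prod_pos fun p hp => pow_pos (hS p hp).pos _, fun l hl hdvd => by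
      obtain ⟨p, hp, hlp⟩ := (Prime.dvd_finsetProd_iff hl.prime _).mp hdvd
      rwa [(Nat.prime_dvd_prime_iff_eq hl (hS p hp)).mp (hl.dvd_of_dvd_pow hlp)]⟩
  obtain ⟨a₀, ha₀⟩ := exists_int_congr S hS E
    (fun p => tr p * (p : ℤ) ^ js p * ∏ l ∈ S.erase p, (l : ℤ) ^ (jr l + js l))
  obtain ⟨a, ha, hane⟩ : ∃ a : ℤ, (∀ p ∈ S, (p : ℤ) ^ E p ∣
      a - tr p * (p : ℤ) ^ js p * ∏ l ∈ S.erase p, (l : ℤ) ^ (jr l + js l)) ∧ a ≠ 0 := by
    by_cases h0 : a₀ = 0
    · refine ⟨a₀ + M, fun p hp => ?_, ?_⟩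
      · rw [add_sub_right_comm]
        refine dvd_add (ha₀ p hp) ?_
        rw [hM, Nat.cast_prod]
        exact (dvd_of_eq (by push_cast; rfl)).trans
          (Finset.dvd_prod_of_mem (fun p => ((p ^ E p : ℕ) : ℤ)) hp)
      · rw [h0, zero_add, Nat.cast_ne_zero]
        exact (hsupp E).1.ne'
    · exact ⟨a₀, ha₀, h0⟩
  set T := S ∪ a.natAbs.primeFactors with hT
  obtain ⟨b, hb⟩ := exists_int_congr T (fun p hp => by
      rcases Finset.mem_union.mp hp with h | h
      exacts [hS p h, Nat.prime_of_mem_primeFactors h])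
    (fun p => if p ∈ S then E p else 1)
    (fun p => if p ∈ S then ts p * (p : ℤ) ^ jr p * ∏ l ∈ S.erase p, (l : ℤ) ^ (jr l + js l) else 1)
  refine ⟨m, M, a, b, (hsupp _).1, (hsupp _).2, (hsupp _).1, (hsupp _).2, hane,
    fun p hp hpS hpa hpb => ?_, fun p hp i j => ?_⟩
  · have hmem : p ∈ T := Finset.mem_union_right _ (Nat.mem_primeFactors.mpr
      ⟨hp, Int.natCast_dvd.mp hpa, Int.natAbs_ne_zero.mpr hane⟩)
    have h1 := hb p hmem
    rw [if_neg hpS, if_neg hpS, pow_one] at h1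
    have : (p : ℤ) ∣ 1 := by simpa using dvd_sub hpb h1
    exact hp.one_lt.ne' (by exact_mod_cast Int.eq_one_of_dvd_one (by positivity) this)
  · have hpp := hS p hp
    have hp0 : (p : Qb) ≠ 0 := Nat.cast_ne_zero.mpr hpp.ne_zero
    set C : ℕ := ∏ l ∈ S.erase p, l ^ (jr l + js l) with hC
    have hmC : m = p ^ (jr p + js p) * C := (Finset.mul_prod_erase S _ hp).symm
    have hCv : (P p).valuation (C : Qb) = 1 := by
      refine v_natCast_eq_one hpp (hP p hp) fun hdvd => ?_
      obtain ⟨l, hl, hpl⟩ := (Prime.dvd_finsetProd_iff hpp.prime _).mp hdvd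
      obtain ⟨hne, hlS⟩ := Finset.mem_erase.mp hl
      exact hne ((Nat.prime_dvd_prime_iff_eq hpp (hS l hlS)).mp (hpp.dvd_of_dvd_pow hpl)).symm
    have hC0 : (C : Qb) ≠ 0 := fun h => by rw [h, map_zero] at hCv; exact zero_ne_one hCv
    have hMdvd : (p : ℤ) ^ E p ∣ (M : ℤ) := by
      rw [hM]; push_cast; exact Finset.dvd_prod_of_mem (fun p : ℕ => (p : ℤ) ^ E p) hp
    have hbS := hb p (Finset.mem_union_left _ hp)
    rw [if_pos hp, if_pos hp] at hbS
    have hcast : ((∏ l ∈ S.erase p, (l : ℤ) ^ (jr l + js l) : ℤ) : Qb) = (C : Qb) := by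
      rw [hC]; push_cast; rfl
    have main : ∀ (z : ℤ) (t : ℤ) (α : Qb) (j₁ j₂ : ℕ), j₁ + j₂ = jr p + js p →
        ((p : ℤ) ^ E p ∣ z - t * (p : ℤ) ^ j₂ * ∏ l ∈ S.erase p, (l : ℤ) ^ (jr l + js l)) →
        (P p).valuation (α - (t : Qb) / (p : Qb) ^ j₁) ≤ (P p).valuation (p : Qb) ^ n p →
        (P p).valuation ((z : Qb) / m - α) ≤ (P p).valuation (p : Qb) ^ n p := by
      intro z t α j₁ j₂ hj hz hα
      obtain ⟨c, hc⟩ := hz
      have hzq : (z : Qb) - (t : Qb) * (p : Qb) ^ j₂ * C = (p : Qb) ^ E p * (c : Qb) := by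
        have := congrArg (fun m : ℤ => (m : Qb)) hc
        rw [← hcast]
        push_cast at this ⊢
        exact this
      have e : (z : Qb) / m - α =
          (c : Qb) / C * (p : Qb) ^ n p - (α - (t : Qb) / (p : Qb) ^ j₁) := by
        rw [hmC, ← hj]
        push_cast
        have hE' : (p : Qb) ^ E p = (p : Qb) ^ n p * (p : Qb) ^ (j₁ + j₂) := by
          rw [← pow_add]; congr 1; simp only [hE]; omega
        rw [hE', pow_add] at hzq
        rw [pow_add]
        field_simp
        linear_combination hzq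
      rw [e]
      refine ((P p).valuation.map_sub _ _).trans (max_le ?_ hα)
      rw [map_mul, map_div₀, hCv, div_one, map_pow]
      exact mul_le_of_le_one_left' (FA.Local.intCast_le_one _)
    exact ⟨main _ _ _ (jr p) (js p) rfl
        (by rw [add_sub_right_comm]; exact dvd_add (ha p hp) (dvd_mul_of_dvd_left hMdvd i)) (hr p hp),
      main _ _ _ (js p) (jr p) (add_comm _ _)
        (by rw [add_sub_right_comm]; exact dvd_add hbS (dvd_mul_of_dvd_left hMdvd j)) (hs p hp)⟩

end

end FA.Switch
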