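/-
Coordinates in the twisted parameter planes and elementary valuation lemmas for the switches.
-/
import Fermat.Agent.Switch.LocalTools
import Fermat.Agent.Switch.Descent
import Fermat.Agent.Switch.Level3.Descent

set_option autoImplicit false
set_option linter.unusedSectionVars false

open Matrix
open scoped Pointwise

namespace FA.Switch

noncomputable section

local notation "Qb" => AlgebraicClosure ℚ
local notation "GQ" => AlgebraicClosure ℚ ≃ₐ[ℚ] AlgebraicClosure ℚ

/-! ### Coordinates -/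

/-- The determinant of two vectors. -/
def det2 (x y : Fin 2 → Qb) : Qb := x 0 * y 1 - x 1 * y 0

lemma det2_mulVec (M : Matrix (Fin 2) (Fin 2) Qb) (x y : Fin 2 → Qb) :
    det2 (M.mulVec x) (M.mulVec y) = M.det * det2 x y := by
  simp only [det2, Matrix.mulVec, dotProduct, Fin.sum_univ_two, det_fin_two]
  ring

lemma map_det2 (σ : GQ) (x y : Fin 2 → Qb) :
    σ (det2 x y) = det2 (fun i => σ (x i)) (fun i => σ (y i)) := by
  simp [det2]

lemma coord_fixed (σ : GQ) {M : Matrix (Fin 2) (Fin 2) Qb} (hM : M.det ≠ 0) {x y w e : Fin 2 → Qb}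
    (hx : M.mulVec x = fun i => σ (x i)) (hy : M.mulVec y = fun i => σ (y i))
    (hw : M.mulVec w = fun i => σ (w i)) (he : M.mulVec e = fun i => σ (e i)) :
    σ (det2 x y / det2 w e) = det2 x y / det2 w e := by
  rw [map_div₀, map_det2, map_det2, ← hx, ← hy, ← hw, ← he, det2_mulVec, det2_mulVec,
    mul_div_mul_left _ _ hM]

lemma frame_eq {w e : Fin 2 → Qb} (h : det2 w e ≠ 0) (x : Fin 2 → Qb) :
    x = fun i => det2 x e / det2 w e * w i + det2 w x / det2 w e * e i := by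
  funext i
  rw [div_mul_eq_mul_div, div_mul_eq_mul_div, ← add_div, eq_div_iff h]
  fin_cases i <;> simp [det2] <;> ring

lemma mulVec_lin (σ : GQ) {M : Matrix (Fin 2) (Fin 2) Qb} {v v' : Fin 2 → Qb} (r s : ℚ)
    (h : M.mulVec v = fun i => σ (v i)) (h' : M.mulVec v' = fun i => σ (v' i)) :
    M.mulVec (fun i => (r : Qb) * v i + (s : Qb) * v' i) =
      fun i => σ ((r : Qb) * v i + (s : Qb) * v' i) := by
  have e : (fun i => (r : Qb) * v i + (s : Qb) * v' i) = (r : Qb) • v + (s : Qb) • v' := rfl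
  rw [e, mulVec_add, mulVec_smul, mulVec_smul, h, h']
  funext i
  simp

lemma Base.InV.lin {B : Base} {v v' : Fin 2 → Qb} (h : B.InV v) (h' : B.InV v') (r s : ℚ) :
    B.InV (fun i => (r : Qb) * v i + (s : Qb) * v' i) :=
  fun σ => mulVec_lin σ r s (h σ) (h' σ)

lemma L3.Base.InV.lin {B : L3.Base} {v v' : Fin 2 → Qb} (h : B.InV v) (h' : B.InV v') (r s : ℚ) :
    B.InV (fun i => (r : Qb) * v i + (s : Qb) * v' i) :=
  fun σ => mulVec_lin σ r s (h σ) (h' σ)

lemma exists_ratCast_of_fixed' {x : Qb} (h : ∀ σ : GQ, σ x = x) : ∃ q : ℚ, (q : Qb) = x := by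
  obtain ⟨q, hq⟩ := FA.EC.mem_range_of_fixed h
  exact ⟨q, by rw [← hq]; exact (eq_ratCast (algebraMap ℚ Qb) q).symm⟩

lemma Base.InV.exists_invariants {B : Base} {v : Fin 2 → Qb} (h : B.InV v) :
    ∃ c d : ℚ, (c : Qb) = klC4 (v 0) (v 1) ∧ (d : Qb) = klC6 (v 0) (v 1) := by
  obtain ⟨c, hc⟩ := exists_ratCast_of_fixed' (x := klC4 (v 0) (v 1)) fun σ => by
    have k4 := map_klC4 (σ : Qb →+* Qb) (v 0) (v 1)
    simp only [RingHom.coe_coe] at k4
    rw [k4, ← congrFun (h σ) 0, ← congrFun (h σ) 1]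
    exact ((B.cocycle σ).2.2 v).1
  obtain ⟨d, hd⟩ := exists_ratCast_of_fixed' (x := klC6 (v 0) (v 1)) fun σ => by
    have k6 := map_klC6 (σ : Qb →+* Qb) (v 0) (v 1)
    simp only [RingHom.coe_coe] at k6
    rw [k6, ← congrFun (h σ) 0, ← congrFun (h σ) 1]
    exact ((B.cocycle σ).2.2 v).2
  exact ⟨c, d, hc, hd⟩

lemma L3.Base.InV.exists_invariants {B : L3.Base} {v : Fin 2 → Qb} (h : B.InV v) :
    ∃ c d : ℚ, (c : Qb) = L3.hc4 (v 0) (v 1) ∧ (d : Qb) = L3.hc6 (v 0) (v 1) := by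
  obtain ⟨c, hc⟩ := exists_ratCast_of_fixed' (x := L3.hc4 (v 0) (v 1)) fun σ => by
    have k4 := L3.map_hc4 (σ : Qb →+* Qb) (v 0) (v 1)
    simp only [RingHom.coe_coe] at k4
    rw [k4, ← congrFun (h σ) 0, ← congrFun (h σ) 1]
    exact ((B.cocycle σ).2.2 v).1
  obtain ⟨d, hd⟩ := exists_ratCast_of_fixed' (x := L3.hc6 (v 0) (v 1)) fun σ => by
    have k6 := L3.map_hc6 (σ : Qb →+* Qb) (v 0) (v 1)
    simp only [RingHom.coe_coe] at k6
    rw [k6, ← congrFun (h σ) 0, ← congrFun (h σ) 1]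
    exact ((B.cocycle σ).2.2 v).2
  exact ⟨c, d, hc, hd⟩

/-! ### Valuations -/

variable {A : ValuationSubring Qb} {q : ℕ}

lemma v_add_eq_one {x y : Qb} (hx : A.valuation x = 1) (hy : A.valuation y < 1) :
    A.valuation (x + y) = 1 :=
  (A.valuation.map_add_eq_of_lt_left (by rwa [hx])).trans hx

lemma v_sub_eq_one {x y : Qb} (hx : A.valuation x = 1) (hy : A.valuation y < 1) :
    A.valuation (x - y) = 1 := by
  rw [sub_eq_add_neg]; exact v_add_eq_one hx (by rwa [A.valuation.map_neg])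

lemma v_mul_le_left {x y : Qb} (hy : A.valuation y ≤ 1) :
    A.valuation (x * y) ≤ A.valuation x := by
  rw [map_mul]; exact mul_le_of_le_one_right' hy

lemma v_mul_lt_one {x y : Qb} (hx : A.valuation x < 1) (hy : A.valuation y ≤ 1) :
    A.valuation (x * y) < 1 :=
  (v_mul_le_left hy).trans_lt hx

lemma v_eq_one_of_pow {x : Qb} {n : ℕ} (hn : n ≠ 0) (h : A.valuation x ^ n = 1) :
    A.valuation x = 1 :=
  (pow_left_inj₀ zero_le zero_le hn).mp (h.trans (one_pow n).symm)

lemma v_lt_one_of_pow {x : Qb} {n : ℕ} (h : A.valuation (x ^ n) < 1) : A.valuation x < 1 := by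
  by_contra hc
  rw [map_pow] at h
  exact absurd h (not_lt.mpr (one_le_pow₀ (not_lt.mp hc)))

lemma ne_zero_of_v_eq_one {x : Qb} (h : A.valuation x = 1) : x ≠ 0 :=
  fun h0 => by rw [h0, map_zero] at h; exact zero_ne_one h

/-- An integral number fixed by the decomposition group is close to an integer. -/
lemma exists_int_near (hq : q.Prime) (hA : A.LiesOverPrime q) {α : Qb}
    (hfix : ∀ σ : GQ, σ • A = A → σ α = α) (h1 : A.valuation α ≤ 1) (k : ℕ) :
    ∃ n : ℤ, A.valuation (α - (n : Qb)) ≤ A.valuation (q : Qb) ^ k := by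
  have hq1 : A.valuation (q : Qb) ≤ 1 := (v_natPrime_lt hA).le
  obtain ⟨x, hx⟩ := exists_rat_near hq hA hfix k
  obtain ⟨j, t, ht⟩ := exists_qpow_near hq hA x k
  have h2 : A.valuation (α - (t : Qb) / (q : Qb) ^ j) ≤ A.valuation (q : Qb) ^ k := by
    rw [← sub_add_sub_cancel α (x : Qb)]
    exact A.valuation.map_add_le hx ht
  have h3 : A.valuation ((t : Qb) / (q : Qb) ^ j) ≤ 1 := by
    rw [← sub_sub_cancel α ((t : Qb) / (q : Qb) ^ j)]
    exact (A.valuation.map_sub _ _).trans (max_le h1 (h2.trans (pow_le_one₀ zero_le hq1)))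
  obtain ⟨c, rfl⟩ : (q : ℤ) ^ j ∣ t := (intCast_le_pow_iff hq hA t j).mp (by
    rwa [map_div₀, map_pow, div_le_one₀ (pow_pos (zero_lt_iff.mpr (v_natPrime_ne hq)) j)] at h3)
  refine ⟨c, ?_⟩
  rwa [Int.cast_mul, Int.cast_pow, Int.cast_natCast,
    mul_div_cancel_left₀ _ (pow_ne_zero j (Nat.cast_ne_zero.mpr hq.ne_zero))] at h2

/-- A number fixed by the decomposition group of value one is congruent to an integer prime
to `q`. -/
lemma exists_int_near_unit (hq : q.Prime) (hA : A.LiesOverPrime q) {α : Qb}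
    (hfix : ∀ σ : GQ, σ • A = A → σ α = α) (h1 : A.valuation α = 1) {k : ℕ} (hk : 0 < k) :
    ∃ n : ℤ, ¬ (q : ℤ) ∣ n ∧ A.valuation (α - (n : Qb)) ≤ A.valuation (q : Qb) ^ k := by
  obtain ⟨n, hn⟩ := exists_int_near hq hA hfix h1.le k
  refine ⟨n, fun hd => ?_, hn⟩
  have h2 := v_sub_eq_one h1 ((intCast_lt_one_iff hq hA n).mpr hd)
  rw [h2] at hn
  exact absurd hn (not_le.mpr (pow_lt_one₀ zero_le (v_natPrime_lt hA) hk.ne'))

lemma small_of_common {u w : Qb} (hu : A.valuation u ≤ 1) (hw : A.valuation w ≤ 1)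
    (h5 : A.valuation (5 : Qb) = 1) (h4 : A.valuation (klC4 u w) < 1)
    (hf : A.valuation (klF u w) < 1) : A.valuation u < 1 ∧ A.valuation w < 1 := by
  have mu : u ∈ A := (A.valuation_le_one_iff u).mp hu
  have mw : w ∈ A := (A.valuation_le_one_iff w).mp hw
  have key : A.valuation u < 1 ∨ A.valuation w < 1 := by
    by_contra hcon
    push Not at hcon
    have eu : A.valuation u = 1 := le_antisymm hu hcon.1
    have ew : A.valuation w = 1 := le_antisymm hw hcon.2
    rw [klF, map_mul, map_mul, eu, ew, one_mul, one_mul] at hf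
    have e : (3125 : Qb) * (u * w) ^ 10 = klC4 u w +
        ((u ^ 5) ^ 2 - 11 * u ^ 5 * w ^ 5 - (w ^ 5) ^ 2) *
          ((w ^ 5) ^ 2 - 239 * u ^ 5 * w ^ 5 - (u ^ 5) ^ 2) := by
      simp only [klC4, c4UV]
      ring
    have h : A.valuation ((3125 : Qb) * (u * w) ^ 10) < 1 := by
      rw [e]
      exact A.valuation.map_add_lt h4 (v_mul_lt_one hf ((A.valuation_le_one_iff _).mpr
        (by apply_rules [sub_mem, add_mem, mul_mem, pow_mem, ofNat_mem])))
    rw [show (3125 : Qb) = 5 ^ 5 by norm_num, map_mul, map_pow, map_pow, map_mul, h5, eu, ew,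
      one_pow, one_mul, one_mul, one_pow] at h
    exact lt_irrefl _ h
  rcases key with h | h
  · refine ⟨h, v_lt_one_of_pow (n := 20) ?_⟩
    have e : w ^ 20 = klC4 u w - u * (u ^ 19 + 228 * u ^ 14 * w ^ 5 + 494 * u ^ 9 * w ^ 10 -
        228 * u ^ 4 * w ^ 15) := by
      simp only [klC4, c4UV]
      ring
    rw [e]
    exact (A.valuation.map_sub _ _).trans_lt (max_lt h4 (v_mul_lt_one h ((A.valuation_le_one_iff _).mpr
      (by apply_rules [sub_mem, add_mem, mul_mem, pow_mem, ofNat_mem]))))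
  · refine ⟨v_lt_one_of_pow (n := 20) ?_, h⟩
    have e : u ^ 20 = klC4 u w - w * (228 * u ^ 15 * w ^ 4 + 494 * u ^ 10 * w ^ 9 -
        228 * u ^ 5 * w ^ 14 + w ^ 19) := by
      simp only [klC4, c4UV]
      ring
    rw [e]
    exact (A.valuation.map_sub _ _).trans_lt (max_lt h4 (v_mul_lt_one h ((A.valuation_le_one_iff _).mpr
      (by apply_rules [sub_mem, add_mem, mul_mem, pow_mem, ofNat_mem]))))

lemma L3.small_of_common {u w : Qb} (hu : A.valuation u ≤ 1) (hw : A.valuation w ≤ 1)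
    (h3 : A.valuation (3 : Qb) = 1) (h4 : A.valuation (L3.hc4 u w) < 1)
    (hd : A.valuation (L3.hD u w) < 1) : A.valuation u < 1 ∧ A.valuation w < 1 := by
  have mu : u ∈ A := (A.valuation_le_one_iff u).mp hu
  have mw : w ∈ A := (A.valuation_le_one_iff w).mp hw
  have key : A.valuation w < 1 := by
    by_contra hcon
    have ew : A.valuation w = 1 := le_antisymm hw (not_lt.mp hcon)
    rw [L3.hD, map_mul, ew, one_mul] at hd
    have e : (243 : Qb) * (u * w ^ 3) = L3.hc4 u w - (u ^ 3 - 27 * w ^ 3) * u := by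
      simp only [L3.hc4]
      ring
    have h : A.valuation ((243 : Qb) * (u * w ^ 3)) < 1 := by
      rw [e]
      exact (A.valuation.map_sub _ _).trans_lt (max_lt h4 (v_mul_lt_one hd hu))
    rw [show (243 : Qb) = 3 ^ 5 by norm_num, map_mul, map_pow, map_mul, map_pow, h3, ew, one_pow,
      one_pow, one_mul, mul_one] at h
    have h27 : A.valuation ((27 : Qb) * w ^ 3) = 1 := by
      rw [show (27 : Qb) = 3 ^ 3 by norm_num, map_mul, map_pow, map_pow, h3, ew, one_pow, one_mul]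
    rw [A.valuation.map_sub_swap, v_sub_eq_one h27 (by
      rw [map_pow]; exact pow_lt_one₀ zero_le h three_ne_zero)] at hd
    exact lt_irrefl _ hd
  refine ⟨v_lt_one_of_pow (n := 4) ?_, key⟩
  have e : u ^ 4 = L3.hc4 u w - w * (216 * u * w ^ 2) := by
    simp only [L3.hc4]
    ring
  rw [e]
  exact (A.valuation.map_sub _ _).trans_lt (max_lt h4 (v_mul_lt_one key ((A.valuation_le_one_iff _).mpr
    (by apply_rules [sub_mem, add_mem, mul_mem, pow_mem, ofNat_mem]))))

end

end FA.Switch
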