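/-
The parameters near a cusp of the level `5` curve in terms of a twisted plane with multiplicative
invariants.
-/
import Fermat.Agent.Switch.Plane

set_option autoImplicit false
set_option linter.unusedSectionVars false

open Matrix
open scoped Pointwise

namespace FA.Switch

noncomputable section

local notation "Qb" => AlgebraicClosure ℚ
local notation "GQ" => AlgebraicClosure ℚ ≃ₐ[ℚ] AlgebraicClosure ℚ

lemma diag_mem_symM' {c e₁ e₂ : Qb} (hc : c ^ 2 = 1) (h₁ : e₁ ^ 5 = c) (h₂ : e₂ ^ 5 = c) :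
    !![e₁, 0; 0, e₂] ∈ symM Qb := by
  have hc0 : c ≠ 0 := fun h => by simp [h] at hc
  have h₁0 : e₁ ≠ 0 := fun h => hc0 (by rw [← h₁, h]; ring)
  have h₂0 : e₂ ≠ 0 := fun h => hc0 (by rw [← h₂, h]; ring)
  refine ⟨by simp [det_fin_two, h₁0, h₂0], fun w => ?_⟩
  have e : ∀ i, (!![e₁, 0; 0, e₂]).mulVec w i = ![e₁ * w 0, e₂ * w 1] i := fun i => by
    fin_cases i <;> simp [Matrix.mulVec, dotProduct, Fin.sum_univ_two]
  simp only [e, Matrix.cons_val_zero, Matrix.cons_val_one, klC4, klC6, c4UV, c6UV, mul_pow, h₁, h₂]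
  constructor
  · linear_combination
      ((w 0 ^ 5) ^ 4 + 228 * (w 0 ^ 5) ^ 3 * w 1 ^ 5 + 494 * (w 0 ^ 5) ^ 2 * (w 1 ^ 5) ^ 2 -
        228 * w 0 ^ 5 * (w 1 ^ 5) ^ 3 + (w 1 ^ 5) ^ 4) * (c ^ 2 + 1) * hc
  · linear_combination
      (-(w 0 ^ 5) ^ 6 + 522 * (w 0 ^ 5) ^ 5 * w 1 ^ 5 + 10005 * (w 0 ^ 5) ^ 4 * (w 1 ^ 5) ^ 2 +
        10005 * (w 0 ^ 5) ^ 2 * (w 1 ^ 5) ^ 4 - 522 * w 0 ^ 5 * (w 1 ^ 5) ^ 5 - (w 1 ^ 5) ^ 6) *
        (c ^ 4 + c ^ 2 + 1) * hc

variable {A : ValuationSubring Qb}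

/-- Data of a cusp: the small parameter and the scale. -/
structure CuspData (A : ValuationSubring Qb) (a b Δ T X : Qb) : Prop where
  val : A.valuation T = A.valuation Δ
  small : A.valuation T < 1
  fixT : ∀ σ : GQ, σ • A = A → σ T = T
  fixX : ∀ σ : GQ, σ • A = A → σ X = X
  unitX : A.valuation X = 1
  eq4 : X ^ 2 * c4UV T 1 = a
  eq6 : X ^ 3 * c6UV T 1 = b

/-- **The cusp normal form** of a twisted plane with multiplicative invariants. -/
theorem Base.exists_cusp (B : Base) {e : Fin 2 → Qb} (he : B.InV e) (hind : det2 B.w e ≠ 0)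
    (Δ : ℚ) (hΔ : B.a ^ 3 - B.b ^ 2 = 1728 * Δ) (ha : A.valuation (B.a : Qb) = 1)
    (hd : A.valuation (Δ : Qb) < 1) :
    ∃ T X : Qb, CuspData A (B.a : Qb) (B.b : Qb) (Δ : Qb) T X ∧
      ∀ τ₁ τ₂ : ℚ, ∃ r s : Qb, (∀ σ : GQ, σ • A = A → σ r = r ∧ σ s = s) ∧
        klC4 (r * B.w 0 + s * e 0) (r * B.w 1 + s * e 1) =
          X ^ 2 * c4UV ((τ₁ : Qb) ^ 5 * T) ((τ₂ : Qb) ^ 5) ∧
        klC6 (r * B.w 0 + s * e 0) (r * B.w 1 + s * e 1) =
          X ^ 3 * c6UV ((τ₁ : Qb) ^ 5 * T) ((τ₂ : Qb) ^ 5) := by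
  set a : Qb := (B.a : Qb) with hadef
  set b : Qb := (B.b : Qb) with hbdef
  set D : Qb := (Δ : Qb) with hDdef
  have hsyz : a ^ 3 - b ^ 2 = 1728 * D := by
    rw [hadef, hbdef, hDdef]
    exact_mod_cast congrArg (fun x : ℚ => (x : Qb)) hΔ
  have hsat : Sat B.w a b := by
    have := B.sat
    simpa only [eq_ratCast] using this
  have hD0 : D ≠ 0 := fun h => hsat.disc (by
    rw [h, mul_zero] at hsyz; exact sub_eq_zero.mp hsyz)
  have ha0 : a ≠ 0 := ne_zero_of_v_eq_one ha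
  have hb : A.valuation b = 1 := by
    refine v_eq_one_of_pow two_ne_zero ?_
    rw [← map_pow, show b ^ 2 = a ^ 3 - 1728 * D by linear_combination -hsyz]
    exact v_sub_eq_one (by rw [map_pow, ha, one_pow]) (by
      rw [mul_comm]
      exact v_mul_lt_one hd ((A.valuation_le_one_iff _).mpr (ofNat_mem A 1728)))
  -- the small root
  set P : Polynomial Qb := c4UV Polynomial.X 1 ^ 3 * Polynomial.C D -
    Polynomial.C (a ^ 3) * (Polynomial.X * (Polynomial.X ^ 2 - 11 * Polynomial.X - 1) ^ 5) with hP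
  have hP0 : P.coeff 0 = D := by
    rw [Polynomial.coeff_zero_eq_eval_zero, hP]
    simp [c4UV]
  have hP1 : P.coeff 1 = a ^ 3 - 684 * D := by
    have h := Polynomial.coeff_derivative P 0
    simp only [Nat.cast_zero, zero_add, mul_one] at h
    rw [← h, Polynomial.coeff_zero_eq_eval_zero, hP]
    simp [c4UV, Polynomial.derivative_pow, Polynomial.derivative_mul]
    ring
  obtain ⟨T, hT1, hTroot⟩ := exists_small_root P (A := A) (by
    rw [hP0, hP1, v_sub_eq_one (by rw [map_pow, ha, one_pow]) (by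
      rw [mul_comm]
      exact v_mul_lt_one hd ((A.valuation_le_one_iff _).mpr (ofNat_mem A 684)))]
    exact hd)
  have hev : ∀ x : Qb, P.eval x =
      c4UV x 1 ^ 3 * D - a ^ 3 * (x * (x ^ 2 - 11 * x - 1) ^ 5) := fun x => by
    simp [hP, c4UV]
  have hroot : c4UV T 1 ^ 3 * D - a ^ 3 * (T * (T ^ 2 - 11 * T - 1) ^ 5) = 0 := by
    rw [← hev]; exact hTroot
  -- units
  have hH : ∀ x : Qb, A.valuation x < 1 →
      A.valuation (c4UV x 1) = 1 ∧ A.valuation (c6UV x 1) = 1 ∧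
      A.valuation ((x ^ 2 - 11 * x - 1) ^ 5) = 1 ∧
      A.valuation (c4UV x 1 - 1) ≤ A.valuation x ∧ A.valuation (c6UV x 1 + 1) ≤ A.valuation x := by
    intro x hx
    have mx : x ∈ A := (A.valuation_le_one_iff x).mp hx.le
    have e4 : c4UV x 1 = 1 + x * (x ^ 3 + 228 * x ^ 2 + 494 * x - 228) := by
      simp only [c4UV]; ring
    have e6 : c6UV x 1 = -1 + x * (522 * x ^ 4 - x ^ 5 + 10005 * x ^ 3 + 10005 * x - 522) := by
      simp only [c6UV]; ring
    have b4 : A.valuation (x * (x ^ 3 + 228 * x ^ 2 + 494 * x - 228)) ≤ A.valuation x :=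
      v_mul_le_left ((A.valuation_le_one_iff _).mpr
        (by apply_rules [sub_mem, add_mem, mul_mem, pow_mem, ofNat_mem]))
    have b6 : A.valuation (x * (522 * x ^ 4 - x ^ 5 + 10005 * x ^ 3 + 10005 * x - 522)) ≤
        A.valuation x :=
      v_mul_le_left ((A.valuation_le_one_iff _).mpr
        (by apply_rules [sub_mem, add_mem, mul_mem, pow_mem, ofNat_mem]))
    refine ⟨?_, ?_, ?_, ?_, ?_⟩
    · rw [e4]; exact v_add_eq_one A.valuation.map_one (b4.trans_lt hx)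
    · rw [e6]
      exact v_add_eq_one (by rw [A.valuation.map_neg, A.valuation.map_one]) (b6.trans_lt hx)
    · rw [map_pow, show x ^ 2 - 11 * x - 1 = -1 + x * (x - 11) by ring]
      rw [v_add_eq_one (by rw [A.valuation.map_neg, A.valuation.map_one])
        (v_mul_lt_one hx ((A.valuation_le_one_iff _).mpr (sub_mem mx (ofNat_mem A 11)))), one_pow]
    · rw [e4, add_sub_cancel_left]; exact b4
    · rw [e6, neg_add_cancel_comm]; exact b6
  obtain ⟨vH, vG, vu, -, -⟩ := hH T hT1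
  have hvT : A.valuation T = A.valuation D := by
    have h := congrArg A.valuation (sub_eq_zero.mp hroot)
    rw [map_mul, map_pow, vH, one_pow, one_mul, map_mul, map_mul, vu, mul_one, map_pow, ha,
      one_pow, one_mul] at h
    exact h.symm
  have hT0 : T ≠ 0 := fun h => hD0 ((_root_.map_eq_zero A.valuation).mp (by rw [← hvT, h, map_zero]))
  have hfixT : ∀ σ : GQ, σ • A = A → σ T = T := by
    intro σ hσ
    have hs1 : A.valuation (σ T) < 1 := (v_apply_lt_one_iff hσ T).mpr hT1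
    have hrat : ∀ x : ℚ, σ (x : Qb) = x := fun x => map_ratCast σ x
    have hs : c4UV (σ T) 1 ^ 3 * D - a ^ 3 * (σ T * (σ T ^ 2 - 11 * σ T - 1) ^ 5) = 0 := by
      have h := congrArg σ hroot
      simp only [c4UV, map_sub, map_mul, map_pow, map_add, map_one, map_ofNat, map_zero, hadef,
        hDdef, hrat] at h
      simpa only [c4UV, hadef, hDdef] using h
    set S := σ T
    by_contra hne
    obtain ⟨-, -, vu', -, -⟩ := hH S hs1
    set Y := T ^ 2 - 11 * T - 1
    set Y' := S ^ 2 - 11 * S - 1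
    set h4 := (T + S) * (T ^ 2 + S ^ 2) + 228 * (T ^ 2 + T * S + S ^ 2) + 494 * (T + S) - 228
    set Sg := c4UV T 1 ^ 2 + c4UV T 1 * c4UV S 1 + c4UV S 1 ^ 2
    set S5 := Y ^ 4 + Y ^ 3 * Y' + Y ^ 2 * Y' ^ 2 + Y * Y' ^ 3 + Y' ^ 4
    have key : (T - S) * (D * (h4 * Sg) - a ^ 3 * (Y ^ 5 + S * ((T + S - 11) * S5))) = 0 := by
      have e : (T - S) * (D * (h4 * Sg) - a ^ 3 * (Y ^ 5 + S * ((T + S - 11) * S5))) =
          (c4UV T 1 ^ 3 * D - a ^ 3 * (T * Y ^ 5)) - (c4UV S 1 ^ 3 * D - a ^ 3 * (S * Y' ^ 5)) := by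
        simp only [h4, Sg, S5, Y, Y', c4UV]
        ring
      rw [e, hs, hroot, sub_zero]
    have hz := (mul_eq_zero.mp key).resolve_left (sub_ne_zero.mpr fun h => hne h.symm)
    have mT : T ∈ A := (A.valuation_le_one_iff T).mp hT1.le
    have mS : S ∈ A := (A.valuation_le_one_iff S).mp hs1.le
    have h1 : A.valuation (D * (h4 * Sg)) < 1 := v_mul_lt_one hd ((A.valuation_le_one_iff _).mpr (by
      have mh : h4 ∈ A := by apply_rules [sub_mem, add_mem, mul_mem, pow_mem, ofNat_mem]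
      have mH : ∀ x ∈ A, c4UV x 1 ∈ A := fun x mx => by
        simp only [c4UV, one_pow, mul_one]
        apply_rules [sub_mem, add_mem, mul_mem, pow_mem, ofNat_mem, one_mem]
      exact mul_mem mh (add_mem (add_mem (pow_mem (mH T mT) 2) (mul_mem (mH T mT) (mH S mS)))
        (pow_mem (mH S mS) 2))))
    have h2 : A.valuation (a ^ 3 * (Y ^ 5 + S * ((T + S - 11) * S5))) = 1 := by
      rw [map_mul, map_pow, ha, one_pow, one_mul]
      refine v_add_eq_one vu (v_mul_lt_one hs1 ((A.valuation_le_one_iff _).mpr ?_))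
      have mY : ∀ x ∈ A, x ^ 2 - 11 * x - 1 ∈ A := fun x mx => by
        apply_rules [sub_mem, mul_mem, pow_mem, ofNat_mem, one_mem]
      have mY1 : Y ∈ A := mY T mT
      have mY2 : Y' ∈ A := mY S mS
      apply_rules [sub_mem, add_mem, mul_mem, pow_mem, ofNat_mem]
    rw [sub_eq_zero.mp hz, h2] at h1
    exact lt_irrefl _ h1
  -- the parameter
  obtain ⟨t, ht⟩ := IsAlgClosed.exists_pow_nat_eq T (n := 5) (by norm_num)
  set H := c4UV T 1 with hHdef
  set G := c6UV T 1 with hGdef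
  set X := b * H / (a * G) with hX
  obtain ⟨l, hl⟩ := IsAlgClosed.exists_pow_nat_eq X (n := 10) (by norm_num)
  have vX : A.valuation X = 1 := by rw [hX, map_div₀, map_mul, map_mul, ha, hb, vH, vG]; simp
  have hrel : b ^ 2 * H ^ 3 = a ^ 3 * G ^ 2 := by
    have hs' : H ^ 3 - G ^ 2 = 1728 * (T * (T ^ 2 - 11 * T - 1) ^ 5) := by
      have h := klein_syzygy t (1 : Qb)
      simp only [klC4, klC6, klF, ht, one_pow, mul_one] at h
      rw [h, ← ht]
      ring
    linear_combination -H ^ 3 * hsyz - 1728 * hroot + a ^ 3 * hs'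
  have hG0 : G ≠ 0 := ne_zero_of_v_eq_one vG
  have hH0 : H ≠ 0 := ne_zero_of_v_eq_one vH
  have hb0 : b ≠ 0 := ne_zero_of_v_eq_one hb
  have hX4 : X ^ 2 * H = a := by
    rw [hX]; field_simp; linear_combination hrel
  have hX6 : X ^ 3 * G = b := by
    rw [hX]; field_simp; linear_combination hrel
  have hfixX : ∀ σ : GQ, σ • A = A → σ X = X := by
    intro σ hσ
    simp only [hX, hHdef, hGdef, c4UV, c6UV, map_div₀, map_mul, map_sub, map_add, map_neg, map_pow,
      map_one, map_ofNat, hfixT σ hσ, hadef, hbdef, map_ratCast]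
  have hl0 : l ≠ 0 := fun h => ne_zero_of_v_eq_one vX (by rw [← hl, h]; ring)
  have ht0 : t ≠ 0 := fun h => hT0 (by rw [← ht, h]; ring)
  have hval : ∀ x y : Qb, klC4 (x * t * l) (y * l) = X ^ 2 * c4UV (x ^ 5 * T) (y ^ 5) ∧
      klC6 (x * t * l) (y * l) = X ^ 3 * c6UV (x ^ 5 * T) (y ^ 5) := fun x y => by
    constructor
    · rw [mul_comm _ l, mul_comm y, klC4_smul, klC4, mul_pow, ht, ← hl]; ring
    · rw [mul_comm _ l, mul_comm y, klC6_smul, klC6, mul_pow, ht, ← hl]; ring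
  have hw' : Sat ![t * l, l] a b := by
    obtain ⟨e4, e6⟩ := hval 1 1
    simp only [one_mul, one_pow] at e4 e6
    exact ⟨by simpa using e4.trans hX4, by simpa using e6.trans hX6, hsat.disc⟩
  obtain ⟨g, hg⟩ := exists_sym ha0 hb0 hw' hsat
  refine ⟨T, X, ⟨hvT, hT1, hfixT, hfixX, vX, hX4, hX6⟩, fun τ₁ τ₂ => ?_⟩
  set y : Fin 2 → Qb := ![(τ₁ : Qb) * t * l, (τ₂ : Qb) * l] with hy
  set x : Fin 2 → Qb := (g : Matrix (Fin 2) (Fin 2) Qb).mulVec y with hx
  refine ⟨det2 x e / det2 B.w e, det2 B.w x / det2 B.w e, fun σ hσ => ?_, ?_, ?_⟩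
  · set e₁ := σ (t * l) / (t * l) with he₁
    set e₂ := σ l / l with he₂
    set c := e₂ ^ 5 with hc
    have hc2 : c ^ 2 = 1 := by
      rw [hc, he₂, ← pow_mul, div_pow, ← map_pow, hl, hfixX σ hσ,
        div_self (ne_zero_of_v_eq_one vX)]
    have h1 : e₁ ^ 5 = c := by
      rw [hc, he₁, he₂, map_mul, mul_div_mul_comm, mul_pow, div_pow, ← map_pow, ht,
        hfixT σ hσ, div_self hT0, one_mul]
    set d : symM Qb := ⟨!![e₁, 0; 0, e₂], diag_mem_symM' hc2 h1 hc.symm⟩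
    have hd' : ∀ u v : Qb, (d : Matrix (Fin 2) (Fin 2) Qb).mulVec ![u * (t * l), v * l] =
        ![u * σ (t * l), v * σ l] := fun u v => by
      funext i
      fin_cases i <;>
        simp [d, he₁, he₂, Matrix.mulVec, dotProduct, Fin.sum_univ_two] <;> field_simp
    have hcomm : (⟨_, map_mem_symM σ g.2⟩ : symM Qb) * d = B.cocycle σ * g := by
      refine sym_unique hw' ?_
      rw [Submonoid.coe_mul, Submonoid.coe_mul, ← mulVec_mulVec, ← mulVec_mulVec, hg,
        B.cocycle_spec]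
      have h := hd' 1 1
      simp only [one_mul] at h
      rw [h, ← hg, map_mulVec']
      congr 1
      funext i
      fin_cases i <;> simp
    have hxσ : (B.cocycle σ : Matrix (Fin 2) (Fin 2) Qb).mulVec x = fun i => σ (x i) := by
      rw [hx, map_mulVec', mulVec_mulVec, ← Submonoid.coe_mul, ← hcomm, Submonoid.coe_mul,
        ← mulVec_mulVec]
      congr 1
      rw [hy, mul_assoc, hd']
      funext i
      fin_cases i <;> simp
    exact ⟨coord_fixed σ (B.cocycle σ).2.1 hxσ (he σ) (B.cocycle_spec σ) (he σ),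
      coord_fixed σ (B.cocycle σ).2.1 (B.cocycle_spec σ) hxσ (B.cocycle_spec σ) (he σ)⟩
  all_goals
    have hxe := frame_eq hind x
    rw [← congrFun hxe 0, ← congrFun hxe 1, hx]
  · rw [(g.2.2 y).1]
    exact (hval _ _).1
  · rw [(g.2.2 y).2]
    exact (hval _ _).2

end

end FA.Switch
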