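/-
An elementary irreducibility statement: if the quartic `Y⁴ - 6cY² - 8dY - 3c²` has an integral root
at every large integral parameter, then it has a polynomial root.
-/
import Mathlib.Analysis.Complex.Polynomial.Basic
import Mathlib.LinearAlgebra.Lagrange
import Mathlib.Data.Fintype.Pigeonhole
import Mathlib.Combinatorics.Pigeonhole
import Mathlib.Data.Fintype.Powerset
import Mathlib.Tactic.ComputeDegree

set_option autoImplicit false

open Polynomial Filter Topology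

namespace FA.Switch

noncomputable section

/-- The quartic. -/
def psiQ {R : Type*} [CommRing R] (y c d : R) : R := y ^ 4 - 6 * c * y ^ 2 - 8 * d * y - 3 * c ^ 2

/-- Its derivative. -/
def psiQ' {R : Type*} [CommRing R] (y c d : R) : R := 4 * y ^ 3 - 12 * c * y - 8 * d

lemma psiQ_taylor {R : Type*} [CommRing R] (a u c d : R) :
    psiQ (a + u) c d =
      psiQ a c d + u * (psiQ' a c d + u * (6 * a ^ 2 - 6 * c + 4 * a * u + u ^ 2)) := by
  simp only [psiQ, psiQ']; ring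

lemma map_psiQ {R S : Type*} [CommRing R] [CommRing S] (f : R →+* S) (y c d : R) :
    f (psiQ y c d) = psiQ (f y) (f c) (f d) := by
  simp [psiQ, map_ofNat]

lemma map_psiQ' {R S : Type*} [CommRing R] [CommRing S] (f : R →+* S) (y c d : R) :
    f (psiQ' y c d) = psiQ' (f y) (f c) (f d) := by
  simp [psiQ', map_ofNat]

lemma psiQ_simple {K : Type*} [Field K] [CharZero K] {θ h g : K} (hne : h ^ 3 ≠ g ^ 2)
    (h0 : psiQ θ h g = 0) : psiQ' θ h g ≠ 0 := by
  intro h1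
  simp only [psiQ, psiQ'] at h0 h1
  have e : h = θ ^ 2 := by
    have : (θ ^ 2 - h) ^ 2 = 0 := by linear_combination (-1 / 3 : K) * h0 + θ / 3 * h1
    have := pow_eq_zero_iff two_ne_zero |>.mp this
    linear_combination -this
  have e' : g = -θ ^ 3 := by
    linear_combination (-1 / 8 : K) * h1 - 3 / 2 * θ * e
  exact hne (by rw [e, e']; ring)

/-- Newton iteration on power series truncations. -/
lemma exists_branch (C D : ℂ[X]) {θ : ℂ} (h0 : psiQ θ (C.eval 0) (D.eval 0) = 0)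
    (h1 : psiQ' θ (C.eval 0) (D.eval 0) ≠ 0) (n : ℕ) :
    ∃ Θ : ℂ[X], Θ.eval 0 = θ ∧ Θ.natDegree ≤ n ∧ X ^ (n + 1) ∣ psiQ Θ C D := by
  induction n with
  | zero =>
    refine ⟨Polynomial.C θ, eval_C, natDegree_C θ |>.le, ?_⟩
    rw [zero_add, pow_one, X_dvd_iff, coeff_zero_eq_eval_zero, ← coe_evalRingHom, map_psiQ]
    simpa using h0
  | succ n ih =>
    obtain ⟨Θ, hΘ0, hΘn, r, hr⟩ := ih
    set μ := -(r.eval 0) / psiQ' θ (C.eval 0) (D.eval 0) with hμ
    refine ⟨Θ + X ^ (n + 1) * Polynomial.C μ, by simp [hΘ0], ?_, ?_⟩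
    · exact (natDegree_add_le _ _).trans (max_le (by omega) ((natDegree_mul_C_le _ _).trans (by simp)))
    · rw [psiQ_taylor, hr, mul_assoc, ← mul_add, pow_succ X (n + 1)]
      refine mul_dvd_mul dvd_rfl ?_
      rw [X_dvd_iff, coeff_zero_eq_eval_zero, ← coe_evalRingHom, map_add, map_mul, map_add,
        map_mul, map_mul, map_psiQ']
      simp [hΘ0, hμ]
      field_simp
      ring

/-- The polynomial attached to a branch. -/
def revPoly (Θ : ℂ[X]) : ℂ[X] :=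
  ∑ k ∈ Finset.range 11, Polynomial.C (Θ.coeff k) * X ^ (10 - k)

lemma revPoly_natDegree (Θ : ℂ[X]) : (revPoly Θ).natDegree ≤ 10 :=
  natDegree_sum_le_of_forall_le _ _ fun k _ => (natDegree_C_mul_X_pow_le _ _).trans (by omega)

lemma revPoly_eval (Θ : ℂ[X]) (h : Θ.natDegree ≤ 10) {t : ℂ} (ht : t ≠ 0) :
    (revPoly Θ).eval t = t ^ 10 * Θ.eval t⁻¹ := by
  rw [eval_eq_sum_range' (p := Θ) (n := 11) (by omega), Finset.mul_sum, revPoly, eval_finset_sum]
  refine Finset.sum_congr rfl fun k hk => ?_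
  have hk' : k ≤ 10 := by simpa [Nat.lt_succ_iff] using hk
  simp only [eval_mul, eval_C, eval_pow, eval_X]
  rw [pow_sub₀ t ht hk', inv_pow]
  ring

lemma eval_reflect_eq (p : ℂ[X]) (N : ℕ) (h : p.natDegree ≤ N) {t : ℂ} (ht : t ≠ 0) :
    t ^ N * (reflect N p).eval t⁻¹ = p.eval t := by
  have := invertibleOfNonzero ht
  have e := eval₂_reflect_mul_pow (RingHom.id ℂ) t N p h
  rw [invOf_eq_inv] at e
  rw [mul_comm]
  exact e

lemma exists_int_of_tendsto {z : ℕ → ℤ} {A : ℂ}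
    (h : Tendsto (fun k => (z k : ℂ)) atTop (𝓝 A)) : ∃ a : ℤ, (a : ℂ) = A := by
  obtain ⟨N, hN⟩ := Metric.tendsto_atTop.mp h (1 / 2) (by norm_num)
  refine ⟨z N, ?_⟩
  have hconst : ∀ k ≥ N, z k = z N := fun k hk => by
    have h2 : dist (z k : ℂ) (z N) < 1 :=
      calc dist (z k : ℂ) (z N) ≤ dist (z k : ℂ) A + dist (z N : ℂ) A := dist_triangle_right _ _ _
        _ < 1 / 2 + 1 / 2 := add_lt_add (hN k hk) (hN N le_rfl)
        _ = 1 := by norm_num
    rw [dist_eq_norm, ← Int.cast_sub, Complex.norm_intCast] at h2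
    have h3 : |(z k - z N)| < 1 := by exact_mod_cast h2
    exact sub_eq_zero.mp (Int.abs_lt_one_iff.mp h3)
  exact tendsto_nhds_unique (tendsto_const_nhds.congr' <|
    Filter.eventually_atTop.mpr ⟨N, fun k hk => by rw [hconst k hk]⟩) h

/-- A polynomial which is nearly integral along translates of enough nodes has rational
coefficients. -/
lemma exists_int_model : ∀ (m : ℕ) (P : ℂ[X]), P.degree < m → ∀ (D : Finset ℕ), m ≤ D.card →
    ∀ (n : ℕ → ℕ) (W : ℕ), 0 < W → ∀ z : ℕ → ℕ → ℤ,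
    (∀ e ∈ D, Tendsto (fun k => (W : ℂ) * P.eval ((n k + e : ℕ) : ℂ) - z k e) atTop (𝓝 0)) →
    ∃ (L : ℕ) (Q : ℤ[X]), 0 < L ∧
      Q.map (Int.castRingHom ℂ) = Polynomial.C (L : ℂ) * P := by
  intro m
  induction m with
  | zero =>
    intro P hP D _ n W _ z _
    have : P = 0 := by
      by_contra h
      rw [degree_eq_natDegree h] at hP
      exact absurd hP (by exact_mod_cast Nat.not_lt_zero _)
    exact ⟨1, 0, one_pos, by simp [this]⟩
  | succ m ih =>
    intro P hP D hD n W hW z hz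
    obtain ⟨s, hsD, hs⟩ := Finset.exists_subset_card_eq hD
    set den : ℕ → ℤ := fun i => ∏ j ∈ s.erase i, ((i : ℤ) - j) with hdendef
    have hden : ∀ i ∈ s, den i ≠ 0 := fun i _ => Finset.prod_ne_zero_iff.mpr fun j hj =>
      sub_ne_zero.mpr (by exact_mod_cast fun e : i = j => (Finset.mem_erase.mp hj).1 e.symm)
    set M : ℕ := (∏ i ∈ s, den i).natAbs with hMdef
    have hM : 0 < M := Int.natAbs_pos.mpr (Finset.prod_ne_zero_iff.mpr hden)
    have hdvd : ∀ i ∈ s, ∃ q : ℤ, (M : ℤ) = q * den i := fun i hi => by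
      obtain ⟨q, hq⟩ := (Int.dvd_natAbs.mpr (Finset.dvd_prod_of_mem den hi) : den i ∣ (M : ℤ))
      exact ⟨q, by rw [hq, mul_comm]⟩
    choose! q hq using hdvd
    set a := P.coeff m
    have key : ∀ k, (W : ℂ) * M * a =
        ∑ i ∈ s, (q i : ℂ) * ((W : ℂ) * P.eval ((n k + i : ℕ) : ℂ)) := by
      intro k
      have h := Lagrange.coeff_eq_sum (s := s) (v := fun i => ((n k + i : ℕ) : ℂ))
        (fun i _ j _ e => by simpa using e) (P := P) (by rw [hs]; exact hP)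
      rw [hs, Nat.add_sub_cancel] at h
      rw [show a = _ from h, Finset.mul_sum]
      refine Finset.sum_congr rfl fun i hi => ?_
      have e : ∏ j ∈ s.erase i, (((n k + i : ℕ) : ℂ) - ((n k + j : ℕ) : ℂ)) = (den i : ℂ) := by
        simp [hdendef]
      have e2 : ((M : ℤ) : ℂ) = (q i : ℂ) * (den i : ℂ) := by exact_mod_cast hq i hi
      rw [Int.cast_natCast] at e2
      rw [e, e2]
      have := Int.cast_ne_zero (α := ℂ).mpr (hden i hi)
      field_simp
    have hlim : Tendsto (fun k => ((∑ i ∈ s, q i * z k i : ℤ) : ℂ)) atTop (𝓝 ((W : ℂ) * M * a)) := by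
      have h1 := tendsto_finset_sum s fun i hi => (hz i (hsD hi)).const_mul (q i : ℂ)
      simp only [mul_zero, Finset.sum_const_zero] at h1
      have h2 := (tendsto_const_nhds (x := (W : ℂ) * M * a)).sub h1
      rw [sub_zero] at h2
      refine h2.congr fun k => ?_
      rw [key k, ← Finset.sum_sub_distrib, Int.cast_sum]
      refine Finset.sum_congr rfl fun i _ => ?_
      push_cast
      ring
    obtain ⟨A, hA⟩ := exists_int_of_tendsto hlim
    set P' := P - Polynomial.C a * X ^ m with hP'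
    have hdeg : P'.degree < (m : WithBot ℕ) := by
      rw [degree_lt_iff_coeff_zero]
      intro i hi
      rcases eq_or_lt_of_le hi with rfl | hi'
      · simp [hP', a]
      · have : P.coeff i = 0 := coeff_eq_zero_of_degree_lt (lt_of_lt_of_le hP (by exact_mod_cast hi'))
        simp [hP', this]; intro h; omega
    obtain ⟨L, Q, hL, hQ⟩ := ih P' hdeg D (by omega) n (W * M) (Nat.mul_pos hW hM)
      (fun k e => (M : ℤ) * z k e - A * ((n k + e : ℕ) : ℤ) ^ m) (fun e he => by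
        refine ((hz e he).const_mul (M : ℂ)).congr' (.of_forall fun k => ?_) |>.trans (by simp)
        simp only [hP', eval_sub, eval_mul, eval_C, eval_pow, eval_X]
        push_cast
        rw [hA]
        ring)
    refine ⟨W * M * L, Polynomial.C ((W : ℤ) * M) * Q + Polynomial.C ((L : ℤ) * A) * X ^ m,
      Nat.mul_pos (Nat.mul_pos hW hM) hL, ?_⟩
    simp only [Polynomial.map_add, Polynomial.map_mul, Polynomial.map_pow, map_X, Polynomial.map_C,
      hQ, hP']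
    simp only [Int.coe_castRingHom, Int.cast_mul, Int.cast_natCast, hA, Nat.cast_mul, map_mul]
    ring

/-- The branches dominate integral roots. -/
lemma exists_close (c d : ℂ[X]) (hc : c.natDegree ≤ 20) (hd : d.natDegree ≤ 30)
    (hne : c.coeff 20 ^ 3 ≠ d.coeff 30 ^ 2) :
    ∃ (s : Finset ℂ) (P : ℂ → ℂ[X]) (K : ℝ) (N : ℕ), s.card ≤ 4 ∧
      (∀ θ, (P θ).natDegree ≤ 10) ∧
      ∀ t : ℕ, N ≤ t → ∀ y : ℂ, psiQ y (c.eval (t : ℂ)) (d.eval (t : ℂ)) = 0 →
        ∃ θ ∈ s, ‖y - (P θ).eval (t : ℂ)‖ ≤ K / t := by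
  classical
  set C := reflect 20 c with hC
  set D := reflect 30 d with hD
  have hC0 : C.eval 0 = c.coeff 20 := by
    rw [← coeff_zero_eq_eval_zero, hC, coeff_reflect, revAt_le (Nat.zero_le 20)]
  have hD0 : D.eval 0 = d.coeff 30 := by
    rw [← coeff_zero_eq_eval_zero, hD, coeff_reflect, revAt_le (Nat.zero_le 30)]
  set p0 : ℂ[X] := psiQ X (Polynomial.C (C.eval 0)) (Polynomial.C (D.eval 0)) with hp0
  have hp0e : ∀ y, p0.eval y = psiQ y (C.eval 0) (D.eval 0) := fun y => by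
    rw [hp0, ← coe_evalRingHom, map_psiQ]; simp
  have hdeg : p0.natDegree = 4 := by
    simp only [hp0, psiQ]; compute_degree!
  have hmon : p0.Monic := by
    rw [Monic, leadingCoeff, hdeg]
    simp [hp0, psiQ, coeff_X, coeff_C, Polynomial.coeff_X_pow, ← map_ofNat Polynomial.C,
      ← map_pow, ← map_mul]
  have hb : ∀ θ : ℂ, psiQ θ (C.eval 0) (D.eval 0) = 0 →
      ∃ Θ : ℂ[X], Θ.eval 0 = θ ∧ Θ.natDegree ≤ 10 ∧ X ^ 11 ∣ psiQ Θ C D := fun θ hθ =>
    exists_branch C D hθ (psiQ_simple (by rw [hC0, hD0]; exact hne) hθ) 10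
  choose! Θ hΘ0 hΘn hΘd using hb
  have hdvd : ∀ θ, ∃ r, psiQ θ (C.eval 0) (D.eval 0) = 0 → psiQ (Θ θ) C D = X ^ 11 * r := by
    intro θ
    by_cases h : psiQ θ (C.eval 0) (D.eval 0) = 0
    · obtain ⟨r, hr⟩ := hΘd θ h
      exact ⟨r, fun _ => hr⟩
    · exact ⟨0, fun h' => absurd h' h⟩
  choose r hr using hdvd
  have hsroot : ∀ θ ∈ p0.roots.toFinset, psiQ θ (C.eval 0) (D.eval 0) = 0 := fun θ hθ => by
    rw [← hp0e]
    exact (mem_roots (hmon.ne_zero)).mp (Multiset.mem_toFinset.mp hθ)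
  -- bounds on a small disc
  have hbd : ∀ p : ℂ[X], ∃ B : ℝ, 0 ≤ B ∧ ∀ z : ℂ, ‖z‖ ≤ 1 → ‖p.eval z‖ ≤ B := fun p =>
    ⟨∑ i ∈ p.support, ‖p.coeff i‖, Finset.sum_nonneg fun _ _ => norm_nonneg _, fun z hz => by
      rw [eval_eq_sum, Polynomial.sum]
      refine (norm_sum_le _ _).trans (Finset.sum_le_sum fun i _ => ?_)
      rw [norm_mul, norm_pow]
      exact mul_le_of_le_one_right (norm_nonneg _) (pow_le_one₀ (norm_nonneg _) hz)⟩
  obtain ⟨BC, hBC0, hBC⟩ := hbd C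
  obtain ⟨BD, hBD0, hBD⟩ := hbd D
  set By : ℝ := 1 + 6 * BC + 8 * BD + 3 * BC ^ 2 with hBy
  have hBy1 : 1 ≤ By := by rw [hBy]; nlinarith
  -- roots are bounded
  have hybd : ∀ z θ : ℂ, ‖z‖ ≤ 1 → psiQ θ (C.eval z) (D.eval z) = 0 → ‖θ‖ ≤ By := by
    intro z θ hz h0
    rcases le_or_gt ‖θ‖ 1 with h | h
    · exact h.trans hBy1
    have e : θ ^ 4 = 6 * C.eval z * θ ^ 2 + 8 * D.eval z * θ + 3 * C.eval z ^ 2 := by
      simp only [psiQ] at h0; linear_combination h0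
    have h2 := congrArg norm e
    rw [norm_pow] at h2
    have h3 : ‖θ‖ ^ 4 ≤ (6 * BC + 8 * BD + 3 * BC ^ 2) * ‖θ‖ ^ 2 := by
      rw [h2]
      refine (norm_add₃_le).trans ?_
      simp only [norm_mul, norm_pow, RCLike.norm_ofNat]
      have a1 := hBC z hz
      have a2 := hBD z hz
      have t1 : 6 * ‖C.eval z‖ * ‖θ‖ ^ 2 ≤ 6 * BC * ‖θ‖ ^ 2 := by gcongr
      have t2 : 8 * ‖D.eval z‖ * ‖θ‖ ≤ 8 * BD * ‖θ‖ ^ 2 := by
        have : ‖θ‖ ≤ ‖θ‖ ^ 2 := by nlinarith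
        gcongr
      have t3 : 3 * ‖C.eval z‖ ^ 2 ≤ 3 * BC ^ 2 * ‖θ‖ ^ 2 :=
        calc 3 * ‖C.eval z‖ ^ 2 ≤ 3 * BC ^ 2 := by gcongr
          _ ≤ 3 * BC ^ 2 * ‖θ‖ ^ 2 := le_mul_of_one_le_right (by positivity) (by nlinarith)
      linarith
    have h4 : ‖θ‖ ^ 2 ≤ 6 * BC + 8 * BD + 3 * BC ^ 2 :=
      le_of_mul_le_mul_right (by nlinarith) (by positivity : (0 : ℝ) < ‖θ‖ ^ 2)
    rw [hBy]
    nlinarith
  -- close to some branch
  have hnear : ∀ ε > 0, ∃ η > 0, ∀ z θ : ℂ, ‖z‖ ≤ 1 → ‖z‖ < η →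
      psiQ θ (C.eval z) (D.eval z) = 0 → ∃ θ₀ ∈ p0.roots.toFinset, ‖θ - θ₀‖ < ε := by
    intro ε hε
    have hcont : Tendsto (fun z : ℂ => 6 * ‖C.eval z - C.eval 0‖ * By ^ 2 +
        8 * ‖D.eval z - D.eval 0‖ * By + 3 * ‖C.eval z ^ 2 - C.eval 0 ^ 2‖) (𝓝 0) (𝓝 0) := by
      have : Continuous fun z : ℂ => 6 * ‖C.eval z - C.eval 0‖ * By ^ 2 +
          8 * ‖D.eval z - D.eval 0‖ * By + 3 * ‖C.eval z ^ 2 - C.eval 0 ^ 2‖ := by fun_prop
      simpa using this.tendsto 0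
    obtain ⟨η, hη, hlt⟩ := Metric.tendsto_nhds_nhds.mp hcont (ε ^ 4) (by positivity)
    refine ⟨η, hη, fun z θ hz1 hzη h0 => ?_⟩
    by_contra hcon
    push Not at hcon
    have hsplit := (IsAlgClosed.splits p0).eq_prod_roots_of_monic hmon
    have hcard : p0.roots.card = 4 := by
      rw [← hdeg]; exact ((IsAlgClosed.splits p0).natDegree_eq_card_roots).symm
    have hlow : ∀ m : Multiset ℂ, (∀ a ∈ m, ε ≤ ‖θ - a‖) →
        ε ^ m.card ≤ ‖((m.map fun a => X - Polynomial.C a).prod).eval θ‖ := by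
      intro m
      induction m using Multiset.induction_on with
      | empty => simp
      | cons a m ih =>
        intro h
        rw [Multiset.map_cons, Multiset.prod_cons, Multiset.card_cons, eval_mul, norm_mul, pow_succ,
          mul_comm (ε ^ _)]
        simp only [eval_sub, eval_X, eval_C]
        exact mul_le_mul (h a (Multiset.mem_cons_self a m))
          (ih fun b hb => h b (Multiset.mem_cons_of_mem hb)) (by positivity) (norm_nonneg _)
    have h1 := hlow p0.roots fun a ha => hcon a (Multiset.mem_toFinset.mpr ha)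
    rw [← hsplit, hcard, hp0e] at h1
    have hθ := hybd z θ hz1 h0
    have h2 : ‖psiQ θ (C.eval 0) (D.eval 0)‖ ≤ 6 * ‖C.eval z - C.eval 0‖ * By ^ 2 +
        8 * ‖D.eval z - D.eval 0‖ * By + 3 * ‖C.eval z ^ 2 - C.eval 0 ^ 2‖ := by
      have e : psiQ θ (C.eval 0) (D.eval 0) = 6 * (C.eval z - C.eval 0) * θ ^ 2 +
          8 * (D.eval z - D.eval 0) * θ + 3 * (C.eval z ^ 2 - C.eval 0 ^ 2) := by
        simp only [psiQ] at h0 ⊢; linear_combination h0
      rw [e]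
      refine norm_add₃_le.trans ?_
      simp only [norm_mul, norm_pow, RCLike.norm_ofNat]
      gcongr
    have h3 := hlt (x := z) (by rwa [dist_zero_right])
    rw [dist_zero_right, Real.norm_eq_abs] at h3
    linarith [abs_lt.mp h3]
  -- the estimate
  have hthm : ∀ θ₀ ∈ p0.roots.toFinset, ∃ δ > 0, ∃ K : ℝ, 0 ≤ K ∧
      ∀ z θ : ℂ, ‖z‖ ≤ 1 → ‖z‖ < δ → ‖θ - θ₀‖ < δ → psiQ θ (C.eval z) (D.eval z) = 0 →
        ‖θ - (Θ θ₀).eval z‖ ≤ K * ‖z‖ ^ 11 := by
    intro θ₀ hθ₀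
    have h0 := hsroot θ₀ hθ₀
    have hq : psiQ' θ₀ (C.eval 0) (D.eval 0) ≠ 0 :=
      psiQ_simple (by rw [hC0, hD0]; exact hne) h0
    set f : ℂ × ℂ → ℂ := fun x =>
      psiQ' ((Θ θ₀).eval x.1) (C.eval x.1) (D.eval x.1) + (x.2 - (Θ θ₀).eval x.1) *
        (6 * (Θ θ₀).eval x.1 ^ 2 - 6 * C.eval x.1 +
          4 * (Θ θ₀).eval x.1 * (x.2 - (Θ θ₀).eval x.1) + (x.2 - (Θ θ₀).eval x.1) ^ 2) with hf
    have hcont : Continuous f := by
      simp only [hf, psiQ']; fun_prop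
    set a := ‖psiQ' θ₀ (C.eval 0) (D.eval 0)‖ with ha
    have hapos : 0 < a := norm_pos_iff.mpr hq
    have hf0 : f (0, θ₀) = psiQ' θ₀ (C.eval 0) (D.eval 0) := by simp [hf, hΘ0 θ₀ h0]
    obtain ⟨δ, hδ, hδf⟩ := Metric.tendsto_nhds_nhds.mp (hcont.tendsto (0, θ₀)) (a / 2)
      (by linarith)
    obtain ⟨Br, hBr0, hBr⟩ := hbd (r θ₀)
    refine ⟨δ, hδ, 2 * Br / a, by positivity, fun z θ hz1 hzδ hθδ hθ => ?_⟩
    have h2 := hδf (x := (z, θ)) (by
      rw [Prod.dist_eq, dist_zero_right, dist_eq_norm]; exact max_lt hzδ hθδ)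
    rw [hf0, dist_eq_norm] at h2
    have h3 : a / 2 ≤ ‖f (z, θ)‖ := by
      have := norm_sub_norm_le (psiQ' θ₀ (C.eval 0) (D.eval 0)) (f (z, θ))
      rw [norm_sub_rev] at this
      linarith
    have h4 : (θ - (Θ θ₀).eval z) * f (z, θ) = -(z ^ 11 * (r θ₀).eval z) := by
      have e := congrArg (Polynomial.evalRingHom z) (hr θ₀ h0)
      rw [map_psiQ, map_mul, map_pow] at e
      simp only [coe_evalRingHom, eval_X] at e
      have t := psiQ_taylor ((Θ θ₀).eval z) (θ - (Θ θ₀).eval z) (C.eval z) (D.eval z)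
      rw [add_sub_cancel, hθ, e] at t
      simp only [hf]
      linear_combination -t
    have h5 := congrArg norm h4
    rw [norm_mul, norm_neg, norm_mul, norm_pow] at h5
    have h6 : ‖θ - (Θ θ₀).eval z‖ * (a / 2) ≤ Br * ‖z‖ ^ 11 :=
      calc ‖θ - (Θ θ₀).eval z‖ * (a / 2) ≤ ‖θ - (Θ θ₀).eval z‖ * ‖f (z, θ)‖ := by gcongr
        _ = ‖z‖ ^ 11 * ‖(r θ₀).eval z‖ := h5
        _ ≤ Br * ‖z‖ ^ 11 := by rw [mul_comm Br]; gcongr; exact hBr z hz1
    rw [show 2 * Br / a * ‖z‖ ^ 11 = (Br * ‖z‖ ^ 11) / (a / 2) by field_simp,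
      le_div_iff₀ (by linarith)]
    exact h6
  choose! δ hδ K hK0 hK using hthm
  obtain ⟨ε, hε, hεle⟩ : ∃ ε > 0, ∀ θ ∈ p0.roots.toFinset, ε ≤ δ θ := by
    refine Finset.induction_on p0.roots.toFinset (motive := fun s => (∀ θ ∈ s, 0 < δ θ) →
      ∃ ε > 0, ∀ θ ∈ s, ε ≤ δ θ) (fun _ => ⟨1, one_pos, by simp⟩) (fun a s _ ih h => ?_) hδ
    obtain ⟨e, he, he'⟩ := ih fun θ hθ => h θ (Finset.mem_insert_of_mem hθ)
    refine ⟨min e (δ a), lt_min he (h a (Finset.mem_insert_self a s)), fun θ hθ => ?_⟩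
    rcases Finset.mem_insert.mp hθ with rfl | hθ
    · exact min_le_right _ _
    · exact (min_le_left _ _).trans (he' θ hθ)
  obtain ⟨η, hη, hηn⟩ := hnear ε hε
  obtain ⟨N, hN⟩ := exists_nat_one_div_lt (lt_min hη hε)
  refine ⟨p0.roots.toFinset, fun θ => revPoly (Θ θ), ∑ θ ∈ p0.roots.toFinset, K θ, N + 1,
    (Multiset.toFinset_card_le _).trans ((card_roots' p0).trans hdeg.le),
    fun θ => revPoly_natDegree _, fun t ht y hy => ?_⟩
  have ht0 : (0 : ℝ) < t := by exact_mod_cast (by omega : 0 < t)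
  have htc : (t : ℂ) ≠ 0 := Nat.cast_ne_zero.mpr (by omega)
  set z : ℂ := (t : ℂ)⁻¹ with hz
  have hzn : ‖z‖ = 1 / t := by rw [hz, norm_inv, Complex.norm_natCast, one_div]
  have hz1 : ‖z‖ ≤ 1 := by
    rw [hzn, div_le_one ht0]; exact_mod_cast (by omega : 1 ≤ t)
  have hzlt : ‖z‖ < min η ε := by
    refine lt_of_le_of_lt ?_ hN
    rw [hzn]
    gcongr
    exact_mod_cast ht
  have hθ : psiQ (y / (t : ℂ) ^ 10) (C.eval z) (D.eval z) = 0 := by
    have e1 := eval_reflect_eq c 20 hc htc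
    have e2 := eval_reflect_eq d 30 hd htc
    simp only [psiQ, ← hC, ← hD, ← hz] at e1 e2 hy ⊢
    rw [← e1, ← e2] at hy
    field_simp
    linear_combination hy
  obtain ⟨θ₀, hθ₀, hclose⟩ := hηn z _ hz1 (hzlt.trans_le (min_le_left _ _)) hθ
  have hb := hK θ₀ hθ₀ z _ hz1 ((hzlt.trans_le (min_le_right _ _)).trans_le (hεle θ₀ hθ₀))
    (hclose.trans_le (hεle θ₀ hθ₀)) hθ
  refine ⟨θ₀, hθ₀, ?_⟩
  simp only
  rw [revPoly_eval _ (hΘn θ₀ (hsroot θ₀ hθ₀)) htc, ← hz,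
    show y - (t : ℂ) ^ 10 * (Θ θ₀).eval z =
      (t : ℂ) ^ 10 * (y / (t : ℂ) ^ 10 - (Θ θ₀).eval z) by field_simp, norm_mul, norm_pow,
    Complex.norm_natCast]
  refine (mul_le_mul_of_nonneg_left hb (by positivity)).trans ?_
  rw [hzn, show (t : ℝ) ^ 10 * (K θ₀ * (1 / t) ^ 11) = K θ₀ / t by field_simp]
  gcongr
  exact Finset.single_le_sum hK0 hθ₀

/-- If the quartic has an integral root at every large natural parameter, it has a polynomial
root. -/
theorem exists_poly_root (c d : ℚ[X]) (hc : c.natDegree ≤ 20) (hd : d.natDegree ≤ 30)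
    (hne : c.coeff 20 ^ 3 ≠ d.coeff 30 ^ 2) (N₀ : ℕ)
    (hroot : ∀ t : ℕ, N₀ ≤ t → ∃ y : ℤ, psiQ (y : ℚ) (c.eval (t : ℚ)) (d.eval (t : ℚ)) = 0) :
    ∃ P : ℚ[X], P.natDegree ≤ 10 ∧ psiQ P c d = 0 := by
  classical
  set φ := algebraMap ℚ ℂ
  obtain ⟨s, P, K, N, hs, hPdeg, hclose⟩ := exists_close (c.map φ) (d.map φ)
    (by rwa [natDegree_map]) (by rwa [natDegree_map])
    (by rw [coeff_map, coeff_map, ← map_pow, ← map_pow]; exact fun e => hne (φ.injective e))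
  have hev : ∀ (p : ℚ[X]) (t : ℕ), (p.map φ).eval (t : ℂ) = φ (p.eval (t : ℚ)) := fun p t => by
    rw [eval_map, ← map_natCast φ t, eval₂_at_apply]
  choose! y hy using hroot
  have hchoice : ∀ t, ∃ θ, max N N₀ ≤ t → θ ∈ s ∧ ‖(y t : ℂ) - (P θ).eval (t : ℂ)‖ ≤ K / t := by
    intro t
    by_cases ht : max N N₀ ≤ t
    · have h0 : psiQ ((y t : ℂ)) ((c.map φ).eval (t : ℂ)) ((d.map φ).eval (t : ℂ)) = 0 := by
        rw [hev, hev, ← map_intCast φ (y t), ← map_psiQ, hy t (le_of_max_le_right ht), map_zero]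
      obtain ⟨θ, hθ, hle⟩ := hclose t (le_of_max_le_left ht) _ h0
      exact ⟨θ, fun _ => ⟨hθ, hle⟩⟩
    · exact ⟨0, fun h => absurd h ht⟩
  choose ι hι using hchoice
  -- pigeonhole: one branch on a fixed pattern of eleven nodes
  have hwin : ∀ k : ℕ, ∃ (θ : s) (D : Finset (Fin 41)), 11 ≤ D.card ∧
      ∀ e ∈ D, ι (k + max N N₀ + e.val) = θ := by
    intro k
    obtain ⟨θ, hθ, hcard⟩ := Finset.exists_lt_card_fiber_of_mul_lt_card_of_maps_to
      (s := (Finset.univ : Finset (Fin 41))) (t := s) (f := fun e => ι (k + max N N₀ + e.val))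
      (n := 10) (fun e _ => (hι _ (by omega)).1)
      (by rw [Finset.card_univ, Fintype.card_fin]; omega)
    exact ⟨⟨θ, hθ⟩, _, hcard, fun e he => (Finset.mem_filter.mp he).2⟩
  choose th Dk hcard hfib using hwin
  obtain ⟨⟨θ, D⟩, hinf⟩ := Finite.exists_infinite_fiber fun k => (th k, Dk k)
  have hinf' : ∀ n, ∃ k, n ≤ k ∧ th k = θ ∧ Dk k = D := by
    intro n
    obtain ⟨k, hk, hkn⟩ := (Set.infinite_coe_iff.mp hinf).exists_gt n
    simp only [Set.mem_preimage, Set.mem_singleton_iff, Prod.mk.injEq] at hk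
    exact ⟨k, hkn.le, hk.1, hk.2⟩
  choose k hkn hkth hkD using hinf'
  set n : ℕ → ℕ := fun i => k i + max N N₀ with hn
  have hDcard : 11 ≤ D.card := by rw [← hkD 0]; exact hcard _
  set D' : Finset ℕ := D.map Fin.valEmbedding
  have hlim : ∀ e ∈ D', Tendsto
      (fun i => ((1 : ℕ) : ℂ) * (P θ).eval ((n i + e : ℕ) : ℂ) - y (n i + e)) atTop (𝓝 0) := by
    intro e he
    obtain ⟨e', he', rfl⟩ := Finset.mem_map.mp he
    simp only [Nat.cast_one, one_mul, Fin.valEmbedding_apply]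
    refine squeeze_zero_norm' (a := fun i : ℕ => |K| / i) ?_ (tendsto_const_div_atTop_nhds_zero_nat |K|)
    refine Filter.eventually_atTop.mpr ⟨1, fun i hi => ?_⟩
    have h1 := (hι (n i + e'.val) (by simp only [hn]; omega)).2
    have h2 : ι (n i + e'.val) = θ := by
      rw [hfib (k i) e' (by rw [hkD i]; exact he'), hkth i]
    rw [h2, norm_sub_rev] at h1
    refine h1.trans ?_
    have hle : i ≤ n i + e'.val := by have := hkn i; simp only [hn]; omega
    have hi0 : (0 : ℝ) < i := by exact_mod_cast hi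
    calc K / ((n i + e'.val : ℕ) : ℝ) ≤ |K| / ((n i + e'.val : ℕ) : ℝ) := by
          gcongr; exact le_abs_self K
      _ ≤ |K| / i := by gcongr
  have hd11 : (P (θ : ℂ)).degree < (11 : ℕ) :=
    lt_of_le_of_lt degree_le_natDegree
      (Nat.cast_lt.mpr (lt_of_le_of_lt (hPdeg θ) (by norm_num)))
  obtain ⟨L, Q, hL, hQ⟩ := exists_int_model 11 (P θ) hd11 D'
    (by rw [Finset.card_map]; exact hDcard) n 1 one_pos (fun i e => y (n i + e)) hlim
  obtain ⟨e₀, he₀⟩ : D'.Nonempty := Finset.card_pos.mp (by rw [Finset.card_map]; omega)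
  have hLC : (L : ℂ) ≠ 0 := Nat.cast_ne_zero.mpr hL.ne'
  -- the branch is an exact root infinitely often
  have hexact : ∀ᶠ i in atTop,
      (P (θ : ℂ)).eval ((n i + e₀ : ℕ) : ℂ) = (y (n i + e₀) : ℂ) := by
    have h1 := (hlim e₀ he₀).const_mul (L : ℂ)
    rw [mul_zero] at h1
    obtain ⟨M, hM⟩ := Metric.tendsto_atTop.mp h1 1 one_pos
    refine Filter.eventually_atTop.mpr ⟨M, fun i hi => ?_⟩
    have h2 := hM i hi
    set t : ℕ := n i + e₀
    have hQe : ((Q.eval (t : ℤ) : ℤ) : ℂ) = (L : ℂ) * (P (θ : ℂ)).eval (t : ℂ) := by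
      have e := congrArg (Polynomial.eval (t : ℂ)) hQ
      rw [eval_mul, eval_C, eval_map, show (t : ℂ) = Int.castRingHom ℂ (t : ℤ) by simp,
        eval₂_at_apply] at e
      simpa using e
    rw [Nat.cast_one, one_mul, dist_zero_right, mul_sub, ← hQe, ← Int.cast_natCast L,
      ← Int.cast_mul, ← Int.cast_sub, Complex.norm_intCast] at h2
    have h3 : |Q.eval (t : ℤ) - (L : ℤ) * y t| < 1 := by exact_mod_cast h2
    have h4 : Q.eval (t : ℤ) = (L : ℤ) * y t := sub_eq_zero.mp (Int.abs_lt_one_iff.mp h3)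
    refine mul_left_cancel₀ hLC ?_
    rw [← hQe, h4]
    push_cast
    ring
  set PQ : ℚ[X] := Polynomial.C (1 / (L : ℚ)) * Q.map (Int.castRingHom ℚ) with hPQ
  have hPQmap : PQ.map φ = P (θ : ℂ) := by
    rw [hPQ, Polynomial.map_mul, Polynomial.map_map, Polynomial.map_C, show φ.comp (Int.castRingHom ℚ) = Int.castRingHom ℂ
      from RingHom.ext_int _ _, hQ, ← mul_assoc, ← map_mul, map_div₀, map_one, map_natCast,
      one_div_mul_cancel hLC, map_one, one_mul]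
  refine ⟨PQ, by rw [← natDegree_map (p := PQ) φ, hPQmap]; exact hPdeg θ, ?_⟩
  apply Polynomial.map_injective φ φ.injective
  rw [← coe_mapRingHom, map_psiQ, coe_mapRingHom, hPQmap, Polynomial.map_zero]
  refine Polynomial.eq_zero_of_infinite_isRoot _ ?_
  obtain ⟨M, hM⟩ := Filter.eventually_atTop.mp hexact
  have hinfT : ((fun i => n i + e₀) '' Set.Ici M).Infinite := by
    refine Set.infinite_of_not_bddAbove ?_
    rintro ⟨B, hB⟩
    have h1 : n (max M (B + 1)) + e₀ ≤ B := hB ⟨max M (B + 1), le_max_left M (B + 1), rfl⟩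
    have h2 := hkn (max M (B + 1))
    simp only [hn] at h1
    omega
  refine (hinfT.image (f := (Nat.cast : ℕ → ℂ)) Nat.cast_injective.injOn).mono ?_
  rintro _ ⟨t, ⟨i, hi, rfl⟩, rfl⟩
  rw [Set.mem_setOf_eq, IsRoot, ← coe_evalRingHom, map_psiQ, coe_evalRingHom, hM i hi, hev, hev,
    ← map_intCast φ, ← map_psiQ, hy _ (by simp only [hn]; omega), map_zero]

end

end FA.Switch
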