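/-
The `3`-division quartic of a line in the level `5` parameter plane has no polynomial root.
-/
import Fermat.Agent.Switch.Descent
import Fermat.Agent.Switch.Hilbert
import Mathlib.Algebra.Polynomial.FieldDivision

set_option autoImplicit false
set_option linter.unusedSectionVars false

open Polynomial

namespace FA.Switch

noncomputable section

local notation "Qb" => AlgebraicClosure ℚ

/-- Degree at most `n` with coefficient `a` in degree `n`. -/
def TopCoeff {R : Type*} [CommRing R] (n : ℕ) (p : R[X]) (a : R) : Prop :=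
  p.natDegree ≤ n ∧ p.coeff n = a

namespace TopCoeff

variable {R : Type*} [CommRing R] {m n : ℕ} {p q : R[X]} {a b : R}

lemma add (hp : TopCoeff n p a) (hq : TopCoeff n q b) : TopCoeff n (p + q) (a + b) :=
  ⟨(natDegree_add_le _ _).trans (max_le hp.1 hq.1), by rw [coeff_add, hp.2, hq.2]⟩

lemma neg (hp : TopCoeff n p a) : TopCoeff n (-p) (-a) :=
  ⟨by rw [natDegree_neg]; exact hp.1, by rw [coeff_neg, hp.2]⟩

lemma sub (hp : TopCoeff n p a) (hq : TopCoeff n q b) : TopCoeff n (p - q) (a - b) := by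
  rw [sub_eq_add_neg, sub_eq_add_neg]; exact hp.add hq.neg

lemma mul (hp : TopCoeff m p a) (hq : TopCoeff n q b) : TopCoeff (m + n) (p * q) (a * b) :=
  ⟨natDegree_mul_le.trans (Nat.add_le_add hp.1 hq.1),
    by rw [coeff_mul_add_eq_of_natDegree_le hp.1 hq.1, hp.2, hq.2]⟩

lemma pow (hp : TopCoeff m p a) (k : ℕ) : TopCoeff (k * m) (p ^ k) (a ^ k) := by
  induction k with
  | zero => rw [Nat.zero_mul, pow_zero, pow_zero]; exact ⟨natDegree_one.le, coeff_one_zero⟩
  | succ k ih => rw [pow_succ, pow_succ, Nat.succ_mul]; exact ih.mul hp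

lemma num (k : ℕ) [k.AtLeastTwo] :
    TopCoeff 0 (OfNat.ofNat k : R[X]) (OfNat.ofNat k : R) :=
  ⟨(natDegree_ofNat k).le, coeff_ofNat_zero k⟩

lemma lineP (v v' : Fin 2 → Qb) (i : Fin 2) : TopCoeff 1 (FA.Switch.lineP v v' i) (v' i) := by
  refine ⟨?_, ?_⟩
  · refine (natDegree_add_le _ _).trans (max_le (by simp) ?_)
    exact (natDegree_mul_C_le _ _).trans natDegree_X_le
  · simp [FA.Switch.lineP]

lemma klC4 {u v : R[X]} {x y : R} (hu : TopCoeff 1 u x) (hv : TopCoeff 1 v y) :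
    TopCoeff 20 (FA.Switch.klC4 u v) (FA.Switch.klC4 x y) := by
  have hU := hu.pow 5
  have hV := hv.pow 5
  exact (((((hU.pow 4).add (((num 228).mul (hU.pow 3)).mul hV))).add
    (((num 494).mul (hU.pow 2)).mul (hV.pow 2))).sub
    (((num 228).mul hU).mul (hV.pow 3))).add (hV.pow 4)

lemma klC6 {u v : R[X]} {x y : R} (hu : TopCoeff 1 u x) (hv : TopCoeff 1 v y) :
    TopCoeff 30 (FA.Switch.klC6 u v) (FA.Switch.klC6 x y) := by
  have hU := hu.pow 5
  have hV := hv.pow 5
  exact (((((hU.pow 6).neg.add (((num 522).mul (hU.pow 5)).mul hV)).add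
    (((num 10005).mul (hU.pow 4)).mul (hV.pow 2))).add
    (((num 10005).mul (hU.pow 2)).mul (hV.pow 4))).sub
    (((num 522).mul hU).mul (hV.pow 5))).sub (hV.pow 6)

lemma klF {u v : R[X]} {x y : R} (hu : TopCoeff 1 u x) (hv : TopCoeff 1 v y) :
    TopCoeff 12 (FA.Switch.klF u v) (FA.Switch.klF x y) := by
  exact (hu.mul hv).mul
    ((((hu.pow 5).pow 2).sub (((num 11).mul (hu.pow 5)).mul (hv.pow 5))).sub ((hv.pow 5).pow 2))

end TopCoeff

variable {v v' : Fin 2 → Qb}

lemma line_ne_zero (hind : v' 0 * v 1 - v' 1 * v 0 ≠ 0) (s : Qb) :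
    ¬ (v 0 + s * v' 0 = 0 ∧ v 1 + s * v' 1 = 0) := fun ⟨h0, h1⟩ =>
  hind (by linear_combination v' 0 * h1 - v' 1 * h0)

lemma derivative_klF_ne {u w : Qb} (hf : klF u w = 0)
    (h1 : 11 * u ^ 10 * w - 66 * u ^ 5 * w ^ 6 - w ^ 11 = 0)
    (h2 : u ^ 11 - 66 * u ^ 6 * w ^ 5 - 11 * u * w ^ 10 = 0) : u = 0 ∧ w = 0 := by
  by_cases hw : w = 0
  · subst hw
    exact ⟨eq_zero_of_pow_eq_zero (n := 11) (by linear_combination h2), rfl⟩
  by_cases hu : u = 0
  · subst hu
    exact ⟨rfl, eq_zero_of_pow_eq_zero (n := 11) (by linear_combination -h1)⟩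
  exfalso
  have hQ : (u ^ 5) ^ 2 - 11 * u ^ 5 * w ^ 5 - (w ^ 5) ^ 2 = 0 := by
    simpa [klF, hu, hw] using hf
  have hA : 11 * (u ^ 5) ^ 2 - 66 * u ^ 5 * w ^ 5 - (w ^ 5) ^ 2 = 0 :=
    (mul_eq_zero.mp (show w * _ = 0 by linear_combination h1)).resolve_left hw
  have hL : 11 * u ^ 5 + 2 * w ^ 5 = 0 :=
    (mul_eq_zero.mp (show (5 * w ^ 5) * _ = 0 by linear_combination hA - 11 * hQ)).resolve_left
      (mul_ne_zero (by norm_num) (pow_ne_zero 5 hw))
  have : (125 : Qb) * (w ^ 5) ^ 2 = 0 := by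
    linear_combination 121 * hQ - (11 * u ^ 5 - 123 * w ^ 5) * hL
  exact mul_ne_zero (by norm_num) (pow_ne_zero 2 (pow_ne_zero 5 hw)) this

lemma roots_klF_lineP (hind : v' 0 * v 1 - v' 1 * v 0 ≠ 0) (hf : klF (v' 0) (v' 1) ≠ 0) :
    (klF (lineP v v' 0) (lineP v v' 1)).roots.Nodup ∧
      (klF (lineP v v' 0) (lineP v v' 1)).roots.card = 12 := by
  have ht := TopCoeff.klF (TopCoeff.lineP v v' 0) (TopCoeff.lineP v v' 1)
  set F := klF (lineP v v' 0) (lineP v v' 1) with hF
  have hdeg : F.natDegree = 12 := natDegree_eq_of_le_of_coeff_ne_zero ht.1 (by rw [ht.2]; exact hf)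
  have hF0 : F ≠ 0 := fun h => by rw [h] at hdeg; simp at hdeg
  refine ⟨Multiset.nodup_iff_count_le_one.mpr fun r => ?_, ?_⟩
  · rw [count_roots]
    by_contra hlt
    obtain ⟨hr, hr'⟩ := (one_lt_rootMultiplicity_iff_isRoot hF0).mp (not_le.mp hlt)
    rw [IsRoot, hF, eval_klF_lineP] at hr
    set u := v 0 + r * v' 0
    set w := v 1 + r * v' 1
    set fu := 11 * u ^ 10 * w - 66 * u ^ 5 * w ^ 6 - w ^ 11 with hfu
    set fw := u ^ 11 - 66 * u ^ 6 * w ^ 5 - 11 * u * w ^ 10 with hfw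
    have e1 : fu * v' 0 + fw * v' 1 = 0 := by
      rw [IsRoot, hF] at hr'
      simp [klF, lineP, derivative_mul, derivative_pow] at hr'
      linear_combination hr'
    have e2 : fu * u + fw * w = 0 := by
      simp only [klF] at hr
      linear_combination 12 * hr
    have hdet : v' 0 * w - v' 1 * u ≠ 0 := by
      intro h; exact hind (by linear_combination h)
    have hu0 : fu = 0 :=
      (mul_eq_zero.mp (show (v' 0 * w - v' 1 * u) * fu = 0 by
        linear_combination w * e1 - v' 1 * e2)).resolve_left hdet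
    have hw0 : fw = 0 :=
      (mul_eq_zero.mp (show (v' 0 * w - v' 1 * u) * fw = 0 by
        linear_combination v' 0 * e2 - u * e1)).resolve_left hdet
    exact line_ne_zero hind r (derivative_klF_ne hr hu0 hw0)
  · rw [← hdeg, (IsAlgClosed.splits F).natDegree_eq_card_roots]

/-- The quartic attached to the line has no polynomial root. -/
theorem no_poly_root (hind : v' 0 * v 1 - v' 1 * v 0 ≠ 0) (hf : klF (v' 0) (v' 1) ≠ 0)
    (P : Qb[X]) (hP : P.natDegree ≤ 10) :
    psiQ P (klC4 (lineP v v' 0) (lineP v v' 1)) (klC6 (lineP v v' 0) (lineP v v' 1)) ≠ 0 := by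
  intro h
  have hcdeg := (TopCoeff.klC4 (TopCoeff.lineP v v' 0) (TopCoeff.lineP v v' 1)).1
  obtain ⟨hnd, hcard⟩ := roots_klF_lineP hind hf
  set F := klF (lineP v v' 0) (lineP v v' 1) with hF
  set c := klC4 (lineP v v' 0) (lineP v v' 1) with hc
  set d := klC6 (lineP v v' 0) (lineP v v' 1) with hd
  have hsyz : c ^ 3 - d ^ 2 = 1728 * F ^ 5 := klein_syzygy _ _
  simp only [psiQ] at h
  have hid : (P ^ 2 - c) ^ 3 * (P ^ 2 - 9 * c) = C (-110592 : Qb) * (P ^ 2 * F ^ 5) := by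
    rw [map_neg, show C (110592 : Qb) = (110592 : Qb[X]) from map_ofNat C 110592]
    linear_combination -64 * P ^ 2 * hsyz + (P ^ 4 - 6 * c * P ^ 2 - 3 * c ^ 2 + 8 * d * P) * h
  have hroot : ∀ r ∈ F.roots, P.eval r ≠ 0 ∧ c.eval r ≠ 0 := by
    intro r hr
    have hr' : F.eval r = 0 := (mem_roots'.mp hr).2
    rw [hF, eval_klF_lineP] at hr'
    have hc0 : c.eval r ≠ 0 := fun h0 => by
      rw [hc, eval_klC4_lineP] at h0
      exact line_ne_zero hind r (eq_zero_of_common h0 hr')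
    refine ⟨fun hP0 => hc0 ?_, hc0⟩
    have := congrArg (eval r) h
    simp [hP0] at this
    exact this
  obtain ⟨r₀, hr₀⟩ : ∃ r, r ∈ F.roots := Multiset.card_pos_iff_exists_mem.mp (by omega)
  have hP0 : P ≠ 0 := fun h0 => (hroot r₀ hr₀).1 (by rw [h0, eval_zero])
  have hF0 : F ≠ 0 := (mem_roots'.mp hr₀).1
  have hrhs : C (-110592 : Qb) * (P ^ 2 * F ^ 5) ≠ 0 :=
    mul_ne_zero (C_ne_zero.mpr (by norm_num)) (mul_ne_zero (pow_ne_zero 2 hP0) (pow_ne_zero 5 hF0))
  have hlhs : (P ^ 2 - c) ^ 3 * (P ^ 2 - 9 * c) ≠ 0 := hid ▸ hrhs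
  have hG0 : P ^ 2 - 9 * c ≠ 0 := right_ne_zero_of_mul hlhs
  have hroots := congrArg Polynomial.roots hid
  rw [roots_mul hlhs, roots_C_mul _ (by norm_num),
    roots_mul (mul_ne_zero (pow_ne_zero 2 hP0) (pow_ne_zero 5 hF0)), roots_pow, roots_pow,
    roots_pow] at hroots
  have hle : 5 • F.roots ≤ (P ^ 2 - 9 * c).roots := by
    rw [Multiset.le_iff_count]
    intro r
    by_cases hr : r ∈ F.roots
    · obtain ⟨hPr, hcr⟩ := hroot r hr
      have hc := congrArg (Multiset.count r) hroots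
      simp only [Multiset.count_add, Multiset.count_nsmul] at hc ⊢
      have hFc : F.roots.count r = 1 := Multiset.count_eq_one_of_mem hnd hr
      have hPc : P.roots.count r = 0 := Multiset.count_eq_zero.mpr fun hm => hPr (mem_roots'.mp hm).2
      rw [hFc, hPc] at hc
      by_cases hH : r ∈ (P ^ 2 - c).roots
      · have hG : (P ^ 2 - 9 * c).roots.count r = 0 := Multiset.count_eq_zero.mpr fun hm => hcr (by
          have e1 := (mem_roots'.mp hH).2
          have e2 := (mem_roots'.mp hm).2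
          simp [IsRoot] at e1 e2
          linear_combination (e1 - e2) / 8)
        rw [hG] at hc
        omega
      · rw [Multiset.count_eq_zero.mpr hH] at hc
        omega
    · simp [Multiset.count_nsmul, Multiset.count_eq_zero.mpr hr]
  have h1 := Multiset.card_le_card hle
  rw [Multiset.card_nsmul, hcard] at h1
  have h2 := card_roots' (P ^ 2 - 9 * c)
  have h3 : (P ^ 2 - 9 * c).natDegree ≤ 20 := by
    refine (natDegree_sub_le _ _).trans (max_le ?_ ?_)
    · exact natDegree_pow_le.trans (by omega)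
    · refine natDegree_mul_le.trans ?_
      rw [natDegree_ofNat]
      omega
  omega

end

end FA.Switch
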