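/-
The semistable curve with the same mod `5` representation and irreducible mod `3` representation.
-/
import Fermat.Agent.Switch.Family
import Fermat.Prelude.Def_FLTPrelim_ModularRep

set_option autoImplicit false
set_option linter.unusedSectionVars false

open Polynomial WeierstrassCurve

namespace FA.Switch

noncomputable section

local notation "Qb" => AlgebraicClosure ℚ

lemma exists_clear (q : ℚ[X]) :
    ∃ (L : ℕ) (Q : ℤ[X]), 0 < L ∧ Q.map (Int.castRingHom ℚ) = C (L : ℚ) * q := by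
  induction q using Polynomial.induction_on' with
  | add p q hp hq =>
    obtain ⟨L₁, Q₁, h₁, e₁⟩ := hp
    obtain ⟨L₂, Q₂, h₂, e₂⟩ := hq
    refine ⟨L₁ * L₂, C (L₂ : ℤ) * Q₁ + C (L₁ : ℤ) * Q₂, Nat.mul_pos h₁ h₂, ?_⟩
    simp [e₁, e₂]
    ring
  | monomial n a =>
    refine ⟨a.den, monomial n a.num, a.den_pos, ?_⟩
    rw [Polynomial.map_monomial, C_mul_monomial, eq_intCast, Rat.den_mul_eq_num]

lemma eval_clear {L : ℕ} {Q : ℤ[X]} {q : ℚ[X]} (h : Q.map (Int.castRingHom ℚ) = C (L : ℚ) * q)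
    (t : ℤ) : ((Q.eval t : ℤ) : ℚ) = (L : ℚ) * q.eval (t : ℚ) := by
  have e := congrArg (Polynomial.eval (t : ℚ)) h
  rw [eval_map, ← eq_intCast (Int.castRingHom ℚ) t, eval₂_at_apply, eval_mul, eval_C] at e
  simpa using e

lemma c₄_ne_zero (W : WeierstrassCurve ℤ) (hW : W.IsSemistableModel) :
    W.c₄ ≠ 0 := by
  intro h
  have hu : W.Δ.natAbs = 1 := by
    by_contra hne
    obtain ⟨p, hp, hdvd⟩ := Nat.exists_prime_and_dvd hne
    exact hW p hp (Int.natCast_dvd.mpr hdvd) (h ▸ dvd_zero _)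
  have hrel := W.c_relation
  rw [h] at hrel
  rcases Int.natAbs_eq W.Δ with e | e <;> rw [e, hu] at hrel <;> push_cast at hrel
  · nlinarith [sq_nonneg W.c₆]
  · rcases le_or_gt W.c₆.natAbs 41 with h41 | h41
    · have : W.c₆.natAbs * W.c₆.natAbs ≤ 41 * 41 := Nat.mul_le_mul h41 h41
      have h2 : ((W.c₆.natAbs * W.c₆.natAbs : ℕ) : ℤ) = W.c₆ ^ 2 := by
        rw [Nat.cast_mul, Int.natAbs_mul_self' W.c₆]; ring
      omega
    · have : 42 * 42 ≤ W.c₆.natAbs * W.c₆.natAbs := Nat.mul_le_mul h41 h41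
      have h2 : ((W.c₆.natAbs * W.c₆.natAbs : ℕ) : ℤ) = W.c₆ ^ 2 := by
        rw [Nat.cast_mul, Int.natAbs_mul_self' W.c₆]; ring
      omega

lemma c₆_ne_zero (W : WeierstrassCurve ℤ) (hW : W.IsSemistableModel) : W.c₆ ≠ 0 := by
  intro h
  have hrel := W.c_relation
  rw [h] at hrel
  have hu : W.Δ.natAbs = 1 := by
    by_contra hne
    obtain ⟨p, hp, hdvd⟩ := Nat.exists_prime_and_dvd hne
    have hd : (p : ℤ) ∣ W.Δ := Int.natCast_dvd.mpr hdvd
    refine hW p hp hd ((Nat.prime_iff_prime_int.mp hp).dvd_of_dvd_pow (n := 3) ?_)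
    have : W.c₄ ^ 3 = 1728 * W.Δ := by linear_combination -hrel
    rw [this]; exact dvd_mul_of_dvd_right hd _
  have h12 : W.c₄ = 12 ∨ W.c₄ = -12 := by
    have hcube : W.c₄.natAbs ^ 3 = 12 ^ 3 := by
      rw [← Int.natAbs_pow, show W.c₄ ^ 3 = 1728 * W.Δ by linear_combination -hrel, Int.natAbs_mul,
        hu]
      rfl
    have := Nat.pow_left_injective three_ne_zero hcube
    omega
  have hb : ∀ a₁ a₂ b₄ : ZMod 8,
      (a₁ ^ 2 + 4 * a₂) ^ 2 - 24 * b₄ ≠ 12 ∧ (a₁ ^ 2 + 4 * a₂) ^ 2 - 24 * b₄ ≠ -12 := by decide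
  have e : ((W.c₄ : ℤ) : ZMod 8) =
      ((W.a₁ : ZMod 8) ^ 2 + 4 * (W.a₂ : ZMod 8)) ^ 2 - 24 * (W.b₄ : ZMod 8) := by
    simp [WeierstrassCurve.c₄, WeierstrassCurve.b₂]
  rcases h12 with h12 | h12 <;> rw [h12] at e <;> push_cast at e
  · exact (hb _ _ _).1 e.symm
  · exact (hb _ _ _).2 e.symm

/-- The short model as a model. -/
lemma isIntegralModelOf_shortKl (W : WeierstrassCurve ℤ) :
    W.IsIntegralModelOf (shortKl (W.c₄ : ℚ) (W.c₆ : ℚ)) := by
  refine ⟨⟨Units.mk0 (6 : ℚ) (by norm_num), 3 * (W.b₂ : ℚ), 3 * (W.a₁ : ℚ), 108 * (W.a₃ : ℚ)⟩, ?_⟩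
  ext <;>
    simp [shortKl, WeierstrassCurve.c₄, WeierstrassCurve.c₆, WeierstrassCurve.b₂,
      WeierstrassCurve.b₄, WeierstrassCurve.b₆, variableChange_a₁, variableChange_a₂,
      variableChange_a₃, variableChange_a₄, variableChange_a₆] <;> ring

/-- Reducibility mod `3` gives an integral root of the quartic. -/
lemma exists_root_of_reducible (W : WeierstrassCurve ℤ) (hΔ : W.Δ ≠ 0)
    (h : ¬ W.ModRepIsIrreducible 3) :
    ∃ y : ℤ, psiQ (y : ℚ) (W.c₄ : ℚ) (W.c₆ : ℚ) = 0 := by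
  have := FA.Frob.ratCurve_isElliptic_of_Δ hΔ
  obtain ⟨x, hx⟩ := FA.EC.exists_root_Ψ₃ (E := W.map (Int.castRingHom ℚ)) h
  set E := W.map (Int.castRingHom ℚ) with hE
  have hc4 : E.c₄ = (W.c₄ : ℚ) := by rw [hE, map_c₄]; rfl
  have hc6 : E.c₆ = (W.c₆ : ℚ) := by rw [hE, map_c₆]; rfl
  have e : psiQ (12 * x + E.b₂) E.c₄ E.c₆ = 6912 * E.Ψ₃.eval x := by
    simp only [psiQ, WeierstrassCurve.Ψ₃, WeierstrassCurve.c₄, WeierstrassCurve.c₆, eval_add,
      eval_mul, eval_ofNat, eval_pow, eval_X, eval_C]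
    linear_combination -1728 * E.b_relation
  rw [hx, mul_zero, hc4, hc6] at e
  have hint : IsIntegral ℤ (12 * x + E.b₂) := by
    refine ⟨X ^ 4 - C (6 * W.c₄) * X ^ 2 - C (8 * W.c₆) * X - C (3 * W.c₄ ^ 2), by monicity!, ?_⟩
    simp only [eval₂_sub, eval₂_mul, eval₂_pow, eval₂_X, eval₂_C, algebraMap_int_eq, Int.coe_castRingHom]
    push_cast
    simp only [psiQ] at e
    linear_combination e
  obtain ⟨y, hy⟩ := IsIntegrallyClosed.isIntegral_iff.mp hint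
  exact ⟨y, by rw [show (y : ℚ) = 12 * x + E.b₂ by rw [← hy]; rfl]; exact e⟩

/-- The curve with given invariants congruent to those of `W`. -/
def adjust (W : WeierstrassCurve ℤ) (R z₄ z₆ : ℤ) : WeierstrassCurve ℤ :=
  ⟨W.a₁, W.a₂, W.a₃, W.a₄ - 864 * R * z₄, W.a₆ - R * (72 * W.b₂ * z₄ + 48 * z₆)⟩

lemma adjust_c₄ (W : WeierstrassCurve ℤ) (R z₄ z₆ : ℤ) :
    (adjust W R z₄ z₆).c₄ = W.c₄ + 48 * 864 * R * z₄ := by
  simp only [adjust, WeierstrassCurve.c₄, WeierstrassCurve.b₂, WeierstrassCurve.b₄]; ring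

lemma adjust_c₆ (W : WeierstrassCurve ℤ) (R z₄ z₆ : ℤ) :
    (adjust W R z₄ z₆).c₆ = W.c₆ + 48 * 864 * R * z₆ := by
  simp only [adjust, WeierstrassCurve.c₆, WeierstrassCurve.b₂, WeierstrassCurve.b₄,
    WeierstrassCurve.b₆]
  ring

lemma adjust_semistable (W : WeierstrassCurve ℤ) (hW : W.IsSemistableModel) (R z₄ z₆ : ℤ)
    (hcop : ∀ p : ℕ, p.Prime → ¬ (p : ℤ) ∣ R →
      ¬ ((p : ℤ) ∣ (adjust W R z₄ z₆).c₄ ∧ (p : ℤ) ∣ (adjust W R z₄ z₆).c₆)) :
    (adjust W R z₄ z₆).IsSemistableModel := by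
  intro p hp hd h4
  by_cases hR : (p : ℤ) ∣ R
  · have hR' : ((R : ℤ) : ZMod p) = 0 := (ZMod.intCast_zmod_eq_zero_iff_dvd _ _).mpr hR
    have e : (adjust W R z₄ z₆).map (Int.castRingHom (ZMod p)) =
        W.map (Int.castRingHom (ZMod p)) := by
      ext <;> simp [adjust, hR']
    have e1 := congrArg WeierstrassCurve.Δ e
    have e2 := congrArg WeierstrassCurve.c₄ e
    rw [map_Δ, map_Δ, eq_intCast, eq_intCast] at e1
    rw [map_c₄, map_c₄, eq_intCast, eq_intCast] at e2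
    rw [(ZMod.intCast_zmod_eq_zero_iff_dvd _ _).mpr hd] at e1
    rw [(ZMod.intCast_zmod_eq_zero_iff_dvd _ _).mpr h4] at e2
    exact hW p hp ((ZMod.intCast_zmod_eq_zero_iff_dvd _ _).mp e1.symm)
      ((ZMod.intCast_zmod_eq_zero_iff_dvd _ _).mp e2.symm)
  · refine hcop p hp hR ⟨h4, (Nat.prime_iff_prime_int.mp hp).dvd_of_dvd_pow (n := 2) ?_⟩
    have : (adjust W R z₄ z₆).c₆ ^ 2 =
        (adjust W R z₄ z₆).c₄ ^ 3 - 1728 * (adjust W R z₄ z₆).Δ := by
      linear_combination (adjust W R z₄ z₆).c_relation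
    rw [this]
    exact dvd_sub (dvd_pow h4 three_ne_zero) (dvd_mul_of_dvd_right hd _)

/-- The `3`–`5` switch. -/
theorem exists_switch_curve (W : WeierstrassCurve ℤ) (hΔ : W.Δ ≠ 0) (hW : W.IsSemistableModel) :
    ∃ W' : WeierstrassCurve ℤ, W'.Δ ≠ 0 ∧ W'.IsSemistableModel ∧ W'.ModRepIsIrreducible 3 ∧
      ∀ ℓ : ℕ, ℓ.Prime → W.IsGoodPrimeFor ℓ → W'.IsGoodPrimeFor ℓ → ℓ ≠ 5 →
        (5 : ℤ) ∣ (W'.apOfModel ℓ - W.apOfModel ℓ) := by
  classical
  have hi := (algebraMap ℚ Qb).injective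
  obtain ⟨B, hBa, hBb⟩ := exists_base (a := (W.c₄ : ℚ)) (b := (W.c₆ : ℚ))
    (Int.cast_ne_zero.mpr (c₄_ne_zero W hW)) (Int.cast_ne_zero.mpr (c₆_ne_zero W hW))
    (fun h => by
      have h' : W.c₄ ^ 3 = W.c₆ ^ 2 := by exact_mod_cast h
      have := W.c_relation
      rw [h', sub_self] at this
      exact hΔ ((mul_eq_zero.mp this).resolve_left (by norm_num)))
  obtain ⟨e, he, hind, hef⟩ := B.exists_frame
  obtain ⟨p4, hp4⟩ := mem_lifts_of_invariant fun σ => (B.inV_base.map_lineP he σ).1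
  obtain ⟨p6, hp6⟩ := mem_lifts_of_invariant fun σ => (B.inV_base.map_lineP he σ).2
  have hev : ∀ (p : ℚ[X]) (s : ℚ),
      (p.map (algebraMap ℚ Qb)).eval (algebraMap ℚ Qb s) = algebraMap ℚ Qb (p.eval s) :=
    fun p s => by rw [eval_map, eval₂_at_apply]
  have h40 : p4.eval 0 = (W.c₄ : ℚ) := hi (by
    rw [← hev, hp4, map_zero, eval_klC4_lineP]
    simp [← hBa, B.sat.eq4])
  have h60 : p6.eval 0 = (W.c₆ : ℚ) := hi (by
    rw [← hev, hp6, map_zero, eval_klC6_lineP]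
    simp [← hBb, B.sat.eq6])
  obtain ⟨q4, hq4⟩ : X ∣ p4 - C (W.c₄ : ℚ) := X_dvd_iff.mpr (by
    rw [coeff_zero_eq_eval_zero, eval_sub, eval_C, h40, sub_self])
  obtain ⟨q6, hq6⟩ : X ∣ p6 - C (W.c₆ : ℚ) := X_dvd_iff.mpr (by
    rw [coeff_zero_eq_eval_zero, eval_sub, eval_C, h60, sub_self])
  obtain ⟨L4, Q4, hL4, hQ4⟩ := exists_clear q4
  obtain ⟨L6, Q6, hL6, hQ6⟩ := exists_clear q6
  -- `p4` and `p6` have no common zero
  have hcop : IsCoprime p4 p6 := by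
    refine (Polynomial.isCoprime_iff_aeval_ne_zero_of_isAlgClosed ℚ Qb p4 p6).mpr fun s => ?_
    rw [aeval_def, aeval_def, ← eval_map, ← eval_map, hp4, hp6, eval_klC4_lineP, eval_klC6_lineP]
    by_contra hcon
    push Not at hcon
    have hf : klF (B.w 0 + s * e 0) (B.w 1 + s * e 1) = 0 := by
      have h := klein_syzygy (B.w 0 + s * e 0) (B.w 1 + s * e 1)
      rw [hcon.1, hcon.2] at h
      exact eq_zero_of_pow_eq_zero (n := 5) (by linear_combination -h / 1728)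
    exact line_ne_zero hind s (eq_zero_of_common hcon.1 hf)
  obtain ⟨A, A', hAA⟩ := hcop
  obtain ⟨LA, QA, hLA, hQA⟩ := exists_clear A
  obtain ⟨LA', QA', hLA', hQA'⟩ := exists_clear A'
  set R : ℤ := (LA : ℤ) * LA' with hR
  obtain ⟨M, hM⟩ : ∃ M : ℕ, M = 48 * 864 * (LA * LA') * (L4 * L6) := ⟨_, rfl⟩
  have hM0 : 0 < M := hM ▸
    Nat.mul_pos (Nat.mul_pos (by norm_num) (Nat.mul_pos hLA hLA')) (Nat.mul_pos hL4 hL6)
  -- the curve at the parameter `M j`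
  let Z4 : ℕ → ℤ := fun j => (L6 : ℤ) * j * Q4.eval ((M * j : ℕ) : ℤ)
  let Z6 : ℕ → ℤ := fun j => (L4 : ℤ) * j * Q6.eval ((M * j : ℕ) : ℤ)
  let Wt : ℕ → WeierstrassCurve ℤ := fun j => adjust W R (Z4 j) (Z6 j)
  have hc4 : ∀ j, ((Wt j).c₄ : ℚ) = p4.eval ((M * j : ℕ) : ℚ) := fun j => by
    rw [sub_eq_iff_eq_add.mp hq4, eval_add, eval_mul, eval_X, eval_C, adjust_c₄]
    have e := eval_clear hQ4 ((M * j : ℕ) : ℤ)
    rw [Int.cast_natCast] at e
    simp only [Z4, Int.cast_add, Int.cast_mul, e]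
    rw [hR, hM]
    push_cast
    ring
  have hc6 : ∀ j, ((Wt j).c₆ : ℚ) = p6.eval ((M * j : ℕ) : ℚ) := fun j => by
    rw [sub_eq_iff_eq_add.mp hq6, eval_add, eval_mul, eval_X, eval_C, adjust_c₆]
    have e := eval_clear hQ6 ((M * j : ℕ) : ℤ)
    rw [Int.cast_natCast] at e
    simp only [Z6, Int.cast_add, Int.cast_mul, e]
    rw [hR, hM]
    push_cast
    ring
  have hss : ∀ j, (Wt j).IsSemistableModel := fun j => by
    refine adjust_semistable W hW R _ _ fun p hp hpR ⟨h4, h6⟩ => hpR ?_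
    have key : R = (LA' : ℤ) * QA.eval ((M * j : ℕ) : ℤ) * (Wt j).c₄ +
        (LA : ℤ) * QA'.eval ((M * j : ℕ) : ℤ) * (Wt j).c₆ := by
      apply Int.cast_injective (α := ℚ)
      have e1 := eval_clear hQA ((M * j : ℕ) : ℤ)
      have e2 := eval_clear hQA' ((M * j : ℕ) : ℤ)
      have e3 := congrArg (Polynomial.eval ((M * j : ℕ) : ℚ)) hAA
      rw [Int.cast_natCast] at e1 e2
      simp only [eval_add, eval_mul, eval_one] at e3
      simp only [Int.cast_add, Int.cast_mul, e1, e2, hc4, hc6, hR, Int.cast_natCast]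
      linear_combination (-(LA : ℚ) * LA') * e3
    rw [key]
    exact dvd_add (dvd_mul_of_dvd_right h4 _) (dvd_mul_of_dvd_right h6 _)
  -- the rescaled line
  set e' : Fin 2 → Qb := fun i => (M : Qb) * e i with he'
  have hMc : (M : Qb) ≠ 0 := Nat.cast_ne_zero.mpr hM0.ne'
  have hind' : e' 0 * B.w 1 - e' 1 * B.w 0 ≠ 0 := fun h =>
    mul_ne_zero hMc hind (by simp only [he'] at h; linear_combination h)
  have hef' : klF (e' 0) (e' 1) ≠ 0 := by
    simp only [he', klF_smul]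
    exact mul_ne_zero (pow_ne_zero _ hMc) hef
  set φ : ℚ[X] →+* Qb[X] := Polynomial.mapRingHom (algebraMap ℚ Qb) with hφ
  set c : ℚ[X] := p4.comp (C (M : ℚ) * X) with hcdef
  set d : ℚ[X] := p6.comp (C (M : ℚ) * X) with hddef
  have hline : ∀ i, (lineP B.w e i).comp (C (M : Qb) * X) = lineP B.w e' i := fun i => by
    simp [lineP, he', Polynomial.comp]
    ring
  have hcmap : c.map (algebraMap ℚ Qb) = klC4 (lineP B.w e' 0) (lineP B.w e' 1) := by
    have h := map_klC4 (Polynomial.compRingHom (C (M : Qb) * X)) (lineP B.w e 0) (lineP B.w e 1)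
    simp only [Polynomial.coe_compRingHom_apply, hline] at h
    rw [hcdef, Polynomial.map_comp, hp4, ← h]
    simp
  have hdmap : d.map (algebraMap ℚ Qb) = klC6 (lineP B.w e' 0) (lineP B.w e' 1) := by
    have h := map_klC6 (Polynomial.compRingHom (C (M : Qb) * X)) (lineP B.w e 0) (lineP B.w e 1)
    simp only [Polynomial.coe_compRingHom_apply, hline] at h
    rw [hddef, Polynomial.map_comp, hp6, ← h]
    simp
  have t4 := TopCoeff.klC4 (TopCoeff.lineP B.w e' 0) (TopCoeff.lineP B.w e' 1)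
  have t6 := TopCoeff.klC6 (TopCoeff.lineP B.w e' 0) (TopCoeff.lineP B.w e' 1)
  have hne : c.coeff 20 ^ 3 ≠ d.coeff 30 ^ 2 := fun h => by
    have h' := congrArg (algebraMap ℚ Qb) h
    rw [map_pow, map_pow, ← coeff_map, ← coeff_map, hcmap, hdmap, t4.2, t6.2] at h'
    have hs := klein_syzygy (e' 0) (e' 1)
    rw [h', sub_self] at hs
    exact mul_ne_zero (by norm_num) (pow_ne_zero 5 hef') hs.symm
  have hce : ∀ j : ℕ, c.eval (j : ℚ) = ((Wt j).c₄ : ℚ) := fun j => by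
    rw [hc4, hcdef, eval_comp, eval_mul, eval_C, eval_X, Nat.cast_mul]
  have hde : ∀ j : ℕ, d.eval (j : ℚ) = ((Wt j).c₆ : ℚ) := fun j => by
    rw [hc6, hddef, eval_comp, eval_mul, eval_C, eval_X, Nat.cast_mul]
  -- eventually the discriminant is nonzero
  have hF0 : c ^ 3 - d ^ 2 ≠ 0 := fun h => hne (by
    have h' := congrArg (fun p : ℚ[X] => p.coeff 60) h
    have a1 : c.natDegree ≤ 20 := by rw [← natDegree_map (algebraMap ℚ Qb), hcmap]; exact t4.1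
    have a2 : d.natDegree ≤ 30 := by rw [← natDegree_map (algebraMap ℚ Qb), hdmap]; exact t6.1
    simp only [coeff_sub, coeff_zero] at h'
    rw [show (60 : ℕ) = 3 * 20 from rfl, coeff_pow_of_natDegree_le a1,
      show (3 * 20 : ℕ) = 2 * 30 from rfl, coeff_pow_of_natDegree_le a2] at h'
    exact sub_eq_zero.mp h')
  obtain ⟨N₀, hN₀⟩ : ∃ N₀ : ℕ, ∀ j ≥ N₀, (Wt j).Δ ≠ 0 := by
    obtain ⟨N₀, hN₀⟩ : ∃ N₀ : ℕ, ∀ j ≥ N₀, ¬ (c ^ 3 - d ^ 2).IsRoot (j : ℚ) := by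
      have hfin : ({j : ℕ | (c ^ 3 - d ^ 2).IsRoot (j : ℚ)}).Finite :=
        (Polynomial.finite_setOf_isRoot hF0).preimage Nat.cast_injective.injOn
      obtain ⟨N, hN⟩ := hfin.bddAbove
      exact ⟨N + 1, fun j hj h => by have := hN h; omega⟩
    refine ⟨N₀, fun j hj h0 => hN₀ j hj ?_⟩
    have := (Wt j).c_relation
    rw [h0, mul_zero] at this
    simp only [IsRoot, eval_sub, eval_pow, hce, hde]
    exact_mod_cast this.symm
  obtain ⟨j, hj, hirr⟩ : ∃ j, N₀ ≤ j ∧ (Wt j).ModRepIsIrreducible 3 := by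
    by_contra hall
    push Not at hall
    obtain ⟨P, hPdeg, hP⟩ := exists_poly_root c d
      (by rw [← natDegree_map (algebraMap ℚ Qb), hcmap]; exact t4.1)
      (by rw [← natDegree_map (algebraMap ℚ Qb), hdmap]; exact t6.1) hne N₀ (fun j hj => by
        obtain ⟨y, hy⟩ := exists_root_of_reducible (Wt j) (hN₀ j hj) (hall j hj)
        exact ⟨y, by rw [hce, hde]; exact hy⟩)
    refine no_poly_root hind' hef' (P.map (algebraMap ℚ Qb)) (by rwa [natDegree_map]) ?_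
    rw [← hcmap, ← hdmap, ← coe_mapRingHom, ← map_psiQ, hP, map_zero]
  refine ⟨Wt j, hN₀ j hj, hss j, hirr, fun ℓ hl hg hg' h5 => ?_⟩
  set q : ℚ := ((M * j : ℕ) : ℚ)
  set v : Fin 2 → Qb := fun i => B.w i + algebraMap ℚ Qb q * e i
  have hsat : Sat v (algebraMap ℚ Qb ((Wt j).c₄ : ℚ)) (algebraMap ℚ Qb ((Wt j).c₆ : ℚ)) := by
    refine ⟨?_, ?_, fun h => ?_⟩
    · rw [hc4, ← hev, hp4, eval_klC4_lineP]
    · rw [hc6, ← hev, hp6, eval_klC6_lineP]
    · rw [← map_pow, ← map_pow] at h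
      have h' : (Wt j).c₄ ^ 3 = (Wt j).c₆ ^ 2 := by exact_mod_cast hi h
      have := (Wt j).c_relation
      rw [h', sub_self] at this
      exact hN₀ j hj ((mul_eq_zero.mp this).resolve_left (by norm_num))
  have hsat0 : Sat B.w (algebraMap ℚ Qb (W.c₄ : ℚ)) (algebraMap ℚ Qb (W.c₆ : ℚ)) := by
    have h := B.sat; rwa [hBa, hBb] at h
  have h := (B.inV_base.add_smul he q).apOfModel_congr B.inV_base hsat hsat0
    (isIntegralModelOf_shortKl (Wt j)) (isIntegralModelOf_shortKl W) hl hg' hg h5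
  exact_mod_cast (ZMod.intCast_eq_intCast_iff_dvd_sub _ _ 5).mp h.symm

end

end FA.Switch
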