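/-
Integral models with prescribed invariants and prescribed reductions at finitely many primes.
-/
import Fermat.Agent.Switch.LocalTools
import Fermat.Agent.Switch.SwitchCurve
import Mathlib.RingTheory.Coprime.Lemmas
import Mathlib.NumberTheory.Padics.PadicVal.Basic

set_option autoImplicit false
set_option linter.unusedSectionVars false

open WeierstrassCurve FA.Deform
open scoped Pointwise

namespace FA.Switch

noncomputable section

local notation "Qb" => AlgebraicClosure ℚ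

/-- The models have congruent coefficients. -/
def Congr (M : ℕ) (W W' : WeierstrassCurve ℤ) : Prop :=
  W.map (Int.castRingHom (ZMod M)) = W'.map (Int.castRingHom (ZMod M))

lemma Congr.dvd_c₄ {M : ℕ} {W W' : WeierstrassCurve ℤ} (h : Congr M W W') :
    (M : ℤ) ∣ W.c₄ - W'.c₄ := by
  have h' := congrArg WeierstrassCurve.c₄ h
  rw [map_c₄, map_c₄, eq_intCast, eq_intCast] at h'
  exact (ZMod.intCast_eq_intCast_iff_dvd_sub _ _ _).mp h'.symm

lemma Congr.dvd_c₆ {M : ℕ} {W W' : WeierstrassCurve ℤ} (h : Congr M W W') :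
    (M : ℤ) ∣ W.c₆ - W'.c₆ := by
  have h' := congrArg WeierstrassCurve.c₆ h
  rw [map_c₆, map_c₆, eq_intCast, eq_intCast] at h'
  exact (ZMod.intCast_eq_intCast_iff_dvd_sub _ _ _).mp h'.symm

lemma Congr.dvd_Δ {M : ℕ} {W W' : WeierstrassCurve ℤ} (h : Congr M W W') :
    (M : ℤ) ∣ W.Δ - W'.Δ := by
  have h' := congrArg WeierstrassCurve.Δ h
  rw [map_Δ, map_Δ, eq_intCast, eq_intCast] at h'
  exact (ZMod.intCast_eq_intCast_iff_dvd_sub _ _ _).mp h'.symm

lemma Congr.reduction {p : ℕ} {e : ℕ} (he : 0 < e) {W W' : WeierstrassCurve ℤ}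
    (h : Congr (p ^ e) W W') : W.reductionMod p = W'.reductionMod p := by
  have hc : ((ZMod.castHom (dvd_pow_self p he.ne') (ZMod p)).comp
      (Int.castRingHom (ZMod (p ^ e)))) = Int.castRingHom (ZMod p) := RingHom.ext_int _ _
  rw [reductionMod, reductionMod, ← hc, ← WeierstrassCurve.map_map, ← WeierstrassCurve.map_map, h]

/-- Models with prescribed coefficients to high precision. -/
lemma exists_congr_model (T : Finset ℕ) (hT : ∀ p ∈ T, p.Prime) (N : ℕ → ℕ)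
    (Wp : ℕ → WeierstrassCurve ℤ) :
    ∃ W₀ : WeierstrassCurve ℤ, ∀ p ∈ T, Congr (p ^ N p) W₀ (Wp p) := by
  obtain ⟨x₁, h₁⟩ := exists_int_congr T hT N fun p => (Wp p).a₁
  obtain ⟨x₂, h₂⟩ := exists_int_congr T hT N fun p => (Wp p).a₂
  obtain ⟨x₃, h₃⟩ := exists_int_congr T hT N fun p => (Wp p).a₃
  obtain ⟨x₄, h₄⟩ := exists_int_congr T hT N fun p => (Wp p).a₄
  obtain ⟨x₆, h₆⟩ := exists_int_congr T hT N fun p => (Wp p).a₆
  refine ⟨⟨x₁, x₂, x₃, x₄, x₆⟩, fun p hp => ?_⟩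
  have key : ∀ x y : ℤ, (p : ℤ) ^ N p ∣ x - y →
      (x : ZMod (p ^ N p)) = (y : ZMod (p ^ N p)) := fun x y h =>
    ((ZMod.intCast_eq_intCast_iff_dvd_sub y x _).mpr (by rwa [Nat.cast_pow])).symm
  show WeierstrassCurve.map _ _ = WeierstrassCurve.map _ _
  ext <;> simp only [map_a₁, map_a₂, map_a₃, map_a₄, map_a₆, eq_intCast]
  exacts [key _ _ (h₁ p hp), key _ _ (h₂ p hp), key _ _ (h₃ p hp), key _ _ (h₄ p hp),
    key _ _ (h₆ p hp)]

/-- Required precision. -/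
def prec (p : ℕ) : ℕ := if p = 2 then 10 else if p = 3 then 5 else 1

lemma prec_pos (p : ℕ) : 0 < prec p := by unfold prec; split_ifs <;> norm_num

lemma prod_prec (S : Finset ℕ) (h2 : 2 ∈ S) (h3 : 3 ∈ S) :
    ∏ p ∈ S, (p : ℤ) ^ prec p = 48 * 864 * ∏ p ∈ S, (p : ℤ) := by
  have e : ∀ p : ℕ, (p : ℤ) ^ prec p =
      (p : ℤ) ^ (if p = 2 then 9 else if p = 3 then 4 else 0) * p := fun p => by
    rw [← pow_succ]; unfold prec; split_ifs <;> norm_num
  have h : ∏ p ∈ S, (p : ℤ) ^ (if p = 2 then 9 else if p = 3 then 4 else 0) = 48 * 864 := by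
    rw [← Finset.prod_subset (s₁ := ({2, 3} : Finset ℕ)) (by
      intro x hx
      simp only [Finset.mem_insert, Finset.mem_singleton] at hx
      rcases hx with rfl | rfl <;> assumption) fun x _ hx => by
        simp only [Finset.mem_insert, Finset.mem_singleton, not_or] at hx
        rw [if_neg hx.1, if_neg hx.2, pow_zero]]
    norm_num
  rw [Finset.prod_congr rfl fun p _ => e p, Finset.prod_mul_distrib, h]

/-- Semistability of an adjusted model. -/
lemma adjust_semistable' (W : WeierstrassCurve ℤ) (R z₄ z₆ : ℤ)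
    (hR : ∀ p : ℕ, p.Prime → (p : ℤ) ∣ R → (p : ℤ) ∣ W.Δ → ¬ (p : ℤ) ∣ W.c₄)
    (hcop : ∀ p : ℕ, p.Prime → ¬ (p : ℤ) ∣ R →
      ¬ ((p : ℤ) ∣ (adjust W R z₄ z₆).c₄ ∧ (p : ℤ) ∣ (adjust W R z₄ z₆).c₆)) :
    (adjust W R z₄ z₆).IsSemistableModel := by
  intro p hp hd h4
  by_cases hpR : (p : ℤ) ∣ R
  · have hR' : ((R : ℤ) : ZMod p) = 0 := (ZMod.intCast_zmod_eq_zero_iff_dvd _ _).mpr hpR
    have e : Congr p (adjust W R z₄ z₆) W := by
      show WeierstrassCurve.map _ _ = WeierstrassCurve.map _ _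
      ext <;> simp [adjust, hR']
    exact hR p hp hpR ((dvd_sub_comm.mp e.dvd_Δ |> fun h => by simpa using dvd_add h hd))
      ((dvd_sub_comm.mp e.dvd_c₄ |> fun h => by simpa using dvd_add h h4))
  · refine hcop p hp hpR ⟨h4, (Nat.prime_iff_prime_int.mp hp).dvd_of_dvd_pow (n := 2) ?_⟩
    have : (adjust W R z₄ z₆).c₆ ^ 2 =
        (adjust W R z₄ z₆).c₄ ^ 3 - 1728 * (adjust W R z₄ z₆).Δ := by
      linear_combination (adjust W R z₄ z₆).c_relation
    rw [this]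
    exact dvd_sub (dvd_pow h4 three_ne_zero) (dvd_mul_of_dvd_right hd _)

/-- **Models with prescribed invariants.** -/
theorem exists_model (S : Finset ℕ) (hS : ∀ p ∈ S, p.Prime) (h2 : 2 ∈ S) (h3 : 3 ∈ S)
    (W₀ : WeierstrassCurve ℤ) (hW₀ : ∀ p ∈ S, (p : ℤ) ∣ W₀.Δ → ¬ (p : ℤ) ∣ W₀.c₄)
    (C₄ C₆ : ℤ) (hc₄ : ∀ p ∈ S, (p : ℤ) ^ prec p ∣ C₄ - W₀.c₄)
    (hc₆ : ∀ p ∈ S, (p : ℤ) ^ prec p ∣ C₆ - W₀.c₆)
    (hcop : ∀ p : ℕ, p.Prime → p ∉ S → ¬ ((p : ℤ) ∣ C₄ ∧ (p : ℤ) ∣ C₆)) :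
    ∃ W : WeierstrassCurve ℤ, W.c₄ = C₄ ∧ W.c₆ = C₆ ∧ W.IsSemistableModel ∧
      ∀ p ∈ S, W.reductionMod p = W₀.reductionMod p := by
  have key : ∀ x : ℤ, (∀ p ∈ S, (p : ℤ) ^ prec p ∣ x) →
      (48 * 864 * ∏ p ∈ S, (p : ℤ)) ∣ x := fun x hx => by
    rw [← prod_prec S h2 h3]
    refine Finset.prod_dvd_of_coprime (fun p hp q hq hpq => IsCoprime.pow ?_) hx
    rw [Int.isCoprime_iff_gcd_eq_one, Int.gcd_natCast_natCast]
    exact (Nat.coprime_primes (hS p hp) (hS q hq)).mpr hpq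
  obtain ⟨z₄, hz₄⟩ := key _ hc₄
  obtain ⟨z₆, hz₆⟩ := key _ hc₆
  set R := ∏ p ∈ S, (p : ℤ) with hR
  have hmem : ∀ p : ℕ, p.Prime → (p : ℤ) ∣ R → p ∈ S := fun p hp hd => by
    obtain ⟨l, hl, hpl⟩ := (Prime.dvd_finsetProd_iff (Nat.prime_iff_prime_int.mp hp) _).mp hd
    rwa [(Nat.prime_dvd_prime_iff_eq hp (hS l hl)).mp (Int.natCast_dvd_natCast.mp hpl)]
  have e4 : (adjust W₀ R z₄ z₆).c₄ = C₄ := by rw [adjust_c₄]; linear_combination -hz₄
  have e6 : (adjust W₀ R z₄ z₆).c₆ = C₆ := by rw [adjust_c₆]; linear_combination -hz₆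
  refine ⟨adjust W₀ R z₄ z₆, e4, e6, adjust_semistable' W₀ R z₄ z₆
    (fun p hp hd => hW₀ p (hmem p hp hd)) fun p hp hd => ?_, fun p hp => ?_⟩
  · rw [e4, e6]
    exact hcop p hp fun hps => hd (Finset.dvd_prod_of_mem (fun p : ℕ => (p : ℤ)) hps)
  · have hR' : ((R : ℤ) : ZMod p) = 0 := (ZMod.intCast_zmod_eq_zero_iff_dvd _ _).mpr
      (Finset.dvd_prod_of_mem (fun p : ℕ => (p : ℤ)) hp)
    show WeierstrassCurve.map _ _ = WeierstrassCurve.map _ _
    ext <;> simp [adjust, hR']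

/-- Finitely many numbers are integral outside finitely many primes. -/
lemma exists_good_outside (s : List Qb) :
    ∃ N : ℕ, 0 < N ∧ ∀ q : ℕ, q.Prime → ¬ q ∣ N → ∀ A : ValuationSubring Qb, A.LiesOverPrime q →
      ∀ x ∈ s, A.valuation x ≤ 1 := by
  induction s with
  | nil => exact ⟨1, one_pos, fun q _ _ A _ x hx => absurd hx List.not_mem_nil⟩
  | cons a s ih =>
    obtain ⟨N, hN, h⟩ := ih
    obtain ⟨n, hn, hint⟩ := exists_int_mul_zbar a
    refine ⟨N * n.natAbs, Nat.mul_pos hN (Int.natAbs_pos.mpr hn), fun q hq hqN A hA x hx => ?_⟩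
    rcases List.mem_cons.mp hx with rfl | hx
    · have h1 := v_zbar_le (A := A) (⟨_, hint⟩ : ZBar)
      have hn1 : A.valuation (n : Qb) = 1 :=
        FA.Local.natCast_eq_one_of_not_dvd (v := A.valuation) hq (v_natPrime_lt hA)
          fun hd => hqN (dvd_mul_of_dvd_right (Int.natCast_dvd.mp hd) _)
      rwa [map_mul, hn1, one_mul] at h1
    · exact h q hq (fun hd => hqN (dvd_mul_of_dvd_left hd _)) A hA x hx

/-! ### Valuations of integers -/

variable {A : ValuationSubring Qb} {q : ℕ}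

lemma v_intCast_eq_padic (hq : q.Prime) (hA : A.LiesOverPrime q) {n : ℤ} (hn : n ≠ 0) :
    A.valuation (n : Qb) = A.valuation (q : Qb) ^ padicValInt q n := by
  have : Fact q.Prime := ⟨hq⟩
  refine le_antisymm ((intCast_le_pow_iff hq hA n _).mpr (padicValInt_dvd n)) ?_
  obtain ⟨j, hj⟩ := v_intCast_eq_pow hq hA hn
  rw [hj]
  refine pow_q_anti hA ?_
  have h := ((intCast_le_pow_iff hq hA n j).mp hj.le)
  exact ((padicValInt_dvd_iff j n).mp h).resolve_left hn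

lemma padic_eq_of_v_eq (hq : q.Prime) (hA : A.LiesOverPrime q) {m n : ℤ} (hn : n ≠ 0)
    (h : A.valuation (m : Qb) = A.valuation (n : Qb)) :
    m ≠ 0 ∧ padicValInt q m = padicValInt q n := by
  have hm : m ≠ 0 := fun h0 => by
    rw [h0, Int.cast_zero, map_zero, eq_comm, _root_.map_eq_zero, Int.cast_eq_zero] at h
    exact hn h
  refine ⟨hm, ?_⟩
  rw [v_intCast_eq_padic hq hA hm, v_intCast_eq_padic hq hA hn] at h
  exact (pow_right_injective₀ (zero_lt_iff.mpr (v_natPrime_ne hq)) (v_natPrime_lt hA).ne) h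

lemma v_pow_lt_v_intCast (hq : q.Prime) (hA : A.LiesOverPrime q) {n : ℤ} (hn : n ≠ 0) {k : ℕ}
    (hk : padicValInt q n < k) : A.valuation (q : Qb) ^ k < A.valuation (n : Qb) := by
  rw [v_intCast_eq_padic hq hA hn]
  exact pow_lt_pow_right_of_lt_one₀ (zero_lt_iff.mpr (v_natPrime_ne hq)) (v_natPrime_lt hA) hk

lemma v_sub_sq_le {x y : Qb} (hx : A.valuation x ≤ 1) (hy : A.valuation y ≤ 1) :
    A.valuation (x ^ 2 - y ^ 2) ≤ A.valuation (x - y) := by
  rw [show x ^ 2 - y ^ 2 = (x - y) * (x + y) by ring]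
  exact (map_mul A.valuation _ _).trans_le
    (mul_le_of_le_one_right' (A.valuation.map_add_le hx hy))

lemma v_sub_cube_le {x y : Qb} (hx : A.valuation x ≤ 1) (hy : A.valuation y ≤ 1) :
    A.valuation (x ^ 3 - y ^ 3) ≤ A.valuation (x - y) := by
  rw [show x ^ 3 - y ^ 3 = (x - y) * (x * x + x * y + y * y) by ring]
  refine (map_mul A.valuation _ _).trans_le (mul_le_of_le_one_right' ?_)
  have mx : x ∈ A := (A.valuation_le_one_iff x).mp hx
  have my : y ∈ A := (A.valuation_le_one_iff y).mp hy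
  exact (A.valuation_le_one_iff _).mpr (add_mem (add_mem (mul_mem mx mx) (mul_mem mx my))
    (mul_mem my my))

/-- The valuation of a discriminant from approximate invariants. -/
lemma padic_disc (hq : q.Prime) (hA : A.LiesOverPrime q) {C₄ C₆ D D₀ : ℤ} {x y z : Qb} {n : ℕ}
    (hD : C₄ ^ 3 - C₆ ^ 2 = 1728 * D) (hz : x ^ 3 - y ^ 2 = 1728 * z) (hD₀ : D₀ ≠ 0)
    (hv : A.valuation z = A.valuation (D₀ : Qb))
    (hx : A.valuation x ≤ 1) (hy : A.valuation y ≤ 1)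
    (h4 : A.valuation ((C₄ : Qb) - x) ≤ A.valuation (q : Qb) ^ n)
    (h6 : A.valuation ((C₆ : Qb) - y) ≤ A.valuation (q : Qb) ^ n)
    (hn : padicValInt q (1728 * D₀) < n) : D ≠ 0 ∧ padicValInt q D = padicValInt q D₀ := by
  have hc : ((C₄ : Qb)) ^ 3 - (C₆ : Qb) ^ 2 = 1728 * (D : Qb) := by exact_mod_cast hD
  have hlt : A.valuation (1728 * (D : Qb) - 1728 * z) < A.valuation (1728 * z) := by
    refine lt_of_le_of_lt ?_ ((v_pow_lt_v_intCast hq hA (mul_ne_zero (by norm_num) hD₀) hn).trans_eq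
      (by push_cast; rw [map_mul, map_mul, hv]))
    rw [← hc, ← hz, show (C₄ : Qb) ^ 3 - (C₆ : Qb) ^ 2 - (x ^ 3 - y ^ 2) =
      ((C₄ : Qb) ^ 3 - x ^ 3) - ((C₆ : Qb) ^ 2 - y ^ 2) by ring]
    exact (A.valuation.map_sub _ _).trans (max_le
      ((v_sub_cube_le (FA.Local.intCast_le_one _) hx).trans h4)
      ((v_sub_sq_le (FA.Local.intCast_le_one _) hy).trans h6))
  have he : A.valuation (1728 * (D : Qb)) = A.valuation (1728 * z) := by
    have := A.valuation.map_add_eq_of_lt_left hlt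
    rwa [add_sub_cancel] at this
  rw [map_mul, map_mul, hv] at he
  exact padic_eq_of_v_eq hq hA hD₀
    (mul_left_cancel₀ ((_root_.map_ne_zero _).mpr (by norm_num)) he)

end

end FA.Switch
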