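/-
Galois equivariant isomorphisms of torsion between integral models.
-/
import Fermat.Agent.Switch.Descent
import Fermat.Agent.Switch.Level3.Descent
import Fermat.Prelude.Def_FLTPrelim_ModularRep

set_option autoImplicit false
set_option linter.unusedSectionVars false

open WeierstrassCurve
open scoped WeierstrassCurve.Affine

namespace FA.Switch

noncomputable section

local notation "Qb" => AlgebraicClosure ℚ
local notation "GQ" => AlgebraicClosure ℚ ≃ₐ[ℚ] AlgebraicClosure ℚ

/-- A Galois equivariant isomorphism between the `p`-torsion of two curves over `ℚ`. -/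
def TorsIso (p : ℕ) (E E' : WeierstrassCurve ℚ) : Prop :=
  ∃ e : Submodule.torsionBy ℤ (E.toAffine⁄Qb).Point p ≃+
      Submodule.torsionBy ℤ (E'.toAffine⁄Qb).Point p,
    ∀ (σ : GQ) P, e (σ • P) = σ • e P

namespace TorsIso

variable {p : ℕ} {E E' E'' : WeierstrassCurve ℚ}

lemma symm (h : TorsIso p E E') : TorsIso p E' E := by
  obtain ⟨e, he⟩ := h
  refine ⟨e.symm, fun σ P => ?_⟩
  rw [AddEquiv.symm_apply_eq, he, AddEquiv.apply_symm_apply]

lemma trans (h : TorsIso p E E') (h' : TorsIso p E' E'') : TorsIso p E E'' := by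
  obtain ⟨e, he⟩ := h
  obtain ⟨e', he'⟩ := h'
  exact ⟨e.trans e', fun σ P => by simp only [AddEquiv.trans_apply, he, he']⟩

lemma of_vc [Fact p.Prime] [E.IsElliptic] [E'.IsElliptic] (C : VariableChange ℚ) (hC : C • E = E') :
    TorsIso p E' E :=
  ⟨(FA.Frob.torsionEquiv C hC p).toAddEquiv, fun σ P => Subtype.ext (by
    show (((FA.Frob.torsionEquiv C hC p) (σ • P)).1) = σ • ((FA.Frob.torsionEquiv C hC p) P).1
    rw [FA.Frob.torsionEquiv_apply, FA.Frob.torsionEquiv_apply]
    exact FA.Frob.pointEquiv_smul C hC σ P.1)⟩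

/-- The linear isomorphism. -/
lemma exists_linearEquiv [Fact p.Prime] (h : TorsIso p E E') :
    ∃ e : Submodule.torsionBy ℤ (E.toAffine⁄Qb).Point p ≃ₗ[ZMod p]
        Submodule.torsionBy ℤ (E'.toAffine⁄Qb).Point p,
      ∀ σ : GQ, e.conj (Affine.Point.galoisRepModuleEnd (K := Qb) ℚ E.toAffine p σ) =
        Affine.Point.galoisRepModuleEnd (K := Qb) ℚ E'.toAffine p σ := by
  obtain ⟨e, he⟩ := h
  refine ⟨LinearEquiv.ofBijective (e.toAddMonoidHom.toZModLinearMap p) e.bijective, fun σ => ?_⟩
  refine LinearMap.ext fun P => ?_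
  rw [LinearEquiv.conj_apply_apply]
  refine (he σ _).trans (congrArg (σ • ·) ?_)
  exact (LinearEquiv.ofBijective (e.toAddMonoidHom.toZModLinearMap p) e.bijective).apply_symm_apply P

/-- Irreducibility is transported. -/
lemma galoisRepIsIrreducible [Fact p.Prime] (h : TorsIso p E E')
    (hirr : Affine.Point.GaloisRepIsIrreducible (K := Qb) ℚ E.toAffine p) :
    Affine.Point.GaloisRepIsIrreducible (K := Qb) ℚ E'.toAffine p := by
  obtain ⟨e, he⟩ := h
  let eL := LinearEquiv.ofBijective (e.toAddMonoidHom.toZModLinearMap p) e.bijective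
  obtain ⟨hnt, hN⟩ := hirr
  refine ⟨e.toEquiv.nontrivial_congr.mp hnt, fun N hstab => ?_⟩
  have hs : Affine.Point.IsGaloisStable ℚ (N.comap eL.toLinearMap) := fun σ x hx => by
    have h2 : eL (σ • x) = σ • eL x := he σ x
    show eL (σ • x) ∈ N
    rw [h2]
    exact hstab σ _ hx
  rcases hN _ hs with hb | ht
  · refine Or.inl ((Submodule.eq_bot_iff _).mpr fun x hx => ?_)
    have : eL.symm x ∈ N.comap eL.toLinearMap := by simpa using hx
    rw [hb, Submodule.mem_bot] at this
    simpa using congrArg eL this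
  · refine Or.inr (Submodule.eq_top_iff'.mpr fun x => ?_)
    have : eL.symm x ∈ N.comap eL.toLinearMap := ht ▸ Submodule.mem_top
    simpa using this

/-- Congruence of the traces of Frobenius. -/
lemma apOfModel_congr {W W' : WeierstrassCurve ℤ} [Fact p.Prime]
    (h : TorsIso p (FA.Frob.ratCurve W) (FA.Frob.ratCurve W')) {l : ℕ} (hl : l.Prime)
    (hgood : W.IsGoodPrimeFor l) (hgood' : W'.IsGoodPrimeFor l) (hlp : p ≠ l) :
    (W.apOfModel l : ZMod p) = W'.apOfModel l := by
  have := FA.Frob.ratCurve_isElliptic W hgood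
  have := FA.Frob.ratCurve_isElliptic W' hgood'
  obtain ⟨A, hA⟩ := FA.Deform.exists_liesOverPrime hl
  obtain ⟨σ, hσ⟩ := FA.Deform.exists_isFrobeniusAt hl hA
  obtain ⟨e, he⟩ := h.exists_linearEquiv
  have e1 := FA.Frob.charpoly_galoisRep W hl hgood hlp hA hσ
  have e2 := FA.Frob.charpoly_galoisRep W' hl hgood' hlp hA hσ
  rw [← he σ, LinearEquiv.charpoly_conj, e1] at e2
  have := congrArg (fun q : Polynomial (ZMod p) => q.coeff 1) e2
  simpa [Polynomial.coeff_C] using this

end TorsIso

/-- Members of the twisted plane of level `5` have isomorphic `5`-torsion. -/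
theorem Base.InV.torsIso {B : Base} {v v' : Fin 2 → Qb} {a b a' b' : ℚ} (hv : B.InV v)
    (hv' : B.InV v') (h : Sat v (algebraMap ℚ Qb a) (algebraMap ℚ Qb b))
    (h' : Sat v' (algebraMap ℚ Qb a') (algebraMap ℚ Qb b')) :
    TorsIso 5 (shortKl a b) (shortKl a' b') := by
  refine ⟨(AddEquiv.ofBijective _ (torsionHom_bijective h)).symm.trans
      (AddEquiv.ofBijective _ (torsionHom_bijective h')), fun σ P => ?_⟩
  obtain ⟨Q, rfl⟩ := (torsionHom_bijective h).2 P
  have e1 : σ • torsionHom h Q = torsionHom h (B.act σ Q) := Subtype.ext (hv.spt_smul h σ Q).symm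
  have e2 : σ • torsionHom h' Q = torsionHom h' (B.act σ Q) :=
    Subtype.ext (hv'.spt_smul h' σ Q).symm
  have key : ∀ R, (AddEquiv.ofBijective _ (torsionHom_bijective h')
      ((AddEquiv.ofBijective _ (torsionHom_bijective h)).symm (torsionHom h R))) = torsionHom h' R := by
    intro R
    rw [show torsionHom h R = AddEquiv.ofBijective (torsionHom h) (torsionHom_bijective h) R
      from rfl, AddEquiv.symm_apply_apply]
    rfl
  simp only [AddEquiv.trans_apply]
  rw [e1, key, key, e2]

/-- Members of the twisted plane of level `3` have isomorphic `3`-torsion. -/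
theorem L3.Base.InV.torsIso {B : L3.Base} {v v' : Fin 2 → Qb} {a b a' b' : ℚ} (hv : B.InV v)
    (hv' : B.InV v') (h : L3.Sat v (algebraMap ℚ Qb a) (algebraMap ℚ Qb b))
    (h' : L3.Sat v' (algebraMap ℚ Qb a') (algebraMap ℚ Qb b')) :
    TorsIso 3 (shortKl a b) (shortKl a' b') := by
  refine ⟨(AddEquiv.ofBijective _ (L3.torsionHom_bijective h)).symm.trans
      (AddEquiv.ofBijective _ (L3.torsionHom_bijective h')), fun σ P => ?_⟩
  obtain ⟨Q, rfl⟩ := (L3.torsionHom_bijective h).2 P
  have e1 : σ • L3.torsionHom h Q = L3.torsionHom h (B.act σ Q) :=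
    Subtype.ext (hv.spt_smul h σ Q).symm
  have e2 : σ • L3.torsionHom h' Q = L3.torsionHom h' (B.act σ Q) :=
    Subtype.ext (hv'.spt_smul h' σ Q).symm
  have key : ∀ R, (AddEquiv.ofBijective _ (L3.torsionHom_bijective h')
      ((AddEquiv.ofBijective _ (L3.torsionHom_bijective h)).symm (L3.torsionHom h R))) =
        L3.torsionHom h' R := by
    intro R
    rw [show L3.torsionHom h R = AddEquiv.ofBijective (L3.torsionHom h) (L3.torsionHom_bijective h) R
      from rfl, AddEquiv.symm_apply_apply]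
    rfl
  simp only [AddEquiv.trans_apply]
  rw [e1, key, key, e2]

end

end FA.Switch
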