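import Fermat.Agent.Switch.SquareDisc
import Fermat.Prelude.Def_FLTPrelim_FreyPackage
import Fermat.Agent.Local.FreyArith

/-!
# The integral Frey model: square discriminant, bad at `2`, semistable, irreducible mod `5`
-/

namespace FA.Switch

open WeierstrassCurve

variable (P : FreyPackage)

lemma freyInt_map : P.freyCurveInt.map (Int.castRingHom ℚ) = P.freyCurve := by
  have h2 : (4 : ℤ) ∣ P.b ^ P.p - 1 - P.a ^ P.p := FA.Local.frey_a₂_dvd P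
  have h4 : (16 : ℤ) ∣ -(P.a ^ P.p) * P.b ^ P.p := by
    rw [neg_mul, dvd_neg]
    exact dvd_trans ⟨2, by norm_num⟩ (FA.Local.frey_a₄_dvd P)
  ext <;> simp only [map_a₁, map_a₂, map_a₃, map_a₄, map_a₆, FreyPackage.freyCurveInt,
    FreyPackage.freyCurve, eq_intCast, Int.cast_one, Int.cast_zero]
  · rw [Int.cast_div h2 (by norm_num)]; push_cast; ring
  · rw [Int.cast_div h4 (by norm_num)]; push_cast; ring

lemma freyInt_a₂ : 4 * P.freyCurveInt.a₂ = P.b ^ P.p - 1 - P.a ^ P.p :=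
  Int.mul_ediv_cancel' (FA.Local.frey_a₂_dvd P)

lemma freyInt_a₄ : 16 * P.freyCurveInt.a₄ = -(P.a ^ P.p) * P.b ^ P.p := by
  refine Int.mul_ediv_cancel' ?_
  rw [neg_mul, dvd_neg]
  exact dvd_trans ⟨2, by norm_num⟩ (FA.Local.frey_a₄_dvd P)

lemma freyInt_Δ : 256 * P.freyCurveInt.Δ = (P.a ^ P.p * P.b ^ P.p * P.c ^ P.p) ^ 2 := by
  have h2 := freyInt_a₂ P
  have h4 := freyInt_a₄ P
  have hc := P.hFLT
  have e1 : P.freyCurveInt.a₁ = 1 := rfl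
  have e3 : P.freyCurveInt.a₃ = 0 := rfl
  have e6 : P.freyCurveInt.a₆ = 0 := rfl
  have hd : P.freyCurveInt.Δ =
      P.freyCurveInt.a₄ ^ 2 * ((1 + 4 * P.freyCurveInt.a₂) ^ 2 - 64 * P.freyCurveInt.a₄) := by
    simp only [WeierstrassCurve.Δ, b₂, b₄, b₆, b₈, e1, e3, e6]; ring
  rw [hd, show 256 * (P.freyCurveInt.a₄ ^ 2 * ((1 + 4 * P.freyCurveInt.a₂) ^ 2
      - 64 * P.freyCurveInt.a₄)) = (16 * P.freyCurveInt.a₄) ^ 2 *
      ((1 + 4 * P.freyCurveInt.a₂) ^ 2 - 4 * (16 * P.freyCurveInt.a₄)) by ring, h2, h4, ← hc]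
  ring

lemma freyInt_Δ_ne_zero : P.freyCurveInt.Δ ≠ 0 := by
  intro h
  have h' := freyInt_Δ P
  rw [h, mul_zero, eq_comm, pow_eq_zero_iff (by norm_num)] at h'
  rcases mul_eq_zero.mp h' with h1 | h1
  · rcases mul_eq_zero.mp h1 with h2 | h2
    · exact P.ha0 (pow_eq_zero_iff P.hp0 |>.mp h2)
    · exact P.hb0 (pow_eq_zero_iff P.hp0 |>.mp h2)
  · exact P.hc0 (pow_eq_zero_iff P.hp0 |>.mp h1)

lemma freyInt_Δ_square : ∃ m : ℤ, P.freyCurveInt.Δ = (2 * m) ^ 2 := by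
  obtain ⟨m, hm⟩ := (FA.Local.frey_a₄_dvd P).mul_right (P.c ^ P.p)
  exact ⟨m, by have := freyInt_Δ P; rw [hm] at this; linarith [this]⟩

lemma freyInt_c₄ : P.freyCurveInt.c₄ =
    (P.a ^ P.p) ^ 2 + P.a ^ P.p * P.b ^ P.p + (P.b ^ P.p) ^ 2 := by
  have h2 := freyInt_a₂ P
  have h4 := freyInt_a₄ P
  have e1 : P.freyCurveInt.a₁ = 1 := rfl
  have e3 : P.freyCurveInt.a₃ = 0 := rfl
  have : P.freyCurveInt.c₄ =
      (1 + 4 * P.freyCurveInt.a₂) ^ 2 - 3 * (16 * P.freyCurveInt.a₄) := by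
    simp only [c₄, b₂, b₄, e1, e3]; ring
  rw [this, h2, h4]; ring

lemma freyInt_semistable : P.freyCurveInt.IsSemistableModel := by
  intro q hq hΔ hc
  rw [freyInt_c₄] at hc
  have hq' : Prime (q : ℤ) := Nat.prime_iff_prime_int.mp hq
  have h : (q : ℤ) ∣ P.a ^ P.p * P.b ^ P.p * P.c ^ P.p :=
    hq'.dvd_of_dvd_pow (freyInt_Δ P ▸ dvd_mul_of_dvd_right hΔ 256)
  have hab : ∀ {x : ℤ}, (q : ℤ) ∣ x ^ P.p → (q : ℤ) ∣ x := fun hx => hq'.dvd_of_dvd_pow hx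
  have key : ¬ ((q : ℤ) ∣ P.a ^ P.p ∧ (q : ℤ) ∣ P.b ^ P.p) := fun hh => by
    have := dvd_gcd (hab hh.1) (hab hh.2)
    rw [P.hgcdab] at this
    exact hq'.not_isUnit (isUnit_of_dvd_one this)
  rcases hq'.dvd_or_dvd h with h1 | h1
  · rcases hq'.dvd_or_dvd h1 with h2 | h2
    · refine key ⟨h2, hq'.dvd_of_dvd_pow (n := 2) ?_⟩
      have e := dvd_sub hc (dvd_mul_of_dvd_left h2 (P.a ^ P.p + P.b ^ P.p))
      rwa [show (P.a ^ P.p) ^ 2 + P.a ^ P.p * P.b ^ P.p + (P.b ^ P.p) ^ 2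
        - P.a ^ P.p * (P.a ^ P.p + P.b ^ P.p) = (P.b ^ P.p) ^ 2 by ring] at e
    · refine key ⟨hq'.dvd_of_dvd_pow (n := 2) ?_, h2⟩
      have e := dvd_sub hc (dvd_mul_of_dvd_left h2 (P.a ^ P.p + P.b ^ P.p))
      rwa [show (P.a ^ P.p) ^ 2 + P.a ^ P.p * P.b ^ P.p + (P.b ^ P.p) ^ 2
        - P.b ^ P.p * (P.a ^ P.p + P.b ^ P.p) = (P.a ^ P.p) ^ 2 by ring] at e
  · rw [← P.hFLT] at h1
    have e := dvd_sub hc (dvd_mul_of_dvd_left h1 (P.b ^ P.p))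
    rw [show (P.a ^ P.p) ^ 2 + P.a ^ P.p * P.b ^ P.p + (P.b ^ P.p) ^ 2
        - (P.a ^ P.p + P.b ^ P.p) * P.b ^ P.p = (P.a ^ P.p) ^ 2 by ring] at e
    have ha := hq'.dvd_of_dvd_pow e
    exact key ⟨ha, by simpa using dvd_sub h1 ha⟩

theorem freyInt_isIntegralModelOf : P.freyCurveInt.IsIntegralModelOf P.freyCurve :=
  ⟨1, by rw [one_smul, freyInt_map]⟩

/-- The Frey curve has irreducible `5`-torsion. -/
theorem freyInt_modRepIsIrreducible_five : P.freyCurveInt.ModRepIsIrreducible 5 := by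
  obtain ⟨m, hm⟩ := freyInt_Δ_square P
  refine modRepIsIrreducible_five_of_isSquare (freyInt_Δ_ne_zero P) (freyInt_semistable P)
    ⟨2 * m, by rw [hm, sq]⟩ ?_
  rw [hm, sq]; exact (dvd_mul_right 2 m).mul_right _

end FA.Switch
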