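/-
Values of a binary quartic form which are squarefree outside a finite set of primes, in a
congruence class and a cone.
-/
import Mathlib.NumberTheory.Chebyshev
import Mathlib.RingTheory.Polynomial.Basic
import Mathlib.Algebra.Polynomial.Roots
import Mathlib.Algebra.Polynomial.Identities
import Mathlib.Data.ZMod.Basic
import Mathlib.Algebra.Field.ZMod
import Mathlib.Analysis.PSeries
import Mathlib.RingTheory.Coprime.Lemmas
import Mathlib.NumberTheory.Padics.PadicVal.Basic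

set_option autoImplicit false

open Polynomial Filter

namespace FA.Switch

noncomputable section

/-- The binary quartic form attached to a polynomial. -/
def qform {R : Type*} [CommRing R] (Q : ℤ[X]) (a b : R) : R :=
  ∑ i ∈ Finset.range 5, (Q.coeff i : R) * a ^ i * b ^ (4 - i)

lemma map_qform {R S : Type*} [CommRing R] [CommRing S] (f : R →+* S) (Q : ℤ[X]) (a b : R) :
    f (qform Q a b) = qform Q (f a) (f b) := by
  simp [qform, map_sum]

lemma qform_eq_eval {R : Type*} [CommRing R] {Q : ℤ[X]} (hQ : Q.natDegree ≤ 4) (t b : R) :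
    qform Q (t * b) b = b ^ 4 * (Q.map (Int.castRingHom R)).eval t := by
  rw [eval_map, eval₂_eq_sum_range' _ (Nat.lt_succ_of_le hQ), Finset.mul_sum, qform]
  refine Finset.sum_congr rfl fun i hi => ?_
  have hi' : i ≤ 4 := by rw [Finset.mem_range] at hi; omega
  rw [eq_intCast, mul_pow, show b ^ 4 = b ^ i * b ^ (4 - i) by rw [← pow_add]; congr 1; omega]
  ring

/-- Integers in an interval with a common residue. -/
lemma card_congr_le {q : ℕ} (hq : 0 < q) {A : ℤ} {N : ℕ} {s : Finset ℤ}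
    (hs : s ⊆ Finset.Ico A (A + N)) (h : ∀ x ∈ s, ∀ y ∈ s, (q : ℤ) ∣ x - y) :
    s.card ≤ N / q + 1 := by
  rw [← Finset.card_range (N / q + 1)]
  refine Finset.card_le_card_of_injOn (fun x => (x - A).toNat / q) (fun x hx => ?_) ?_
  · have hx' := Finset.mem_Ico.mp (hs hx)
    simp only [Finset.coe_range, Set.mem_Iio]
    exact Nat.lt_succ_of_le (Nat.div_le_div_right (by omega))
  · intro x hx y hy hxy
    have hx' := Finset.mem_Ico.mp (hs hx)
    have hy' := Finset.mem_Ico.mp (hs hy)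
    simp only at hxy
    have h1 : (x - A).toNat % q = (y - A).toNat % q := by
      rw [← Nat.ModEq, ← Int.natCast_modEq_iff, Int.toNat_of_nonneg (by omega),
        Int.toNat_of_nonneg (by omega), Int.modEq_iff_dvd]
      have := h y hy x hx
      simpa using this
    have h2 : (x - A).toNat = (y - A).toNat := by
      rw [← Nat.mod_add_div (x - A).toNat q, ← Nat.mod_add_div (y - A).toNat q, h1, hxy]
    omega

variable {Q : ℤ[X]} {p : ℕ}

/-- The roots modulo `p²`. -/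
def rootsSq (Q : ℤ[X]) (p : ℕ) [NeZero p] : Finset (ZMod (p ^ 2)) :=
  Finset.univ.filter fun t => (Q.map (Int.castRingHom (ZMod (p ^ 2)))).eval t = 0

lemma card_rootsSq_le (hp : p.Prime) [NeZero p] (hdeg : Q.natDegree ≤ 4)
    (hlead : ¬ (p : ℤ) ∣ Q.coeff 4) {A B : ℤ[X]} {R : ℤ} (hR : A * Q + B * derivative Q = C R)
    (hpR : ¬ (p : ℤ) ∣ R) : (rootsSq Q p).card ≤ 4 := by
  classical
  have : Fact p.Prime := ⟨hp⟩
  set φ := Int.castRingHom (ZMod (p ^ 2))
  set π := ZMod.castHom (dvd_pow_self p two_ne_zero) (ZMod p)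
  set Qp := Q.map (Int.castRingHom (ZMod p))
  have hQp : Qp ≠ 0 := fun h => hlead (by
    have := congrArg (fun f : (ZMod p)[X] => f.coeff 4) h
    simp only [Qp, coeff_map, coeff_zero, eq_intCast] at this
    exact (ZMod.intCast_zmod_eq_zero_iff_dvd _ _).mp this)
  have hcard : Qp.roots.toFinset.card ≤ 4 :=
    (Multiset.toFinset_card_le _).trans ((card_roots' _).trans (natDegree_map_le.trans hdeg))
  refine le_trans (Finset.card_le_card_of_injOn (t := Qp.roots.toFinset) π (fun t ht => ?_) ?_) hcard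
  · simp only [rootsSq, Finset.mem_coe, Finset.mem_filter] at ht
    simp only [Finset.mem_coe, Multiset.mem_toFinset, mem_roots hQp, IsRoot]
    have hc : π.comp φ = Int.castRingHom (ZMod p) := RingHom.ext_int _ _
    have h := congrArg π ht.2
    rw [map_zero, eval_map, hom_eval₂, hc, ← eval_map] at h
    exact h
  · intro t ht t' ht' he
    simp only [rootsSq, Finset.mem_coe, Finset.mem_filter] at ht ht'
    set F := Q.map φ with hF
    obtain ⟨k, hk⟩ : ∃ k : ZMod (p ^ 2), t' - t = (p : ZMod (p ^ 2)) * k := by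
      obtain ⟨z, hz⟩ := ZMod.intCast_surjective (t' - t)
      have h0 : π (t' - t) = 0 := by rw [map_sub, he, sub_self]
      rw [← hz, map_intCast, ZMod.intCast_zmod_eq_zero_iff_dvd] at h0
      obtain ⟨c, rfl⟩ := h0
      exact ⟨(c : ZMod (p ^ 2)), by rw [← hz]; push_cast; ring⟩
    have hp2 : (p : ZMod (p ^ 2)) ^ 2 = 0 := by
      rw [← Nat.cast_pow, ZMod.natCast_self]
    obtain ⟨w, hw⟩ := binomExpansion F t (t' - t)
    rw [add_sub_cancel, ht.2, ht'.2, zero_add, hk, mul_pow, hp2, zero_mul, mul_zero, add_zero] at hw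
    have hu : IsUnit ((derivative F).eval t) := by
      have h := congrArg (fun f : ℤ[X] => (f.map φ).eval t) hR
      simp only [Polynomial.map_add, Polynomial.map_mul, eval_add, eval_mul, map_C, eval_C] at h
      rw [← derivative_map, ← hF, ht.2, mul_zero, zero_add] at h
      refine isUnit_of_mul_isUnit_right (h.symm ▸ ?_ : IsUnit ((B.map φ).eval t * _))
      have hcop : IsCoprime R ((p : ℤ) ^ 2) :=
        (((Nat.prime_iff_prime_int.mp hp).coprime_iff_not_dvd).mpr hpR).symm.pow_right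
      obtain ⟨x, y, hxy⟩ := hcop
      refine ⟨⟨φ R, φ x, ?_, ?_⟩, rfl⟩ <;>
      · have h2 := congrArg φ hxy
        simp only [map_add, map_mul, map_pow, map_one] at h2
        rw [show φ (p : ℤ) = (p : ZMod (p ^ 2)) by simp [φ], hp2, mul_zero, add_zero] at h2
        first | exact h2 | rwa [mul_comm] at h2
    have := (hu.mul_right_eq_zero).mp hw.symm
    rw [this] at hk
    exact (sub_eq_zero.mp hk).symm

lemma mem_rootsSq (hp : p.Prime) [NeZero p] (hdeg : Q.natDegree ≤ 4) {a b : ℤ}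
    (hb : ¬ (p : ℤ) ∣ b) (h : (p : ℤ) ^ 2 ∣ qform Q a b) :
    ∃ t ∈ rootsSq Q p, (a : ZMod (p ^ 2)) = t * (b : ZMod (p ^ 2)) := by
  obtain ⟨x, y, hxy⟩ : IsCoprime b ((p : ℤ) ^ 2) :=
    ((((Nat.prime_iff_prime_int.mp hp).coprime_iff_not_dvd).mpr hb).symm.pow_right)
  have hbi : (b : ZMod (p ^ 2)) * (x : ZMod (p ^ 2)) = 1 := by
    have h2 := congrArg (fun z : ℤ => (z : ZMod (p ^ 2))) hxy
    push_cast at h2
    rw [show (p : ZMod (p ^ 2)) ^ 2 = 0 by rw [← Nat.cast_pow, ZMod.natCast_self], mul_zero,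
      add_zero, mul_comm] at h2
    exact h2
  refine ⟨a * x, Finset.mem_filter.mpr ⟨Finset.mem_univ _, ?_⟩, by
    rw [mul_assoc, mul_comm (x : ZMod (p ^ 2)), hbi, mul_one]⟩
  have h0 : (qform Q a b : ℤ) = ((qform Q a b : ℤ) : ℤ) := rfl
  have hz : ((qform Q a b : ℤ) : ZMod (p ^ 2)) = 0 :=
    (ZMod.intCast_zmod_eq_zero_iff_dvd _ _).mpr (by rwa [Nat.cast_pow])
  rw [← eq_intCast (Int.castRingHom (ZMod (p ^ 2))), map_qform, eq_intCast, eq_intCast,
    show (a : ZMod (p ^ 2)) = ((a : ZMod (p ^ 2)) * x) * b by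
      rw [mul_assoc, mul_comm (x : ZMod (p ^ 2)), hbi, mul_one], qform_eq_eval hdeg] at hz
  have hu : IsUnit ((b : ZMod (p ^ 2)) ^ 4) := (IsUnit.of_mul_eq_one _ hbi).pow 4
  exact hu.mul_right_eq_zero.mp hz

/-- Bounded gcd of points of a congruence class. -/
lemma gcd_dvd_of_class {S : Finset ℕ} {M a₀ : ℤ} (ha₀ : a₀ ≠ 0)
    (hMv : ∀ l ∈ S, (l : ℤ) ^ (padicValInt l a₀ + 1) ∣ M) {i b : ℤ}
    (hprim : ∀ l : ℕ, l.Prime → l ∉ S → ¬ ((l : ℤ) ∣ a₀ + M * i ∧ (l : ℤ) ∣ b)) :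
    Int.gcd (a₀ + M * i) b ∣ a₀.natAbs := by
  refine (Nat.dvd_iff_prime_pow_dvd_dvd _ _).mpr fun l k hl hlk => ?_
  rcases Nat.eq_zero_or_pos k with rfl | hk
  · simp
  have hla : (l : ℤ) ^ k ∣ a₀ + M * i := by
    have h := Int.natCast_dvd_natCast.mpr hlk
    push_cast at h
    exact h.trans (Int.gcd_dvd_left _ _)
  have hlS : l ∈ S := by
    by_contra hn
    refine hprim l hl hn ⟨(dvd_pow_self _ hk.ne').trans hla, ?_⟩
    have h := Int.natCast_dvd_natCast.mpr hlk
    push_cast at h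
    exact (dvd_pow_self _ hk.ne').trans (h.trans (Int.gcd_dvd_right _ _))
  have : Fact l.Prime := ⟨hl⟩
  have key : k ≤ padicValInt l a₀ := by
    by_contra hlt
    have h1 : (l : ℤ) ^ (padicValInt l a₀ + 1) ∣ a₀ + M * i :=
      (pow_dvd_pow _ (by omega)).trans hla
    have h2 : (l : ℤ) ^ (padicValInt l a₀ + 1) ∣ a₀ := by
      simpa using dvd_sub h1 (dvd_mul_of_dvd_left (hMv l hlS) i)
    rcases (padicValInt_dvd_iff _ _).mp h2 with h | h
    · exact ha₀ h
    · omega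
  have h3 := (pow_dvd_pow (l : ℤ) key).trans (padicValInt_dvd a₀)
  rw [← Nat.cast_pow] at h3
  exact Int.natCast_dvd.mp h3

/-- The prime counting function is small. -/
lemma eventually_primeCounting_small {ε : ℝ} (hε : 0 < ε) :
    ∀ᶠ n : ℕ in atTop, (Nat.primeCounting n : ℝ) ≤ ε * n := by
  have h := Chebyshev.eventually_primeCounting_le (ε := 1) one_pos
  have hlog : ∀ᶠ x : ℝ in atTop, (Real.log 4 + 1) / ε ≤ Real.log x :=
    Real.tendsto_log_atTop.eventually_ge_atTop _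
  filter_upwards [tendsto_natCast_atTop_atTop.eventually h,
    tendsto_natCast_atTop_atTop.eventually hlog, eventually_gt_atTop 1] with n hn hl hn1
  rw [Nat.floor_natCast] at hn
  refine hn.trans ?_
  have hc : 0 < Real.log 4 + 1 := by have := Real.log_nonneg (show (1 : ℝ) ≤ 4 by norm_num); linarith
  have hlp : 0 < Real.log n := (div_pos hc hε).trans_le hl
  rw [div_le_iff₀ hlp]
  rw [div_le_iff₀ hε] at hl
  nlinarith [hl, (Nat.cast_nonneg n : (0 : ℝ) ≤ n)]

lemma card_primes_le (P : Finset ℕ) (T : ℕ) (h : ∀ p ∈ P, p.Prime ∧ p ≤ T) :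
    P.card ≤ Nat.primeCounting T := by
  rw [← Nat.primesLE_card_eq_primeCounting]
  exact Finset.card_le_card fun p hp =>
    (Nat.mem_primesLE).mpr ⟨(h p hp).2, (h p hp).1⟩

lemma sum_inv_sq_le (P : Finset ℕ) (h : ∀ p ∈ P, 40 < p) :
    ∑ p ∈ P, ((p : ℝ) ^ 2)⁻¹ ≤ 2 / 41 := by
  obtain ⟨m, hm⟩ := P.exists_nat_subset_range
  have hsub : P ⊆ Finset.Ioo 40 m := fun p hp =>
    Finset.mem_Ioo.mpr ⟨h p hp, Finset.mem_range.mp (hm hp)⟩
  refine (Finset.sum_le_sum_of_subset_of_nonneg hsub fun i _ _ => by positivity).trans ?_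
  have := sum_Ioo_inv_sq_le (α := ℝ) 40 m
  norm_num at this ⊢
  exact this

set_option maxHeartbeats 3200000 in
/-- **The squarefree sieve.** -/
theorem exists_sqfree_value (Q : ℤ[X]) (hdeg : Q.natDegree ≤ 4) (S : Finset ℕ)
    (hsmall : ∀ p : ℕ, p.Prime → p ≤ 40 → p ∈ S)
    (hlead : ∀ p : ℕ, p.Prime → p ∉ S → ¬ (p : ℤ) ∣ Q.coeff 4)
    {A B : ℤ[X]} {R : ℤ} (hR : A * Q + B * derivative Q = C R)
    (hpR : ∀ p : ℕ, p.Prime → p ∉ S → ¬ (p : ℤ) ∣ R)
    (M : ℕ) (hM : 0 < M) (hMS : ∀ p : ℕ, p.Prime → p ∣ M → p ∈ S) (a₀ b₀ : ℤ) (ha₀ : a₀ ≠ 0)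
    (hMv : ∀ p ∈ S, (p : ℤ) ^ (padicValInt p a₀ + 1) ∣ (M : ℤ))
    (u w : ℤ) (hw : 0 < w) (K : ℕ) :
    ∃ a b i j : ℤ, a = a₀ + M * i ∧ b = b₀ + M * j ∧ 0 < b ∧ (K : ℤ) * |a * w - b * u| ≤ b * w ∧
      ∀ p : ℕ, p.Prime → p ∉ S → ¬ (p : ℤ) ^ 2 ∣ qform Q a b := by
  classical
  -- the cone
  obtain ⟨k, hk⟩ : ∃ k : ℕ, k = K * (|u|.toNat + w.toNat + 1) + 1 := ⟨_, rfl⟩
  set α : ℤ := k * u with hα
  set β : ℤ := k * w with hβ
  set G := a₀.natAbs with hG
  set C₁ : ℕ := a₀.natAbs + b₀.natAbs + M * (α.natAbs + β.natAbs + 1) with hC₁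
  set CF : ℕ := (∑ i ∈ Finset.range 5, (Q.coeff i).natAbs) * C₁ ^ 4 + 1 with hCF
  obtain ⟨p₀, hp₀, hp₀S⟩ : ∃ p₀ : ℕ, p₀.Prime ∧ p₀ ∉ S := by
    by_contra hcon
    push Not at hcon
    exact Nat.infinite_setOfPred_prime (S.finite_toSet.subset fun p hp => hcon p hp)
  set δ : ℝ := 1 / (100 * (C₁ + 1) * (G + 1) * (CF + 1)) with hδ
  have hδ0 : 0 < δ := by positivity
  obtain ⟨N₀, hN₀⟩ := eventually_atTop.mp (eventually_primeCounting_small hδ0)
  set cst : ℕ := K * (a₀.natAbs * w.toNat + b₀.natAbs * u.natAbs) + b₀.natAbs * w.toNat + 1 with hcst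
  obtain ⟨N, hN, hNp, hNc, hN4⟩ : ∃ N : ℕ, N₀ ≤ N ∧ p₀ ≤ N ∧ cst + b₀.natAbs + 1 ≤ N ∧ 100 ≤ N :=
    ⟨N₀ + p₀ + cst + b₀.natAbs + 1 + 100, by omega, by omega, by omega, by omega⟩
  set T : ℕ := 2 * C₁ * N with hT
  set BN : ℕ := CF * N ^ 2 with hBN
  set pt := Finset.Ico (α * N) (α * N + N) ×ˢ Finset.Ico (β * N) (β * N + N) with hpt
  set av : ℤ → ℤ := fun i => a₀ + M * i with hav
  set bv : ℤ → ℤ := fun j => b₀ + M * j with hbv
  -- bounds
  have hbd : ∀ x ∈ pt, |av x.1| ≤ (C₁ * N : ℕ) ∧ |bv x.2| ≤ (C₁ * N : ℕ) ∧ 0 < bv x.2 ∧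
      (K : ℤ) * |av x.1 * w - bv x.2 * u| ≤ bv x.2 * w := by
    rintro ⟨i, j⟩ hx
    simp only [hpt, Finset.mem_product, Finset.mem_Ico] at hx
    obtain ⟨⟨hi1, hi2⟩, hj1, hj2⟩ := hx
    have hN1 : (1 : ℤ) ≤ N := by omega
    have hM1 : (1 : ℤ) ≤ M := by omega
    have gen : ∀ (c γ : ℤ) (i : ℤ), γ * N ≤ i → i < γ * N + N →
        |c + M * i| ≤ (c.natAbs : ℤ) * N + M * (|γ| + 1) * N := fun c γ i h1 h2 => by
      refine (abs_add_le _ _).trans (add_le_add ?_ ?_)
      · rw [← Int.natCast_natAbs]; exact le_mul_of_one_le_right (by positivity) hN1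
      · rw [abs_mul, Nat.abs_cast, mul_assoc]
        refine mul_le_mul_of_nonneg_left (abs_le.mpr ⟨?_, ?_⟩) (by positivity) <;>
          nlinarith [le_abs_self γ, neg_abs_le γ]
    have e1 : ((C₁ * N : ℕ) : ℤ) = ((a₀.natAbs : ℤ) + b₀.natAbs + M * (|α| + |β| + 1)) * N := by
      simp [hC₁]
    have A1 : (0 : ℤ) ≤ b₀.natAbs := by positivity
    have A2 : (0 : ℤ) ≤ a₀.natAbs := by positivity
    have hb0' : -(b₀.natAbs : ℤ) ≤ b₀ := by omega
    have hjlow : (k : ℤ) * w * N ≤ j := hj1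
    have hk1 : (1 : ℤ) ≤ k := by exact_mod_cast (show 1 ≤ k by omega)
    have hbpos : 0 < bv j := by
      simp only [hbv]
      have : (M : ℤ) * ((k : ℤ) * w * N) ≤ M * j := mul_le_mul_of_nonneg_left hjlow (by positivity)
      have h2 : (N : ℤ) ≤ M * ((k : ℤ) * w * N) := by
        rw [show (M : ℤ) * ((k : ℤ) * w * N) = ((M : ℤ) * k * w) * N by ring]
        exact le_mul_of_one_le_left (by positivity) (by
          nlinarith [mul_le_mul hM1 hk1 zero_le_one (by positivity)])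
      omega
    refine ⟨?_, ?_, hbpos, ?_⟩
    · refine (gen a₀ α i hi1 hi2).trans ?_
      rw [e1]
      nlinarith [mul_nonneg A1 (by positivity : (0 : ℤ) ≤ N),
        mul_nonneg (mul_nonneg (by positivity : (0 : ℤ) ≤ M) (abs_nonneg β)) (by positivity : (0 : ℤ) ≤ N)]
    · refine (gen b₀ β j hj1 hj2).trans ?_
      rw [e1]
      nlinarith [mul_nonneg A2 (by positivity : (0 : ℤ) ≤ N),
        mul_nonneg (mul_nonneg (by positivity : (0 : ℤ) ≤ M) (abs_nonneg α)) (by positivity : (0 : ℤ) ≤ N)]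
    · simp only [hav, hbv]
      set i' := i - α * N with hi'
      set j' := j - β * N with hj'
      have e : (a₀ + M * i) * w - (b₀ + M * j) * u = (a₀ * w - b₀ * u) + M * (i' * w - j' * u) := by
        simp only [hi', hj', hα, hβ]; ring
      rw [e]
      have b1 : |a₀ * w - b₀ * u| ≤ (a₀.natAbs : ℤ) * w + b₀.natAbs * |u| := by
        refine (abs_sub _ _).trans ?_
        rw [abs_mul, abs_mul, Int.natCast_natAbs, Int.natCast_natAbs, abs_of_pos hw]
      have b2 : |i' * w - j' * u| ≤ (N : ℤ) * (w + |u|) := by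
        refine (abs_sub _ _).trans ?_
        rw [abs_mul, abs_mul, abs_of_nonneg (by omega : 0 ≤ i'), abs_of_nonneg (by omega : 0 ≤ j'),
          abs_of_pos hw, mul_add]
        exact add_le_add (mul_le_mul_of_nonneg_right (by omega) hw.le)
          (mul_le_mul_of_nonneg_right (by omega) (abs_nonneg u))
      have hcK : (K : ℤ) * ((a₀.natAbs : ℤ) * w + b₀.natAbs * |u|) + b₀.natAbs * w ≤ N := by
        have h : ((K * (a₀.natAbs * w.toNat + b₀.natAbs * u.natAbs) + b₀.natAbs * w.toNat : ℕ) : ℤ)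
            ≤ (N : ℤ) := by
          exact_mod_cast (show K * (a₀.natAbs * w.toNat + b₀.natAbs * u.natAbs) +
            b₀.natAbs * w.toNat ≤ N by omega)
        push_cast [Int.toNat_of_nonneg hw.le] at h
        simpa using h
      have hk' : (k : ℤ) = K * (|u| + w + 1) + 1 := by
        rw [hk]; push_cast [Int.toNat_of_nonneg hw.le, Int.toNat_of_nonneg (abs_nonneg u)]; rfl
      calc (K : ℤ) * |a₀ * w - b₀ * u + M * (i' * w - j' * u)|
          ≤ K * (((a₀.natAbs : ℤ) * w + b₀.natAbs * |u|) + M * (N * (w + |u|))) := by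
            refine mul_le_mul_of_nonneg_left ((abs_add_le _ _).trans (add_le_add b1 ?_)) (by positivity)
            rw [abs_mul, Nat.abs_cast]
            exact mul_le_mul_of_nonneg_left b2 (by positivity)
        _ ≤ (b₀ + M * j) * w := by
            have q1 : (M : ℤ) * ((k : ℤ) * w * N) * w ≤ M * j * w :=
              mul_le_mul_of_nonneg_right (mul_le_mul_of_nonneg_left hjlow (by positivity)) hw.le
            have q2 : (M : ℤ) * ((k : ℤ) * N) ≤ M * ((k : ℤ) * w * N) * w := by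
              rw [show (M : ℤ) * ((k : ℤ) * w * N) * w = M * ((k : ℤ) * N) * (w * w) by ring]
              exact le_mul_of_one_le_right (by positivity)
                (one_le_mul_of_one_le_of_one_le (by omega) (by omega))
            have q3 : (K : ℤ) * (M * (N * (w + |u|))) + N ≤ M * ((k : ℤ) * N) := by
              rw [hk']
              have n1 : (0 : ℤ) ≤ (M : ℤ) * K * N := by positivity
              have n2 : (N : ℤ) ≤ M * N := le_mul_of_one_le_left (by positivity) hM1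
              linarith
            have q4 := mul_le_mul_of_nonneg_right hb0' hw.le
            linarith
  -- the exceptional points
  set P₁ := (Finset.range (C₁ * N + 1)).filter fun p => p.Prime ∧ p ∉ S with hP₁
  set P₂ := (Finset.range (T + 1)).filter fun p => p.Prime ∧ p ∉ S with hP₂
  set P₃ := (Finset.Ioc T BN).filter fun p => p.Prime ∧ p ∉ S with hP₃
  set E₁ : ℕ → Finset (ℤ × ℤ) := fun p =>
    pt.filter fun x => (p : ℤ) ∣ av x.1 ∧ (p : ℤ) ∣ bv x.2 with hE₁
  set E₂ : ℕ → Finset (ℤ × ℤ) := fun p =>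
    pt.filter fun x => ¬ (p : ℤ) ∣ bv x.2 ∧ (p : ℤ) ^ 2 ∣ qform Q (av x.1) (bv x.2) with hE₂
  set E₃ : ℕ → Finset (ℤ × ℤ) := fun p =>
    (E₂ p).filter fun x => ∀ l : ℕ, l.Prime → l ∉ S → ¬ ((l : ℤ) ∣ av x.1 ∧ (l : ℤ) ∣ bv x.2) with hE₃
  have h40 : ∀ p : ℕ, p.Prime → p ∉ S → 40 < p := fun p hp hS => by
    by_contra h; exact hS (hsmall p hp (by omega))
  have hMu : ∀ p : ℕ, p.Prime → p ∉ S → ∀ k : ℕ, ∀ x y : ℤ,
      ((p : ℤ) ^ k ∣ M * (x - y)) → (p : ℤ) ^ k ∣ x - y := fun p hp hS k x y h =>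
    (IsCoprime.pow_left (((Nat.prime_iff_prime_int.mp hp).coprime_iff_not_dvd).mpr
      fun hd => hS (hMS p hp (Int.natCast_dvd_natCast.mp hd)))).dvd_of_dvd_mul_left h
  have c1 : ∀ p ∈ P₁, ((E₁ p).card : ℝ) ≤ 2 * (N : ℝ) ^ 2 * ((p : ℝ) ^ 2)⁻¹ + 2 := by
    intro p hp
    obtain ⟨hp', hpS⟩ := (Finset.mem_filter.mp hp).2
    set I := (Finset.Ico (α * N) (α * N + N)).filter fun i => (p : ℤ) ∣ av i
    set J := (Finset.Ico (β * N) (β * N + N)).filter fun j => (p : ℤ) ∣ bv j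
    have hI : I.card ≤ N / p + 1 := card_congr_le hp'.pos (Finset.filter_subset _ _) fun x hx y hy => by
      have h := dvd_sub (Finset.mem_filter.mp hx).2 (Finset.mem_filter.mp hy).2
      have := hMu p hp' hpS 1 x y (by simpa [hav, mul_sub] using h)
      simpa using this
    have hJ : J.card ≤ N / p + 1 := card_congr_le hp'.pos (Finset.filter_subset _ _) fun x hx y hy => by
      have h := dvd_sub (Finset.mem_filter.mp hx).2 (Finset.mem_filter.mp hy).2
      have := hMu p hp' hpS 1 x y (by simpa [hbv, mul_sub] using h)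
      simpa using this
    have h : (E₁ p).card ≤ (N / p + 1) * (N / p + 1) := by
      refine le_trans (Finset.card_le_card (t := I ×ˢ J) fun x hx => ?_)
        ((Finset.card_product _ _).trans_le (Nat.mul_le_mul hI hJ))
      simp only [hE₁, hpt, Finset.mem_filter, Finset.mem_product] at hx
      simp only [I, J, Finset.mem_product, Finset.mem_filter]
      exact ⟨⟨hx.1.1, hx.2.1⟩, hx.1.2, hx.2.2⟩
    have h' : ((E₁ p).card : ℝ) ≤ ((N : ℝ) / p + 1) * ((N : ℝ) / p + 1) := by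
      refine (Nat.cast_le.mpr h).trans ?_
      push_cast
      gcongr <;> exact Nat.cast_div_le
    refine h'.trans ?_
    rw [← div_eq_mul_inv]
    have : 2 * (N : ℝ) ^ 2 / (p : ℝ) ^ 2 = 2 * ((N : ℝ) / p) ^ 2 := by ring
    rw [this]
    nlinarith [sq_nonneg ((N : ℝ) / p - 1)]
  have hline : ∀ p : ℕ, p.Prime → p ∉ S → ∀ x ∈ E₂ p, ∀ hne : NeZero p,
      ∃ t ∈ @rootsSq Q p hne, ((av x.1 : ℤ) : ZMod (p ^ 2)) = t * (bv x.2 : ZMod (p ^ 2)) := by
    intro p hp hpS x hx hne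
    simp only [hE₂, Finset.mem_filter] at hx
    exact mem_rootsSq hp hdeg hx.2.1 hx.2.2
  have c2 : ∀ p ∈ P₂, ((E₂ p).card : ℝ) ≤ 4 * (N : ℝ) ^ 2 * ((p : ℝ) ^ 2)⁻¹ + 4 * N := by
    intro p hp
    obtain ⟨hp', hpS⟩ := (Finset.mem_filter.mp hp).2
    have hne : NeZero p := ⟨hp'.ne_zero⟩
    have hp2 : 0 < p ^ 2 := pow_pos hp'.pos 2
    have h : (E₂ p).card ≤ (rootsSq Q p).card * (N * (N / p ^ 2 + 1)) := by
      set L : ZMod (p ^ 2) → Finset (ℤ × ℤ) := fun t =>
        pt.filter fun x => ((av x.1 : ℤ) : ZMod (p ^ 2)) = t * (bv x.2 : ZMod (p ^ 2))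
      refine le_trans (Finset.card_le_card (t := (rootsSq Q p).biUnion L) fun x hx => ?_) ?_
      · obtain ⟨t, ht, hxt⟩ := hline p hp' hpS x hx hne
        exact Finset.mem_biUnion.mpr
          ⟨t, ht, Finset.mem_filter.mpr ⟨(Finset.mem_filter.mp hx).1, hxt⟩⟩
      refine Finset.card_biUnion_le_card_mul _ _ _ fun t _ => ?_
      have hJc : (Finset.Ico (β * N) (β * N + N)).card = N := by simp
      refine le_trans (Finset.card_le_mul_card_image (f := Prod.snd) (n := N / p ^ 2 + 1) _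
        fun j hj => ?_) ?_
      · set s := (L t).filter fun x => x.2 = j
        rw [show ((L t).filter fun x => x.2 = j).card = (s.image Prod.fst).card from
          (Finset.card_image_of_injOn fun x hx y hy h => Prod.ext h
            ((Finset.mem_filter.mp hx).2.trans (Finset.mem_filter.mp hy).2.symm)).symm]
        refine card_congr_le hp2 (A := α * N) (fun i hi => ?_) fun i hi i' hi' => ?_
        · obtain ⟨x, hx, rfl⟩ := Finset.mem_image.mp hi
          have := (Finset.mem_filter.mp (Finset.mem_filter.mp hx).1).1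
          simp only [hpt, Finset.mem_product] at this
          exact this.1
        · obtain ⟨x, hx, rfl⟩ := Finset.mem_image.mp hi
          obtain ⟨y, hy, rfl⟩ := Finset.mem_image.mp hi'
          have e := ((Finset.mem_filter.mp (Finset.mem_filter.mp hy).1).2)
          have e' := ((Finset.mem_filter.mp (Finset.mem_filter.mp hx).1).2)
          rw [(Finset.mem_filter.mp hy).2, ← (Finset.mem_filter.mp hx).2, ← e',
            ZMod.intCast_eq_intCast_iff_dvd_sub] at e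
          push_cast
          refine hMu p hp' hpS 2 _ _ ?_
          simpa [hav, mul_sub] using e
      · rw [mul_comm]
        refine Nat.mul_le_mul ((Finset.card_le_card fun j hj => ?_).trans hJc.le) le_rfl
        obtain ⟨x, hx, rfl⟩ := Finset.mem_image.mp hj
        have := (Finset.mem_filter.mp hx).1
        simp only [hpt, Finset.mem_product] at this
        exact this.2
    have h' : (E₂ p).card ≤ 4 * (N * (N / p ^ 2 + 1)) :=
      h.trans (Nat.mul_le_mul_right _ (card_rootsSq_le hp' hdeg (hlead p hp' hpS) hR (hpR p hp' hpS)))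
    refine (Nat.cast_le.mpr h').trans ?_
    push_cast
    have h1 : ((N / p ^ 2 : ℕ) : ℝ) ≤ (N : ℝ) * ((p : ℝ) ^ 2)⁻¹ := by
      rw [← div_eq_mul_inv]
      exact Nat.cast_div_le.trans (le_of_eq (by push_cast; rfl))
    nlinarith [mul_le_mul_of_nonneg_left h1 (show (0 : ℝ) ≤ 4 * N by positivity)]
  have c3 : ∀ p ∈ P₃, ((E₃ p).card : ℝ) ≤ 4 * G := by
    intro p hp
    obtain ⟨hp', hpS⟩ := (Finset.mem_filter.mp hp).2
    have hpT := (Finset.mem_Ioc.mp (Finset.mem_filter.mp hp).1).1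
    have hne : NeZero p := ⟨hp'.ne_zero⟩
    set L : ZMod (p ^ 2) → Finset (ℤ × ℤ) := fun t =>
      (E₃ p).filter fun x => ((av x.1 : ℤ) : ZMod (p ^ 2)) = t * (bv x.2 : ZMod (p ^ 2))
    have h : (E₃ p).card ≤ 4 * G := by
      refine le_trans (Finset.card_le_card (t := (rootsSq Q p).biUnion L) fun x hx => ?_) ?_
      · obtain ⟨t, ht, hxt⟩ := hline p hp' hpS x (Finset.mem_filter.mp hx).1 hne
        exact Finset.mem_biUnion.mpr ⟨t, ht, Finset.mem_filter.mpr ⟨hx, hxt⟩⟩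
      refine (Finset.card_biUnion_le_card_mul _ _ G fun t _ => ?_).trans
        (Nat.mul_le_mul_right _ (card_rootsSq_le hp' hdeg (hlead p hp' hpS) hR (hpR p hp' hpS)))
      rw [show G = (Finset.Icc 1 G).card by simp]
      refine Finset.card_le_card_of_injOn (fun x => Int.gcd (av x.1) (bv x.2)) (fun x hx => ?_) ?_
      · have hx3 := Finset.mem_filter.mp (Finset.mem_filter.mp (Finset.mem_coe.mp hx)).1
        have hpx := (Finset.mem_filter.mp hx3.1).1
        simp only [Finset.coe_Icc, Set.mem_Icc]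
        exact ⟨Nat.one_le_iff_ne_zero.mpr fun h0 => (hbd x hpx).2.2.1.ne' (Int.gcd_eq_zero_iff.mp h0).2,
          Nat.le_of_dvd (Int.natAbs_pos.mpr ha₀) (gcd_dvd_of_class ha₀ hMv hx3.2)⟩
      · intro x hx y hy hg
        obtain ⟨hx3, ex⟩ := Finset.mem_filter.mp (Finset.mem_coe.mp hx)
        obtain ⟨hy3, ey⟩ := Finset.mem_filter.mp (Finset.mem_coe.mp hy)
        obtain ⟨ha, hb, hbp, -⟩ := hbd x (Finset.mem_filter.mp (Finset.mem_filter.mp hx3).1).1
        obtain ⟨ha', hb', hbp', -⟩ := hbd y (Finset.mem_filter.mp (Finset.mem_filter.mp hy3).1).1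
        simp only at hg
        have hd : av x.1 * bv y.2 - av y.1 * bv x.2 = 0 := by
          refine Int.eq_zero_of_abs_lt_dvd (m := ((p ^ 2 : ℕ) : ℤ)) ?_ ?_
          · rw [← ZMod.intCast_zmod_eq_zero_iff_dvd]
            push_cast
            rw [ex, ey]
            ring
          · have hp2 : ((T : ℕ) : ℤ) ^ 2 < ((p ^ 2 : ℕ) : ℤ) := by
              exact_mod_cast Nat.pow_lt_pow_left hpT two_ne_zero
            have q1 : |av x.1 * bv y.2| ≤ ((C₁ * N : ℕ) : ℤ) * (C₁ * N : ℕ) :=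
              (abs_mul _ _).trans_le (mul_le_mul ha hb' (abs_nonneg _) (by positivity))
            have q2 : |av y.1 * bv x.2| ≤ ((C₁ * N : ℕ) : ℤ) * (C₁ * N : ℕ) :=
              (abs_mul _ _).trans_le (mul_le_mul ha' hb (abs_nonneg _) (by positivity))
            refine lt_of_le_of_lt ((abs_sub _ _).trans ((add_le_add q1 q2).trans ?_)) hp2
            rw [hT]; push_cast; nlinarith [sq_nonneg ((C₁ : ℤ) * N)]
        rw [sub_eq_zero] at hd
        have hb2 : bv x.2 = bv y.2 := by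
          have e1 := Int.natAbs_mul (av x.1) (bv y.2)
          have e2 := Int.natAbs_mul (av y.1) (bv x.2)
          rw [hd] at e1
          have e3 : (av x.1).natAbs * (bv y.2).natAbs = (av y.1).natAbs * (bv x.2).natAbs :=
            e1.symm.trans e2
          have k1 := Nat.gcd_mul_right (av x.1).natAbs (bv y.2).natAbs (bv x.2).natAbs
          rw [e3, mul_comm (bv x.2).natAbs, Nat.gcd_mul_right] at k1
          simp only [Int.gcd] at hg
          rw [hg, mul_comm (Nat.gcd (av y.1).natAbs (bv y.2).natAbs)] at k1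
          have hgpos : 0 < Nat.gcd (av y.1).natAbs (bv y.2).natAbs :=
            Nat.gcd_pos_of_pos_right _ (by omega)
          have k2 := Nat.eq_of_mul_eq_mul_right hgpos (k1.trans (mul_comm _ _))
          omega
        have ha2 : av x.1 = av y.1 := by
          rw [hb2] at hd
          exact mul_right_cancel₀ hbp'.ne' hd
        have hMne : (M : ℤ) ≠ 0 := by omega
        simp only [hav, hbv] at ha2 hb2
        exact Prod.ext (mul_left_cancel₀ hMne (add_left_cancel ha2))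
          (mul_left_cancel₀ hMne (add_left_cancel hb2))
    exact_mod_cast h
  -- totals
  set bad := (P₁.biUnion E₁ ∪ P₂.biUnion E₂) ∪ P₃.biUnion E₃ with hbad
  have hC1pos : 1 ≤ C₁ := by
    rw [hC₁]
    have : 1 ≤ M * (α.natAbs + β.natAbs + 1) := Nat.mul_pos hM (by omega)
    omega
  have hNB : N ≤ BN := by
    rw [hBN]
    exact (Nat.le_self_pow two_ne_zero N).trans (Nat.le_mul_of_pos_left _ (by rw [hCF]; positivity))
  have hlt : bad.card < pt.card := by
    have hptc : pt.card = N * N := by simp [hpt]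
    rw [hptc, ← Nat.cast_lt (α := ℝ)]
    push_cast
    have hNT : N ≤ T := by rw [hT]; nlinarith
    have hπT := hN₀ T (hN.trans hNT)
    have hπ1 : (P₁.card : ℝ) ≤ δ * T := (Nat.cast_le.mpr (card_primes_le P₁ T fun p hp => by
      obtain ⟨h1, h2, -⟩ := Finset.mem_filter.mp hp
      exact ⟨h2, by rw [Finset.mem_range] at h1; rw [hT]; nlinarith⟩)).trans hπT
    have hπ2 : (P₂.card : ℝ) ≤ δ * T := (Nat.cast_le.mpr (card_primes_le P₂ T fun p hp => by
      obtain ⟨h1, h2, -⟩ := Finset.mem_filter.mp hp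
      exact ⟨h2, by rw [Finset.mem_range] at h1; omega⟩)).trans hπT
    have hπ3 : (P₃.card : ℝ) ≤ δ * BN := (Nat.cast_le.mpr (card_primes_le P₃ BN fun p hp => by
      obtain ⟨h1, h2, -⟩ := Finset.mem_filter.mp hp
      exact ⟨h2, (Finset.mem_Ioc.mp h1).2⟩)).trans (hN₀ BN (hN.trans hNB))
    have s1 : (∑ p ∈ P₁, ((E₁ p).card : ℝ)) ≤ 4 / 41 * (N : ℝ) ^ 2 + 2 * (δ * T) := by
      refine (Finset.sum_le_sum c1).trans ?_
      rw [Finset.sum_add_distrib, ← Finset.mul_sum, Finset.sum_const, nsmul_eq_mul]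
      have := sum_inv_sq_le P₁ fun p hp =>
        h40 p (Finset.mem_filter.mp hp).2.1 (Finset.mem_filter.mp hp).2.2
      have h2 := mul_le_mul_of_nonneg_left this (show (0 : ℝ) ≤ 2 * (N : ℝ) ^ 2 by positivity)
      nlinarith
    have s2 : (∑ p ∈ P₂, ((E₂ p).card : ℝ)) ≤ 8 / 41 * (N : ℝ) ^ 2 + 4 * N * (δ * T) := by
      refine (Finset.sum_le_sum c2).trans ?_
      rw [Finset.sum_add_distrib, ← Finset.mul_sum, Finset.sum_const, nsmul_eq_mul]
      have := sum_inv_sq_le P₂ fun p hp =>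
        h40 p (Finset.mem_filter.mp hp).2.1 (Finset.mem_filter.mp hp).2.2
      have h2 := mul_le_mul_of_nonneg_left this (show (0 : ℝ) ≤ 4 * (N : ℝ) ^ 2 by positivity)
      have h3 := mul_le_mul_of_nonneg_left hπ2 (show (0 : ℝ) ≤ 4 * (N : ℝ) by positivity)
      nlinarith
    have s3 : (∑ p ∈ P₃, ((E₃ p).card : ℝ)) ≤ 4 * G * (δ * BN) := by
      refine (Finset.sum_le_sum c3).trans ?_
      rw [Finset.sum_const, nsmul_eq_mul, mul_comm]
      exact mul_le_mul_of_nonneg_left hπ3 (by positivity)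
    have hb : (bad.card : ℝ) ≤ (∑ p ∈ P₁, ((E₁ p).card : ℝ)) + (∑ p ∈ P₂, ((E₂ p).card : ℝ)) +
        ∑ p ∈ P₃, ((E₃ p).card : ℝ) := by
      have h := (Finset.card_union_le _ _).trans (add_le_add ((Finset.card_union_le _ _).trans
        (add_le_add (Finset.card_biUnion_le (s := P₁) (t := E₁))
          (Finset.card_biUnion_le (s := P₂) (t := E₂)))) (Finset.card_biUnion_le (s := P₃) (t := E₃)))
      exact_mod_cast h
    -- numerical bounds
    have d1 : δ * ((C₁ : ℝ) + 1) ≤ 1 / 100 ∧ (G : ℝ) * (δ * CF) ≤ 1 / 100 := by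
      have hden : (0 : ℝ) < 100 * (C₁ + 1) * (G + 1) * (CF + 1) := by positivity
      have g0 : (0 : ℝ) ≤ G := Nat.cast_nonneg G
      have f0 : (0 : ℝ) ≤ CF := Nat.cast_nonneg CF
      have c0 : (0 : ℝ) ≤ C₁ := Nat.cast_nonneg C₁
      constructor
      · rw [hδ, one_div_mul_eq_div, div_le_iff₀ hden]
        nlinarith [mul_nonneg g0 f0, mul_nonneg c0 g0, mul_nonneg c0 f0, mul_nonneg (mul_nonneg c0 g0) f0]
      · rw [hδ, ← mul_assoc, mul_one_div, div_mul_eq_mul_div, div_le_iff₀ hden]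
        nlinarith [mul_nonneg g0 f0, mul_nonneg c0 g0, mul_nonneg c0 f0, mul_nonneg (mul_nonneg c0 g0) f0]
    have hTR : (T : ℝ) = 2 * C₁ * N := by rw [hT]; push_cast; ring
    have hBR : (BN : ℝ) = CF * (N : ℝ) ^ 2 := by rw [hBN]; push_cast; ring
    rw [hTR] at s1 s2
    rw [hBR] at s3
    have hNR : (100 : ℝ) ≤ N := by exact_mod_cast hN4
    have hδC : δ * (C₁ : ℝ) ≤ 1 / 100 := by nlinarith [d1.1]
    have t1 : 2 * (δ * (2 * (C₁ : ℝ) * N)) ≤ 4 / 100 * (N : ℝ) := by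
      nlinarith [mul_le_mul_of_nonneg_right hδC (show (0 : ℝ) ≤ N by positivity)]
    have t2 : 4 * (N : ℝ) * (δ * (2 * C₁ * N)) ≤ 8 / 100 * (N : ℝ) ^ 2 := by
      nlinarith [mul_le_mul_of_nonneg_right hδC (show (0 : ℝ) ≤ (N : ℝ) ^ 2 by positivity)]
    have t3 : 4 * (G : ℝ) * (δ * (CF * (N : ℝ) ^ 2)) ≤ 4 / 100 * (N : ℝ) ^ 2 := by
      nlinarith [mul_le_mul_of_nonneg_right d1.2 (show (0 : ℝ) ≤ (N : ℝ) ^ 2 by positivity)]
    nlinarith
  obtain ⟨x, hx, hxb⟩ : ∃ x ∈ pt, x ∉ bad := by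
    by_contra hcon
    push Not at hcon
    exact absurd (Finset.card_le_card hcon) (not_le.mpr hlt)
  obtain ⟨ha, hb, hbp, hcone⟩ := hbd x hx
  refine ⟨av x.1, bv x.2, x.1, x.2, rfl, rfl, hbp, hcone, ?_⟩
  simp only [hbad, Finset.mem_union, Finset.mem_biUnion, not_or, not_exists, not_and] at hxb
  have hnot : ∀ p : ℕ, p.Prime → p ∉ S → p ≤ BN → ¬ (p : ℤ) ^ 2 ∣ qform Q (av x.1) (bv x.2) := by
    intro p hp hpS hpB hdiv
    have hprim : ∀ l : ℕ, l.Prime → l ∉ S → ¬ ((l : ℤ) ∣ av x.1 ∧ (l : ℤ) ∣ bv x.2) := by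
      rintro l hl hlS hd
      have hle : l ≤ C₁ * N := by
        have := Int.le_of_dvd hbp hd.2
        rw [abs_of_pos hbp] at hb
        exact_mod_cast this.trans hb
      exact hxb.1.1 l (Finset.mem_filter.mpr ⟨Finset.mem_range.mpr (Nat.lt_succ_of_le hle), hl, hlS⟩)
        (Finset.mem_filter.mpr ⟨hx, hd⟩)
    have hnb : ¬ (p : ℤ) ∣ bv x.2 := fun hd => by
      refine hprim p hp hpS ⟨?_, hd⟩
      have h1 : (p : ℤ) ∣ qform Q (av x.1) (bv x.2) := (dvd_pow_self _ two_ne_zero).trans hdiv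
      have h2 : (p : ℤ) ∣ Q.coeff 4 * av x.1 ^ 4 := by
        simp only [qform, Finset.sum_range_succ, Finset.range_zero, Finset.sum_empty, zero_add,
          show (4 : ℕ) - 4 = 0 from rfl, pow_zero, mul_one, Int.cast_id] at h1
        refine (dvd_add_right ?_).mp h1
        refine dvd_add (dvd_add (dvd_add ?_ ?_) ?_) ?_ <;>
          exact dvd_mul_of_dvd_right (dvd_pow hd (by norm_num)) _
      exact (Nat.prime_iff_prime_int.mp hp).dvd_of_dvd_pow
        (((Nat.prime_iff_prime_int.mp hp).dvd_or_dvd h2).resolve_left (hlead p hp hpS))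
    have hmem : x ∈ E₂ p := Finset.mem_filter.mpr ⟨hx, hnb, hdiv⟩
    by_cases hpT : p ≤ T
    · exact hxb.1.2 p (Finset.mem_filter.mpr ⟨Finset.mem_range.mpr (Nat.lt_succ_of_le hpT), hp, hpS⟩) hmem
    · exact hxb.2 p (Finset.mem_filter.mpr ⟨Finset.mem_Ioc.mpr ⟨not_le.mp hpT, hpB⟩, hp, hpS⟩)
        (Finset.mem_filter.mpr ⟨hmem, hprim⟩)
  have hp₀B : p₀ ≤ BN := hNp.trans hNB
  intro p hp hpS hdiv
  by_cases hF : qform Q (av x.1) (bv x.2) = 0
  · exact hnot p₀ hp₀ hp₀S hp₀B (hF ▸ dvd_zero _)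
  · refine hnot p hp hpS ?_ hdiv
    have h1 := Int.le_of_dvd (abs_pos.mpr hF) ((dvd_abs _ _).mpr hdiv)
    have h2 : |qform Q (av x.1) (bv x.2)| ≤ ((CF : ℕ) : ℤ) * (N : ℤ) ^ 4 := by
      simp only [qform, Int.cast_id]
      refine (Finset.abs_sum_le_sum_abs _ _).trans ?_
      rw [hCF]
      push_cast
      rw [add_mul, mul_assoc, Finset.sum_mul]
      refine le_add_of_le_of_nonneg (Finset.sum_le_sum fun i hi => ?_) (by positivity)
      have hi' : i ≤ 4 := by rw [Finset.mem_range] at hi; omega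
      rw [abs_mul, abs_mul, abs_pow, abs_pow, mul_assoc]
      refine mul_le_mul_of_nonneg_left ?_ (abs_nonneg _)
      push_cast at ha hb
      calc |av x.1| ^ i * |bv x.2| ^ (4 - i) ≤ ((C₁ : ℤ) * N) ^ i * ((C₁ : ℤ) * N) ^ (4 - i) := by
            gcongr
        _ = (C₁ : ℤ) ^ 4 * (N : ℤ) ^ 4 := by
            rw [← pow_add, show i + (4 - i) = 4 by omega, mul_pow]
    by_contra hlt'
    have h3 : ((BN : ℕ) : ℤ) ^ 2 < (p : ℤ) ^ 2 := by
      exact_mod_cast Nat.pow_lt_pow_left (not_le.mp hlt') two_ne_zero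
    have h4 : (CF : ℤ) * (N : ℤ) ^ 4 ≤ (BN : ℤ) ^ 2 := by
      rw [hBN]; push_cast
      have : (1 : ℤ) ≤ CF := by exact_mod_cast (show 1 ≤ CF by rw [hCF]; exact Nat.le_add_left 1 _)
      nlinarith [mul_nonneg (mul_nonneg (by positivity : (0 : ℤ) ≤ (CF : ℤ)) (sub_nonneg.mpr this))
        (by positivity : (0 : ℤ) ≤ (N : ℤ) ^ 4)]
    omega

end

end FA.Switch
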