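/-
Irreducibility of the `2`-torsion of a curve with good reduction at `2` and trace `0`.
-/
import Fermat.Agent.EC.S51Aux
import Fermat.Agent.Frob.Charpoly
import Fermat.Agent.Switch.AtTwo
import Fermat.Prelude.Def_FLTPrelim_ModularRep

set_option autoImplicit false
set_option linter.unusedSectionVars false

open WeierstrassCurve WeierstrassCurve.Affine WeierstrassCurve.Affine.Point
open scoped WeierstrassCurve.Affine

namespace FA.Switch

noncomputable section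

local notation "Qb" => AlgebraicClosure ℚ

/-- Reducibility mod `2` gives a rational point of order `2`. -/
lemma exists_root_Ψ₂Sq (E : WeierstrassCurve ℚ) [E.IsElliptic]
    (hred : ¬ GaloisRepIsIrreducible (K := Qb) ℚ E 2) :
    ∃ x : ℚ, E.Ψ₂Sq.eval x = 0 := by
  have : Fact (Nat.Prime 2) := ⟨Nat.prime_two⟩
  obtain ⟨P, hP0, hP2, hσ⟩ := FA.EC.exists_stable_point E hred
  obtain ⟨x, y, h, rfl⟩ := FA.EC.exists_some_of_ne_zero (W := E⁄Qb) hP0
  have hroot : (E⁄Qb).Ψ₂Sq.eval x = 0 := by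
    have := (FA.EC.nsmul_eq_zero_iff h 2).mp hP2
    simpa [WeierstrassCurve.ΨSq_two] using this
  have hfix : ∀ σ : Qb ≃ₐ[ℚ] Qb, σ x = x := fun σ => by
    obtain ⟨k, hk, hkσ⟩ := hσ σ
    have hx := FA.EC.xc_smul E σ (.some x y h)
    rw [hkσ, FA.EC.xc_some] at hx
    interval_cases k
    · exfalso
      rw [zero_nsmul] at hkσ
      have := congrArg (fun Q : (E⁄Qb).Point => σ⁻¹ • Q) hkσ
      simp only [inv_smul_smul, smul_zero] at this
      exact hP0 this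
    · rwa [one_nsmul, FA.EC.xc_some, eq_comm] at hx
  obtain ⟨q, rfl⟩ := FA.EC.mem_range_of_fixed hfix
  refine ⟨q, (algebraMap ℚ Qb).injective ?_⟩
  rw [FA.EC.Ψ₂Sq_baseChange, Polynomial.eval_map, Polynomial.eval₂_at_apply] at hroot
  rw [hroot, _root_.map_zero]

/-- A model like `y² + y = x³ + a` at `2` has no rational point of order `2`. -/
theorem modRepIsIrreducible_two {W : WeierstrassCurve ℤ} (hΔ : W.Δ ≠ 0)
    (h₁ : (2 : ℤ) ∣ W.a₁) (h₃ : ¬ (2 : ℤ) ∣ W.a₃) : W.ModRepIsIrreducible 2 := by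
  by_contra hcon
  have := FA.Frob.ratCurve_isElliptic_of_Δ hΔ
  obtain ⟨x, hx⟩ := exists_root_Ψ₂Sq (W.map (Int.castRingHom ℚ)) hcon
  set E := W.map (Int.castRingHom ℚ)
  have hb : E.b₂ = (W.b₂ : ℚ) ∧ E.b₄ = (W.b₄ : ℚ) ∧ E.b₆ = (W.b₆ : ℚ) := by simp [E]
  obtain ⟨c, hc⟩ := h₁
  obtain ⟨d, hd⟩ := Int.not_even_iff_odd.mp fun h => h₃ (even_iff_two_dvd.mp h)
  have e : (4 * x) ^ 3 + W.b₂ * (4 * x) ^ 2 + 8 * W.b₄ * (4 * x) + 16 * W.b₆ = (0 : ℚ) := by
    simp only [WeierstrassCurve.Ψ₂Sq, Polynomial.eval_add, Polynomial.eval_mul, Polynomial.eval_pow,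
      Polynomial.eval_C, Polynomial.eval_X, hb.1, hb.2.1, hb.2.2] at hx
    linear_combination 16 * hx
  have hint : IsIntegral ℤ (4 * x) := by
    refine ⟨Polynomial.X ^ 3 + Polynomial.C W.b₂ * Polynomial.X ^ 2 +
      Polynomial.C (8 * W.b₄) * Polynomial.X + Polynomial.C (16 * W.b₆), by monicity!, ?_⟩
    simp only [Polynomial.eval₂_add, Polynomial.eval₂_mul, Polynomial.eval₂_pow,
      Polynomial.eval₂_X, Polynomial.eval₂_C, algebraMap_int_eq, Int.coe_castRingHom]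
    push_cast
    exact e
  obtain ⟨X, hX⟩ := IsIntegrallyClosed.isIntegral_iff.mp hint
  rw [eq_intCast] at hX
  rw [← hX] at e
  have e' : X ^ 3 + 4 * (c ^ 2 + W.a₂) * X ^ 2 + 8 * W.b₄ * X + 16 * W.b₆ = 0 := by
    have h := e
    norm_cast at h
    simp only [WeierstrassCurve.b₂, hc] at h
    linear_combination h
  obtain ⟨Y, hY⟩ : (2 : ℤ) ∣ X := (Nat.prime_iff_prime_int.mp Nat.prime_two).dvd_of_dvd_pow (n := 3)
    ⟨-(2 * (c ^ 2 + W.a₂) * X ^ 2 + 4 * W.b₄ * X + 8 * W.b₆), by linear_combination e'⟩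
  subst hY
  have e2 : Y ^ 3 + 2 * (c ^ 2 + W.a₂) * Y ^ 2 + 2 * W.b₄ * Y + 2 * W.b₆ = 0 := by
    refine mul_left_cancel₀ (show (8 : ℤ) ≠ 0 by norm_num) ?_
    linear_combination e'
  obtain ⟨Z, hZ⟩ : (2 : ℤ) ∣ Y := (Nat.prime_iff_prime_int.mp Nat.prime_two).dvd_of_dvd_pow (n := 3)
    ⟨-((c ^ 2 + W.a₂) * Y ^ 2 + W.b₄ * Y + W.b₆), by linear_combination e2⟩
  subst hZ
  have e3 : 2 * (2 * Z ^ 3 + 2 * (c ^ 2 + W.a₂) * Z ^ 2 + W.b₄ * Z + 2 * W.a₆ + 2 * d ^ 2 + 2 * d) + 1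
      = 0 := by
    refine mul_left_cancel₀ (show (2 : ℤ) ≠ 0 by norm_num) ?_
    simp only [WeierstrassCurve.b₆, hd] at e2
    linear_combination e2
  omega

end

end FA.Switch
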