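/-
The `3`-switch with local conditions: a semistable curve with isomorphic `3`-torsion, good reduction
at `2` with trace `0`, negative discriminant, odd valuation of the discriminant at every bad prime,
and the same reduction at `3` and at the odd bad primes.
-/
import Fermat.Agent.Switch.Level3.Quartic
import Fermat.Agent.Switch.Model
import Fermat.Agent.Switch.AtTwo
import Fermat.Agent.Switch.ModTwo
import Fermat.Agent.Switch.TorsionIso

set_option autoImplicit false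
set_option linter.unusedSectionVars false

open WeierstrassCurve
open scoped Pointwise

namespace FA.Switch

noncomputable section

local notation "Qb" => AlgebraicClosure ℚ
local notation "GQ" => AlgebraicClosure ℚ ≃ₐ[ℚ] AlgebraicClosure ℚ

lemma hc4_mem {A : ValuationSubring Qb} {u v : Qb} (hu : u ∈ A) (hv : v ∈ A) :
    L3.hc4 u v ∈ A := by
  simp only [L3.hc4]
  apply_rules [add_mem, mul_mem, pow_mem, ofNat_mem]

lemma hc6_mem {A : ValuationSubring Qb} {u v : Qb} (hu : u ∈ A) (hv : v ∈ A) :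
    L3.hc6 u v ∈ A := by
  simp only [L3.hc6]
  apply_rules [sub_mem, mul_mem, pow_mem, ofNat_mem]

lemma base_sat₃ {B : L3.Base} {W : WeierstrassCurve ℤ} (ha : B.a = (W.c₄ : ℚ))
    (hb : B.b = (W.c₆ : ℚ)) :
    L3.hc4 (B.w 0) (B.w 1) = (W.c₄ : Qb) ∧ L3.hc6 (B.w 0) (B.w 1) = (W.c₆ : Qb) := by
  refine ⟨B.sat.eq4.trans ?_, B.sat.eq6.trans ?_⟩
  · rw [ha]; simp
  · rw [hb]; simp

/-- What is prescribed at a prime of the exceptional set. -/
structure Target (B : L3.Base) (e : Fin 2 → Qb) (W : WeierstrassCurve ℤ) (p : ℕ)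
    (A : ValuationSubring Qb) (r s x y z : Qb) (D₀ : ℤ) (Wq : WeierstrassCurve ℤ) : Prop where
  fixed : ∀ σ : GQ, σ • A = A → σ r = r ∧ σ s = s
  eq4 : L3.hc4 (r * B.w 0 + s * e 0) (r * B.w 1 + s * e 1) = x
  eq6 : L3.hc6 (r * B.w 0 + s * e 0) (r * B.w 1 + s * e 1) = y
  rel : x ^ 3 - y ^ 2 = 1728 * z
  int4 : A.valuation x ≤ 1
  int6 : A.valuation y ≤ 1
  disc : A.valuation z = A.valuation (D₀ : Qb)
  ne : D₀ ≠ 0
  odd : (p : ℤ) ∣ D₀ → Odd (padicValInt p D₀)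
  near4 : A.valuation (x - (Wq.c₄ : Qb)) ≤ A.valuation (p : Qb) ^ prec p
  near6 : A.valuation (y - (Wq.c₆ : Qb)) ≤ A.valuation (p : Qb) ^ prec p
  semistable : (p : ℤ) ∣ Wq.Δ → ¬ (p : ℤ) ∣ Wq.c₄
  atTwo : p = 2 → Wq = ⟨0, 0, 1, 0, Wq.a₆⟩ ∧ ¬ (2 : ℤ) ∣ D₀
  away : p ≠ 2 → Wq = W ∧ ((p : ℤ) ∣ W.Δ → (p : ℤ) ∣ D₀)

variable {W : WeierstrassCurve ℤ} (hΔ : W.Δ ≠ 0) (hW : W.IsSemistableModel) {B : L3.Base}
  (hBa : B.a = (W.c₄ : ℚ)) (hBb : B.b = (W.c₆ : ℚ)) {e : Fin 2 → Qb} (he : B.InV e)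
  (hind : det2 B.w e ≠ 0) {p : ℕ} (hp : p.Prime) {A : ValuationSubring Qb}
  (hA : A.LiesOverPrime p)

include hΔ hW hBa hBb in
/-- The base point is a target where it can be. -/
lemma exists_target_base (h2 : p ≠ 2) (hodd : (p : ℤ) ∣ W.Δ → Odd (padicValInt p W.Δ)) :
    Target B e W p A 1 0 (W.c₄ : Qb) (W.c₆ : Qb) (W.Δ : Qb) W.Δ W where
  fixed σ _ := ⟨map_one σ, map_zero σ⟩
  eq4 := by rw [← (base_sat₃ hBa hBb).1]; simp
  eq6 := by rw [← (base_sat₃ hBa hBb).2]; simp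
  rel := by exact_mod_cast W.c_relation.symm
  int4 := FA.Local.intCast_le_one _
  int6 := FA.Local.intCast_le_one _
  disc := rfl
  ne := hΔ
  odd := hodd
  near4 := by simp
  near6 := by simp
  semistable := fun h => by
    by_cases hpp : p.Prime
    · exact hW p hpp h
    · rcases eq_or_ne p 0 with rfl | _
      · exact absurd (by simpa using h) hΔ
      · intro h4
        by_cases hp1 : p = 1
        · subst hp1
          exact absurd (hodd h) (by simp [padicValInt])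
        · obtain ⟨l, hl, hlp⟩ := Nat.exists_prime_and_dvd hp1
          exact hW l hl ((Int.natCast_dvd_natCast.mpr hlp).trans h)
            ((Int.natCast_dvd_natCast.mpr hlp).trans h4)
  atTwo := fun h => absurd h h2
  away := fun _ => ⟨rfl, id⟩

include hΔ hW hBa hBb he hind hp hA in
/-- The target at an odd bad prime with even valuation of the discriminant. -/
lemma exists_target_even (h2 : p ≠ 2) (hd : (p : ℤ) ∣ W.Δ) (heven : Even (padicValInt p W.Δ)) :
    ∃ r s x y z, Target B e W p A r s x y z ((p : ℤ) ^ 3 * W.Δ) W := by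
  have : Fact p.Prime := ⟨hp⟩
  have h4 : ¬ (p : ℤ) ∣ W.c₄ := hW p hp hd
  have hv2 : 2 ≤ padicValInt p W.Δ := by
    obtain ⟨k, hk⟩ := heven
    have h1 : 1 ≤ padicValInt p W.Δ :=
      ((padicValInt_dvd_iff (p := p) 1 W.Δ).mp (by simpa using hd)).resolve_left hΔ
    omega
  have hq1 : A.valuation (p : Qb) ≤ 1 := (v_natPrime_lt hA).le
  have ha : A.valuation (B.a : Qb) = 1 := by
    rw [hBa, Rat.cast_intCast]
    exact FA.Local.natCast_eq_one_of_not_dvd (v := A.valuation) hp (v_natPrime_lt hA) h4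
  have hd1 : A.valuation ((W.Δ : ℚ) : Qb) < 1 := by
    rw [Rat.cast_intCast]
    exact (intCast_lt_one_iff hp hA _).mpr hd
  obtain ⟨T, X, hdat, -, hpar⟩ := B.exists_cusp he hind (W.Δ : ℚ)
    (by rw [hBa, hBb]; exact_mod_cast W.c_relation.symm) ha hd1
  obtain ⟨r, s, hfix, e4, e6⟩ := hpar 1 (p : ℚ)
  simp only [Rat.cast_one, one_pow, one_mul, Rat.cast_natCast, mul_one] at e4 e6
  set q : Qb := (p : Qb) with hq
  have hvT : A.valuation T ≤ A.valuation q ^ 2 := by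
    rw [hdat.val, Rat.cast_intCast]
    exact (intCast_le_pow_iff hp hA _ 2).mpr ((pow_dvd_pow _ hv2).trans (padicValInt_dvd _))
  have mT : T ∈ A := (A.valuation_le_one_iff T).mp hdat.small.le
  have mq : q ∈ A := (A.valuation_le_one_iff q).mp hq1
  have mX : X ∈ A := (A.valuation_le_one_iff X).mp hdat.unitX.le
  -- bound for the differences
  have hbound : ∀ c : Qb, c ∈ A → (p = 3 → A.valuation c ≤ A.valuation q ^ 3) →
      A.valuation (c * T) ≤ A.valuation q ^ prec p := by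
    intro c mc h3
    rw [map_mul]
    by_cases hp3 : p = 3
    · subst hp3
      rw [show prec 3 = 3 + 2 from rfl, pow_add]
      exact mul_le_mul' (h3 rfl) hvT
    · rw [show prec p = 1 by simp [prec, h2, hp3], pow_one]
      exact (mul_le_of_le_one_left' ((A.valuation_le_one_iff c).mpr mc)).trans
        (hvT.trans (pow_le_of_le_one zero_le hq1 two_ne_zero))
  have h27 : ∀ c : Qb, c ∈ A → p = 3 → A.valuation (27 * c) ≤ A.valuation q ^ 3 := by
    intro c mc hp3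
    rw [map_mul, show (27 : Qb) = ((3 : ℕ) : Qb) ^ 3 by norm_num, map_pow, hq, hp3]
    exact mul_le_of_le_one_right' ((A.valuation_le_one_iff c).mpr mc)
  refine ⟨r, s, _, _, X ^ 6 * (q ^ 3 * T * (1 - 27 * (q ^ 3 * T)) ^ 3), hfix, e4, e6, ?_, ?_, ?_,
    ?_, ?_, ?_, ?_, ?_, fun h => hW p hp h, fun h => absurd h h2,
    fun _ => ⟨rfl, fun h => dvd_mul_of_dvd_right h _⟩⟩
  · ring
  · exact (A.valuation_le_one_iff _).mpr (by apply_rules [add_mem, mul_mem, pow_mem, one_mem, ofNat_mem])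
  · exact (A.valuation_le_one_iff _).mpr (by
      apply_rules [sub_mem, mul_mem, pow_mem, one_mem, ofNat_mem])
  · have hsm : A.valuation (27 * (q ^ 3 * T)) < 1 := by
      rw [show (27 : Qb) * (q ^ 3 * T) = T * (27 * q ^ 3) by ring]
      exact v_mul_lt_one hdat.small ((A.valuation_le_one_iff _).mpr
        (mul_mem (ofNat_mem A 27) (pow_mem mq 3)))
    rw [map_mul, map_mul, map_pow, hdat.unitX, one_pow, one_mul, map_pow A.valuation (1 - _),
      v_sub_eq_one A.valuation.map_one hsm, one_pow, mul_one, map_mul, hdat.val, Rat.cast_intCast]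
    push_cast
    rw [map_mul]
  · exact mul_ne_zero (pow_ne_zero _ (Int.natCast_ne_zero.mpr hp.ne_zero)) hΔ
  · intro _
    rw [padicValInt.mul (pow_ne_zero _ (Int.natCast_ne_zero.mpr hp.ne_zero)) hΔ, ← Nat.cast_pow,
      padicValInt.of_nat, padicValNat.prime_pow]
    exact Odd.add_even (by decide) heven
  · rw [show X ^ 2 * (1 + 216 * q ^ 3 * T) - (W.c₄ : Qb) = (216 * (X ^ 2 * (q ^ 3 - 1))) * T by
      have h := hdat.eq4
      rw [hBa, Rat.cast_intCast, L3.cH] at h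
      linear_combination h]
    refine hbound _ (by apply_rules [sub_mem, mul_mem, pow_mem, one_mem, ofNat_mem]) fun hp3 => ?_
    rw [show (216 : Qb) * (X ^ 2 * (q ^ 3 - 1)) = 27 * (8 * (X ^ 2 * (q ^ 3 - 1))) by ring]
    exact h27 _ (by apply_rules [sub_mem, mul_mem, pow_mem, one_mem, ofNat_mem]) hp3
  · rw [show X ^ 3 * (1 - 540 * (q ^ 3 * T) - 5832 * (q ^ 3 * T) ^ 2) - (W.c₆ : Qb) =
        (-540 * (X ^ 3 * (q ^ 3 - 1)) - 5832 * (X ^ 3 * T * ((q ^ 3) ^ 2 - 1))) * T by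
      have h := hdat.eq6
      rw [hBb, Rat.cast_intCast, L3.cG] at h
      linear_combination h]
    refine hbound _ (by apply_rules [sub_mem, mul_mem, pow_mem, neg_mem, one_mem, ofNat_mem]) fun hp3 => ?_
    rw [show (-540 : Qb) * (X ^ 3 * (q ^ 3 - 1)) - 5832 * (X ^ 3 * T * ((q ^ 3) ^ 2 - 1)) =
      27 * (-20 * (X ^ 3 * (q ^ 3 - 1)) - 216 * (X ^ 3 * T * ((q ^ 3) ^ 2 - 1))) by ring]
    exact h27 _ (by apply_rules [sub_mem, mul_mem, pow_mem, neg_mem, one_mem, ofNat_mem]) hp3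

include hΔ hW hBa hBb he hind in
/-- The target at `2`. -/
lemma exists_target_two (hd2 : (2 : ℤ) ∣ W.Δ) (h3 : 3 ∣ padicValInt 2 W.Δ)
    {A : ValuationSubring Qb} (hA : A.LiesOverPrime 2) :
    ∃ r s x y z Wq, Target B e W 2 A r s x y z 1 Wq := by
  have hq := Nat.prime_two
  have h4 : ¬ (2 : ℤ) ∣ W.c₄ := hW 2 hq (by exact_mod_cast hd2)
  have ha : A.valuation (B.a : Qb) = 1 := by
    rw [hBa, Rat.cast_intCast]
    exact FA.Local.natCast_eq_one_of_not_dvd (v := A.valuation) hq (v_natPrime_lt hA)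
      (by exact_mod_cast h4)
  have hd : A.valuation ((W.Δ : ℚ) : Qb) < 1 := by
    rw [Rat.cast_intCast]
    exact (intCast_lt_one_iff hq hA _).mpr (by exact_mod_cast hd2)
  obtain ⟨T, X, hdat, -, hpar⟩ := B.exists_cusp he hind (W.Δ : ℚ)
    (by rw [hBa, hBb]; exact_mod_cast W.c_relation.symm) ha hd
  obtain ⟨m, hm⟩ := h3
  obtain ⟨r, s, hfix, e4, e6⟩ := hpar 0 ((2 : ℚ) ^ m)⁻¹
  push_cast at e4 e6
  set U : Qb := ((2 : Qb) ^ m)⁻¹ ^ 3 * T with hU
  have v2 : A.valuation ((2 : ℕ) : Qb) = A.valuation (2 : Qb) := by norm_num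
  set ε := A.valuation (2 : Qb) with hε
  have hε1 : ε ≤ 1 := v2 ▸ (v_natPrime_lt hA).le
  have hε0 : ε ≠ 0 := v2 ▸ v_natPrime_ne hq
  have hvU : A.valuation U = 1 := by
    rw [hU, map_mul, map_pow, map_inv₀, map_pow, hdat.val, Rat.cast_intCast,
      v_intCast_eq_padic hq hA hΔ, v2, hm, inv_pow, ← pow_mul, mul_comm m 3,
      inv_mul_cancel₀ (pow_ne_zero _ hε0)]
  have hfixU : ∀ σ : GQ, σ • A = A → σ U = U := fun σ hσ => by
    rw [hU, map_mul, map_pow, map_inv₀, map_pow, map_ofNat, hdat.fixT σ hσ]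
  set u : Qb := 27 * X ^ 3 * U ^ 2 with hu
  have mX : X ∈ A := (A.valuation_le_one_iff X).mp hdat.unitX.le
  have mU : U ∈ A := (A.valuation_le_one_iff U).mp hvU.le
  have mT : T ∈ A := (A.valuation_le_one_iff T).mp hdat.small.le
  have h27 : A.valuation (27 : Qb) = 1 := by
    have := v_natCast_eq_one hq hA (n := 27) (by norm_num)
    simpa using this
  have hvu : A.valuation u = 1 := by
    rw [hu, map_mul, map_mul, map_pow, map_pow, h27, hdat.unitX, hvU, one_pow, one_pow, one_mul,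
      one_mul]
  -- `u` is congruent to `1` mod `4`
  have hu1 : A.valuation (u - 1) ≤ ε ^ 2 := by
    have h4b : A.valuation ((W.c₆ + 1 : ℤ) : Qb) ≤ ε ^ 2 := by
      rw [← v2]
      refine (intCast_le_pow_iff hq hA _ 2).mpr ?_
      have h := c₆_mod_four h4
      rw [show (3 : ZMod 4) = ((-1 : ℤ) : ZMod 4) from rfl,
        ZMod.intCast_eq_intCast_iff_dvd_sub] at h
      obtain ⟨c, hc⟩ := h
      exact ⟨-c, by push_cast at hc ⊢; linear_combination -hc⟩
    have hX3 : A.valuation (X ^ 3 + 1) ≤ ε ^ 2 := by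
      rw [show X ^ 3 + 1 = ((W.c₆ + 1 : ℤ) : Qb) + 4 * (X ^ 3 * (T * (135 + 1458 * T))) by
        have h := hdat.eq6
        rw [hBb, Rat.cast_intCast, L3.cG] at h
        push_cast
        linear_combination h]
      refine A.valuation.map_add_le h4b ?_
      rw [show (4 : Qb) = 2 ^ 2 by norm_num, map_mul, map_pow]
      exact mul_le_of_le_one_right' ((A.valuation_le_one_iff _).mpr
        (by apply_rules [add_mem, mul_mem, pow_mem, ofNat_mem]))
    obtain ⟨k, hk, hkU⟩ := exists_int_near_unit hq hA hfixU hvU (k := 2) two_pos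
    rw [v2] at hkU
    have hk2 : A.valuation (((k ^ 2 - 1 : ℤ)) : Qb) ≤ ε ^ 2 := by
      rw [← v2]
      refine (intCast_le_pow_iff hq hA _ 2).mpr ?_
      obtain ⟨j, hj⟩ := Int.not_even_iff_odd.mp fun h => hk (by exact_mod_cast even_iff_two_dvd.mp h)
      exact ⟨j * (j + 1), by rw [hj]; push_cast; ring⟩
    have hU2 : A.valuation (U ^ 2 - 1) ≤ ε ^ 2 := by
      rw [show U ^ 2 - 1 = (U ^ 2 - (k : Qb) ^ 2) + ((k ^ 2 - 1 : ℤ) : Qb) by push_cast; ring]
      exact A.valuation.map_add_le ((v_sub_sq_le hvU.le (FA.Local.intCast_le_one k)).trans hkU) hk2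
    rw [show u - 1 = 27 * U ^ 2 * (X ^ 3 + 1) - 27 * (U ^ 2 - 1) + 4 * (-7 : Qb) by rw [hu]; ring]
    refine A.valuation.map_add_le ((A.valuation.map_sub _ _).trans (max_le ?_ ?_)) ?_
    · rw [map_mul, map_mul, map_pow, h27, hvU, one_pow, one_mul, one_mul]; exact hX3
    · rw [map_mul, h27, one_mul]; exact hU2
    · rw [show (4 : Qb) = 2 ^ 2 by norm_num, map_mul, map_pow]
      exact mul_le_of_le_one_right' ((A.valuation_le_one_iff _).mpr (neg_mem (ofNat_mem A 7)))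
  obtain ⟨n, hn⟩ := exists_int_near hq hA (α := u)
    (fun σ hσ => by rw [hu, map_mul, map_mul, map_pow, map_pow, map_ofNat, hdat.fixX σ hσ, hfixU σ hσ])
    hvu.le 10
  rw [v2] at hn
  obtain ⟨a₆, ha₆⟩ : ∃ a : ℤ, n = 1 + 4 * a := by
    have h : (4 : ℤ) ∣ n - 1 := by
      have key : A.valuation ((n - 1 : ℤ) : Qb) ≤ A.valuation ((2 : ℕ) : Qb) ^ 2 := by
        rw [v2, show ((n - 1 : ℤ) : Qb) = (u - 1) - (u - (n : Qb)) by push_cast; ring]
        exact (A.valuation.map_sub _ _).trans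
          (max_le hu1 (hn.trans (pow_le_pow_of_le_one zero_le hε1 (by norm_num))))
      exact_mod_cast (intCast_le_pow_iff hq hA _ 2).mp key
    obtain ⟨a, ha⟩ := h
    exact ⟨a, by omega⟩
  refine ⟨r, s, _, _, -27 * u ^ 2, ⟨0, 0, 1, 0, a₆⟩, hfix, e4, e6, ?_, ?_, ?_, ?_, one_ne_zero,
    fun h => absurd h (by norm_num), ?_, ?_, ?_, fun _ => ⟨rfl, by norm_num⟩,
    fun h => absurd rfl h⟩
  · rw [hu]; ring
  · rw [zero_mul, mul_zero, map_zero]; exact zero_le
  · exact (A.valuation_le_one_iff _).mpr (by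
      apply_rules [sub_mem, mul_mem, pow_mem, zero_mem, ofNat_mem])
  · rw [map_mul, map_pow, A.valuation.map_neg, h27, hvu, one_pow, one_mul, Int.cast_one, map_one]
  · simp [WeierstrassCurve.c₄, WeierstrassCurve.b₂, WeierstrassCurve.b₄]
  · have e : ((⟨0, 0, 1, 0, a₆⟩ : WeierstrassCurve ℤ).c₆ : Qb) = -216 * (n : Qb) := by
      rw [ha₆]
      simp [WeierstrassCurve.c₆, WeierstrassCurve.b₂, WeierstrassCurve.b₄, WeierstrassCurve.b₆]
    rw [e, show prec 2 = 10 from rfl, v2]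
    rw [show X ^ 3 * ((0 : Qb) ^ 6 - 540 * (0 : Qb) ^ 3 * U - 5832 * U ^ 2) - -216 * (n : Qb) =
        -216 * (u - (n : Qb)) by rw [hu]; ring, map_mul]
    exact (mul_le_of_le_one_left' ((A.valuation_le_one_iff _).mpr
      (neg_mem (ofNat_mem A 216)))).trans hn
  · intro hd'
    exfalso
    simp [WeierstrassCurve.Δ, WeierstrassCurve.b₂, WeierstrassCurve.b₄, WeierstrassCurve.b₆,
      WeierstrassCurve.b₈] at hd'
    have hbig : ((2 : ℕ) : ℤ) ∣ 27 * (1 + 4 * a₆) ^ 2 := by exact_mod_cast hd'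
    have h2d : (2 : ℤ) ∣ (1 + 4 * a₆) ^ 2 := by
      rcases Int.prime_two.dvd_or_dvd (by exact_mod_cast hbig) with h | h
      · norm_num at h
      · exact h
    have h2d' := Int.prime_two.dvd_of_dvd_pow h2d
    omega

omit hp hA in
/-- Coprimality of the invariants outside the exceptional set. -/
lemma not_dvd_both₃ {w e : Fin 2 → Qb} {A : ValuationSubring Qb} {p : ℕ} (hp : p.Prime)
    (hA : A.LiesOverPrime p) (h2 : p ≠ 2) (h3 : p ≠ 3)
    (hw : ∀ i, A.valuation (w i) ≤ 1) (he : ∀ i, A.valuation (e i) ≤ 1)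
    (hdet : A.valuation (det2 w e)⁻¹ ≤ 1) (hind : det2 w e ≠ 0) {a b : ℤ}
    (hab : ¬ ((p : ℤ) ∣ a ∧ (p : ℤ) ∣ b)) :
    ¬ (A.valuation (L3.hc4 ((a : Qb) * w 0 + b * e 0) ((a : Qb) * w 1 + b * e 1)) < 1 ∧
      A.valuation (L3.hc6 ((a : Qb) * w 0 + b * e 0) ((a : Qb) * w 1 + b * e 1)) < 1) := by
  rintro ⟨s4, s6⟩
  have hy : ∀ i, A.valuation ((a : Qb) * w i + b * e i) ≤ 1 := fun i =>
    A.valuation.map_add_le
      ((map_mul _ _ _).trans_le (mul_le_one' (FA.Local.intCast_le_one a) (hw i)))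
      ((map_mul _ _ _).trans_le (mul_le_one' (FA.Local.intCast_le_one b) (he i)))
  have hone : ∀ l : ℕ, l.Prime → p ≠ l → A.valuation (l : Qb) = 1 := fun l hl hne =>
    v_natCast_eq_one hp hA fun hd => hne ((Nat.prime_dvd_prime_iff_eq hp hl).mp hd)
  set u := (a : Qb) * w 0 + b * e 0 with hu
  set v := (a : Qb) * w 1 + b * e 1 with hv
  have hf : A.valuation (L3.hD u v) < 1 := by
    refine v_lt_one_of_pow (n := 3) ?_
    have h1728 : A.valuation (1728 : Qb) = 1 := by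
      rw [show (1728 : Qb) = ((2 : ℕ) : Qb) ^ 6 * ((3 : ℕ) : Qb) ^ 3 by norm_num, map_mul, map_pow,
        map_pow, hone 2 Nat.prime_two h2, hone 3 Nat.prime_three h3, one_pow, one_pow, one_mul]
    have h : A.valuation (1728 * L3.hD u v ^ 3) < 1 := by
      rw [← L3.hesse_syzygy]
      exact (A.valuation.map_sub _ _).trans_lt (max_lt
        (by rw [map_pow]; exact pow_lt_one₀ zero_le s4 three_ne_zero)
        (by rw [map_pow]; exact pow_lt_one₀ zero_le s6 two_ne_zero))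
    rwa [map_mul, h1728, one_mul] at h
  obtain ⟨hu1, hv1⟩ := L3.small_of_common (hy 0) (hy 1)
    (by simpa using hone 3 Nat.prime_three h3) s4 hf
  have hdiv : ∀ x : Qb, A.valuation x < 1 → A.valuation (x * (det2 w e)⁻¹) < 1 := fun x hx =>
    v_mul_lt_one hx hdet
  refine hab ⟨(intCast_lt_one_iff hp hA a).mp ?_, (intCast_lt_one_iff hp hA b).mp ?_⟩
  · rw [show (a : Qb) = (u * e 1 - v * e 0) * (det2 w e)⁻¹ by
      field_simp
      simp only [det2, hu, hv]
      ring]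
    exact hdiv _ ((A.valuation.map_sub _ _).trans_lt
      (max_lt (v_mul_lt_one hu1 (he 1)) (v_mul_lt_one hv1 (he 0))))
  · rw [show (b : Qb) = (v * w 0 - u * w 1) * (det2 w e)⁻¹ by
      field_simp
      simp only [det2, hu, hv]
      ring]
    exact hdiv _ ((A.valuation.map_sub _ _).trans_lt
      (max_lt (v_mul_lt_one hv1 (hw 0)) (v_mul_lt_one hu1 (hw 1))))

omit hΔ hW hp hA in
lemma prime_sq_dvd_qform {Q : Polynomial ℤ} {p : ℕ} {a b : ℤ} (ha : (p : ℤ) ∣ a)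
    (hb : (p : ℤ) ∣ b) : (p : ℤ) ^ 2 ∣ qform Q a b := by
  refine Finset.dvd_sum fun i hi => ?_
  rw [Finset.mem_range] at hi
  have h : (p : ℤ) ^ 4 ∣ a ^ i * b ^ (4 - i) := by
    rw [show (p : ℤ) ^ 4 = (p : ℤ) ^ i * (p : ℤ) ^ (4 - i) by rw [← pow_add]; congr 1; omega]
    exact mul_dvd_mul (pow_dvd_pow_of_dvd ha i) (pow_dvd_pow_of_dvd hb _)
  rw [mul_assoc]
  exact dvd_mul_of_dvd_right ((pow_dvd_pow _ (by norm_num)).trans h) _

omit hp hA in
set_option maxHeartbeats 3200000 in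
include hΔ hW in
/-- **The `3`-switch with local conditions.** -/
theorem exists_three_switch (hd2 : (2 : ℤ) ∣ W.Δ) (h3 : 3 ∣ padicValInt 2 W.Δ) :
    ∃ W' : WeierstrassCurve ℤ, W'.Δ < 0 ∧ W'.IsSemistableModel ∧ W'.IsGoodPrimeFor 2 ∧
      W'.apOfModel 2 = 0 ∧ W'.ModRepIsIrreducible 2 ∧
      (∀ q : ℕ, q.Prime → (q : ℤ) ∣ W'.Δ → Odd (padicValInt q W'.Δ)) ∧
      TorsIso 3 (FA.Frob.ratCurve W) (FA.Frob.ratCurve W') ∧
      W'.reductionMod 3 = W.reductionMod 3 ∧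
      ∀ q : ℕ, q.Prime → q ≠ 2 → (q : ℤ) ∣ W.Δ →
        W'.reductionMod q = W.reductionMod q ∧ (q : ℤ) ∣ W'.Δ := by
  classical
  obtain ⟨B, hBa, hBb⟩ := L3.exists_base (a := (W.c₄ : ℚ)) (b := (W.c₆ : ℚ))
    (Int.cast_ne_zero.mpr (c₄_ne_zero W hW)) (Int.cast_ne_zero.mpr (c₆_ne_zero W hW))
    (fun h => by
      have h' : W.c₄ ^ 3 = W.c₆ ^ 2 := by exact_mod_cast h
      have := W.c_relation
      rw [h', sub_self] at this
      exact hΔ ((mul_eq_zero.mp this).resolve_left (by norm_num)))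
  obtain ⟨e, he, hind', -⟩ := B.exists_frame
  have hind : det2 B.w e ≠ 0 := fun h => hind' (by simp only [det2] at h; linear_combination -h)
  obtain ⟨L, Q, hQ⟩ := B.exists_quartic he hind
  obtain ⟨A₁, C₁, R, hR0, hR⟩ := hQ.separable
  obtain ⟨u, w, K, hw, hneg⟩ := hQ.exists_cone he hind W.Δ
    (by rw [hBa, hBb]; exact_mod_cast W.c_relation.symm) hΔ
  obtain ⟨N, hN0, hN⟩ := exists_good_outside [B.w 0, B.w 1, e 0, e 1, (det2 B.w e)⁻¹]
  set S : Finset ℕ := (Finset.range 41).filter Nat.Prime ∪ W.Δ.natAbs.primeFactors ∪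
    N.primeFactors ∪ L.primeFactors ∪ R.natAbs.primeFactors with hSdef
  have hS : ∀ p ∈ S, p.Prime := fun p hp => by
    simp only [hSdef, Finset.mem_union, Finset.mem_filter] at hp
    rcases hp with (((h | h) | h) | h) | h
    exacts [h.2, Nat.prime_of_mem_primeFactors h, Nat.prime_of_mem_primeFactors h,
      Nat.prime_of_mem_primeFactors h, Nat.prime_of_mem_primeFactors h]
  have hsmall : ∀ p : ℕ, p.Prime → p ≤ 40 → p ∈ S := fun p hp h => by
    simp only [hSdef, Finset.mem_union, Finset.mem_filter, Finset.mem_range]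
    exact .inl (.inl (.inl (.inl ⟨by omega, hp⟩)))
  have hΔS : ∀ p : ℕ, p.Prime → (p : ℤ) ∣ W.Δ → p ∈ S := fun p hp h => by
    simp only [hSdef, Finset.mem_union]
    exact .inl (.inl (.inl (.inr (Nat.mem_primeFactors.mpr
      ⟨hp, Int.natCast_dvd.mp h, Int.natAbs_ne_zero.mpr hΔ⟩))))
  have hout : ∀ p : ℕ, p.Prime → p ∉ S → 40 < p ∧ ¬ (p : ℤ) ∣ W.Δ ∧ ¬ p ∣ N ∧ ¬ p ∣ L ∧
      ¬ (p : ℤ) ∣ R := fun p hp hpS => by
    refine ⟨not_le.mp fun h => hpS (hsmall p hp h), fun h => hpS (hΔS p hp h), fun h => hpS ?_,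
      fun h => hpS ?_, fun h => hpS ?_⟩
    · simp only [hSdef, Finset.mem_union]
      exact .inl (.inl (.inr (Nat.mem_primeFactors.mpr ⟨hp, h, hN0.ne'⟩)))
    · simp only [hSdef, Finset.mem_union]
      exact .inl (.inr (Nat.mem_primeFactors.mpr ⟨hp, h, hQ.pos.ne'⟩))
    · simp only [hSdef, Finset.mem_union]
      exact .inr (Nat.mem_primeFactors.mpr
        ⟨hp, Int.natCast_dvd.mp h, Int.natAbs_ne_zero.mpr hR0⟩)
  choose! P hP using fun (p : ℕ) (hp : p.Prime) => FA.Deform.exists_liesOverPrime hp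
  have h2S : 2 ∈ S := hsmall 2 Nat.prime_two (by norm_num)
  have h3S : 3 ∈ S := hsmall 3 Nat.prime_three (by norm_num)
  have htarget : ∀ p : ℕ, p.Prime → ∃ r s x y z D₀ Wq, Target B e W p (P p) r s x y z D₀ Wq := by
    intro p hp
    by_cases h2 : p = 2
    · subst h2
      obtain ⟨r, s, x, y, z, Wq, h⟩ :=
        exists_target_two hΔ hW hBa hBb he hind hd2 h3 (hP 2 hp)
      exact ⟨r, s, x, y, z, 1, Wq, h⟩
    · by_cases hev : (p : ℤ) ∣ W.Δ ∧ Even (padicValInt p W.Δ)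
      · obtain ⟨r, s, x, y, z, h⟩ :=
          exists_target_even hΔ hW hBa hBb he hind hp (hP p hp) h2 hev.1 hev.2
        exact ⟨r, s, x, y, z, _, W, h⟩
      · exact ⟨_, _, _, _, _, _, _, exists_target_base hΔ hW hBa hBb h2
          fun h => Nat.not_even_iff_odd.mp fun h' => hev ⟨h, h'⟩⟩
  choose! r s x y z D₀ Wp hT using htarget
  set m₀ : ℕ → ℕ := fun p => padicValInt p (1728 * D₀ p) + 11 with hm₀
  set P4 : MvPolynomial (Fin 2) Qb := L3.hc4
    (MvPolynomial.X 0 * MvPolynomial.C (B.w 0) + MvPolynomial.X 1 * MvPolynomial.C (e 0))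
    (MvPolynomial.X 0 * MvPolynomial.C (B.w 1) + MvPolynomial.X 1 * MvPolynomial.C (e 1))
  set P6 : MvPolynomial (Fin 2) Qb := L3.hc6
    (MvPolynomial.X 0 * MvPolynomial.C (B.w 0) + MvPolynomial.X 1 * MvPolynomial.C (e 0))
    (MvPolynomial.X 0 * MvPolynomial.C (B.w 1) + MvPolynomial.X 1 * MvPolynomial.C (e 1))
  have hP46 : ∀ v : Fin 2 → Qb,
      MvPolynomial.eval v P4 = L3.hc4 (v 0 * B.w 0 + v 1 * e 0) (v 0 * B.w 1 + v 1 * e 1) ∧
      MvPolynomial.eval v P6 = L3.hc6 (v 0 * B.w 0 + v 1 * e 0) (v 0 * B.w 1 + v 1 * e 1) :=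
    fun v => by constructor <;> simp [P4, P6, L3.map_hc4, L3.map_hc6]
  choose! ν hν4 hν6 using fun p (hp : p ∈ S) => show ∃ ν : ℕ,
      (∀ v : Fin 2 → Qb, (∀ i, (P p).valuation (v i - ![r p, s p] i) ≤
          (P p).valuation (p : Qb) ^ ν) →
        (P p).valuation (MvPolynomial.eval v P4 - x p) ≤ (P p).valuation (p : Qb) ^ m₀ p) ∧
      (∀ v : Fin 2 → Qb, (∀ i, (P p).valuation (v i - ![r p, s p] i) ≤
          (P p).valuation (p : Qb) ^ ν) →
        (P p).valuation (MvPolynomial.eval v P6 - y p) ≤ (P p).valuation (p : Qb) ^ m₀ p) by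
    have hA := hP p (hS p hp)
    obtain ⟨ν₄, h₄⟩ := exists_continuity (hS p hp) hA P4 ![r p, s p] (m₀ p)
    obtain ⟨ν₆, h₆⟩ := exists_continuity (hS p hp) hA P6 ![r p, s p] (m₀ p)
    have e4' : MvPolynomial.eval ![r p, s p] P4 = x p := by
      rw [(hP46 _).1]; exact (hT p (hS p hp)).eq4
    have e6' : MvPolynomial.eval ![r p, s p] P6 = y p := by
      rw [(hP46 _).2]; exact (hT p (hS p hp)).eq6
    refine ⟨max ν₄ ν₆, fun v hv => ?_, fun v hv => ?_⟩
    · rw [← e4']; exact h₄ v fun i => (hv i).trans (pow_q_anti hA (le_max_left _ _))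
    · rw [← e6']; exact h₆ v fun i => (hv i).trans (pow_q_anti hA (le_max_right _ _))
  obtain ⟨m, M, a₀, b₀, hm0, hmS', hM0, hMS, ha0, -, happr⟩ :=
    exists_approx S hS P (fun p hp => hP p (hS p hp)) r s (fun p hp => (hT p (hS p hp)).fixed) ν
  set M₁ : ℕ := ∏ p ∈ S, p ^ (padicValInt p a₀ + 1) with hM₁
  have hM₁pos : 0 < M₁ := Finset.prod_pos fun p hp => pow_pos (hS p hp).pos _
  obtain ⟨a, b, i, j, ha, hb, hb0, hcone, hsq⟩ := exists_sqfree_value Q hQ.deg S hsmall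
    (fun p hp hpS => by rw [hQ.lead, Int.natCast_dvd_natCast]; exact (hout p hp hpS).2.2.2.1)
    hR (fun p hp hpS => (hout p hp hpS).2.2.2.2) (M * M₁) (Nat.mul_pos hM0 hM₁pos)
    (fun p hp hd => by
      rcases hp.dvd_mul.mp hd with h | h
      · exact hMS p hp h
      · obtain ⟨l, hl, hpl⟩ := (Prime.dvd_finsetProd_iff hp.prime _).mp h
        rwa [(Nat.prime_dvd_prime_iff_eq hp (hS l hl)).mp (hp.dvd_of_dvd_pow hpl)])
    a₀ b₀ ha0 (fun p hp => by
      rw [Nat.cast_mul]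
      refine dvd_mul_of_dvd_right ?_ _
      rw [hM₁, Nat.cast_prod]
      exact (dvd_of_eq (by push_cast; rfl)).trans
        (Finset.dvd_prod_of_mem (fun p => ((p ^ (padicValInt p a₀ + 1) : ℕ) : ℤ)) hp)) u w hw K
  set F : ℤ := qform Q a b with hF
  have hFneg : W.Δ * F < 0 := hneg a b hb0 hcone
  have hprim : ∀ p : ℕ, p.Prime → p ∉ S → ¬ ((p : ℤ) ∣ a ∧ (p : ℤ) ∣ b) := fun p hp hpS hd =>
    hsq p hp hpS (prime_sq_dvd_qform hd.1 hd.2)
  set V : Fin 2 → Qb := fun i =>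
    (((a : ℚ) / m : ℚ) : Qb) * B.w i + (((b : ℚ) / m : ℚ) : Qb) * e i with hVdef
  have hV : B.InV V := B.inV_base.lin he _ _
  obtain ⟨c4, c6, hc4, hc6⟩ := hV.exists_invariants
  have hclose : ∀ p ∈ S, (P p).valuation ((c4 : Qb) - x p) ≤ (P p).valuation (p : Qb) ^ m₀ p ∧
      (P p).valuation ((c6 : Qb) - y p) ≤ (P p).valuation (p : Qb) ^ m₀ p := fun p hp => by
    obtain ⟨h₁, h₂⟩ := happr p hp (M₁ * i) (M₁ * j)
    rw [← mul_assoc, ← Nat.cast_mul, ← ha] at h₁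
    rw [← mul_assoc, ← Nat.cast_mul, ← hb] at h₂
    have hv : ∀ i, (P p).valuation (![(a : Qb) / m, (b : Qb) / m] i - ![r p, s p] i) ≤
        (P p).valuation (p : Qb) ^ ν p := fun i => by fin_cases i; exacts [h₁, h₂]
    have e4 : MvPolynomial.eval ![(a : Qb) / m, (b : Qb) / m] P4 = (c4 : Qb) := by
      rw [(hP46 _).1, hc4]; simp [hVdef]
    have e6 : MvPolynomial.eval ![(a : Qb) / m, (b : Qb) / m] P6 = (c6 : Qb) := by
      rw [(hP46 _).2, hc6]; simp [hVdef]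
    rw [← e4, ← e6]
    exact ⟨hν4 p hp _ hv, hν6 p hp _ hv⟩
  have hm' : (m : Qb) ≠ 0 := Nat.cast_ne_zero.mpr hm0.ne'
  have hyV : ∀ i, (a : Qb) * B.w i + b * e i = (m : Qb) * V i := fun i => by
    simp only [hVdef]; push_cast; field_simp
  have hscaled : (m : Qb) ^ 4 * (c4 : Qb) =
      L3.hc4 ((a : Qb) * B.w 0 + b * e 0) ((a : Qb) * B.w 1 + b * e 1) ∧
      (m : Qb) ^ 6 * (c6 : Qb) =
      L3.hc6 ((a : Qb) * B.w 0 + b * e 0) ((a : Qb) * B.w 1 + b * e 1) := by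
    rw [hc4, hc6, hyV 0, hyV 1, L3.hc4_smul, L3.hc6_smul]
    exact ⟨rfl, rfl⟩
  have hgood : ∀ p : ℕ, p.Prime → p ∉ S → ∀ i : Fin 2, (P p).valuation (B.w i) ≤ 1 ∧
      (P p).valuation (e i) ≤ 1 ∧ (P p).valuation (det2 B.w e)⁻¹ ≤ 1 ∧
      (P p).valuation (m : Qb) = 1 := fun p hp hpS i => by
    have h := hN p hp (hout p hp hpS).2.2.1 (P p) (hP p hp)
    refine ⟨h _ (by fin_cases i <;> simp), h _ (by fin_cases i <;> simp), h _ (by simp),
      v_natCast_eq_one hp (hP p hp) fun hd => hpS (hmS' p hp hd)⟩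
  have key : ∀ p : ℕ, p.Prime →
      (P p).valuation (c4 : Qb) ≤ 1 ∧ (P p).valuation (c6 : Qb) ≤ 1 := by
    intro p hp
    by_cases hpS : p ∈ S
    · have h1 := pow_le_one₀ (zero_le (a := (P p).valuation (p : Qb)))
        (v_natPrime_lt (hP p hp)).le (n := m₀ p)
      constructor
      · rw [← sub_add_cancel (c4 : Qb) (x p)]
        exact (P p).valuation.map_add_le ((hclose p hpS).1.trans h1) (hT p hp).int4
      · rw [← sub_add_cancel (c6 : Qb) (y p)]
        exact (P p).valuation.map_add_le ((hclose p hpS).2.trans h1) (hT p hp).int6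
    · have hg := hgood p hp hpS
      have hy : ∀ i, (a : Qb) * B.w i + b * e i ∈ P p := fun i =>
        ((P p).valuation_le_one_iff _).mp ((P p).valuation.map_add_le
          ((map_mul _ _ _).trans_le (mul_le_one' (FA.Local.intCast_le_one a) (hg i).1))
          ((map_mul _ _ _).trans_le (mul_le_one' (FA.Local.intCast_le_one _) (hg i).2.1)))
      constructor
      · have h := congrArg (P p).valuation hscaled.1
        rw [map_mul, map_pow, (hg 0).2.2.2, one_pow, one_mul] at h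
        rw [h, (P p).valuation_le_one_iff]
        exact hc4_mem (hy 0) (hy 1)
      · have h := congrArg (P p).valuation hscaled.2
        rw [map_mul, map_pow, (hg 0).2.2.2, one_pow, one_mul] at h
        rw [h, (P p).valuation_le_one_iff]
        exact hc6_mem (hy 0) (hy 1)
  obtain ⟨C₄, hC4⟩ := exists_int_of_integral (x := c4) fun p hp => ⟨P p, hP p hp, (key p hp).1⟩
  obtain ⟨C₆, hC6⟩ := exists_int_of_integral (x := c6) fun p hp => ⟨P p, hP p hp, (key p hp).2⟩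
  have hC4' : (C₄ : Qb) = (c4 : Qb) := by rw [← hC4, Rat.cast_intCast]
  have hC6' : (C₆ : Qb) = (c6 : Qb) := by rw [← hC6, Rat.cast_intCast]
  obtain ⟨W₀, hW₀⟩ := exists_congr_model S hS m₀ Wp
  have hprec : ∀ p, prec p ≤ m₀ p := fun p => by
    simp only [hm₀, prec]; split_ifs <;> omega
  have hm1 : ∀ p, 0 < m₀ p := fun p => by simp [hm₀]
  have hdvd1 : ∀ p : ℕ, (p : ℤ) ∣ ((p ^ m₀ p : ℕ) : ℤ) := fun p => by
    exact_mod_cast dvd_pow_self p (hm1 p).ne'
  have hW₀4 : ∀ p ∈ S, (p : ℤ) ∣ W₀.Δ → ¬ (p : ℤ) ∣ W₀.c₄ := fun p hp hd h4 =>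
    (hT p (hS p hp)).semistable (by simpa using dvd_sub hd ((hdvd1 p).trans (hW₀ p hp).dvd_Δ))
      (by simpa using dvd_sub h4 ((hdvd1 p).trans (hW₀ p hp).dvd_c₄))
  have hcong : ∀ p ∈ S, (p : ℤ) ^ prec p ∣ C₄ - W₀.c₄ ∧ (p : ℤ) ^ prec p ∣ C₆ - W₀.c₆ := by
    intro p hp
    have hA := hP p (hS p hp)
    have step : ∀ (C : ℤ) (c : Qb) (t : Qb) (w₀ wp : ℤ), (C : Qb) = c →
        (P p).valuation (c - t) ≤ (P p).valuation (p : Qb) ^ m₀ p →
        (P p).valuation (t - (wp : Qb)) ≤ (P p).valuation (p : Qb) ^ prec p →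
        ((p ^ m₀ p : ℕ) : ℤ) ∣ w₀ - wp → (p : ℤ) ^ prec p ∣ C - w₀ := by
      intro C c t w₀ wp hC h1 h2 h3
      refine (intCast_le_pow_iff (hS p hp) hA _ _).mp ?_
      rw [show ((C - w₀ : ℤ) : Qb) = (c - t) + (t - (wp : Qb)) - ((w₀ - wp : ℤ) : Qb) by
        rw [← hC]; push_cast; ring]
      refine ((P p).valuation.map_sub _ _).trans (max_le ((P p).valuation.map_add_le
        (h1.trans (pow_q_anti hA (hprec p))) h2) ?_)
      exact (intCast_le_pow_iff (hS p hp) hA _ _).mpr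
        ((pow_dvd_pow _ (hprec p)).trans (by rwa [Nat.cast_pow] at h3))
    exact ⟨step _ _ _ _ _ hC4' (hclose p hp).1 (hT p (hS p hp)).near4 (hW₀ p hp).dvd_c₄,
      step _ _ _ _ _ hC6' (hclose p hp).2 (hT p (hS p hp)).near6 (hW₀ p hp).dvd_c₆⟩
  have hcop : ∀ p : ℕ, p.Prime → p ∉ S → ¬ ((p : ℤ) ∣ C₄ ∧ (p : ℤ) ∣ C₆) := by
    rintro p hp hpS ⟨h4, h6⟩
    have hA := hP p hp
    have h40 := (hout p hp hpS).1
    refine not_dvd_both₃ (w := B.w) (e := e) hp hA (by omega) (by omega)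
      (fun i => (hgood p hp hpS i).1) (fun i => (hgood p hp hpS i).2.1)
      (hgood p hp hpS 0).2.2.1 hind (a := a) (b := b) (hprim p hp hpS) ⟨?_, ?_⟩
    · rw [← hscaled.1, map_mul, map_pow, (hgood p hp hpS 0).2.2.2, one_pow, one_mul, ← hC4']
      exact (intCast_lt_one_iff hp hA _).mpr h4
    · rw [← hscaled.2, map_mul, map_pow, (hgood p hp hpS 0).2.2.2, one_pow, one_mul, ← hC6']
      exact (intCast_lt_one_iff hp hA _).mpr h6
  obtain ⟨W', hW'4, hW'6, hW's, hW'r⟩ := exists_model S hS h2S h3S W₀ hW₀4 C₄ C₆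
    (fun p hp => (hcong p hp).1) (fun p hp => (hcong p hp).2) hcop
  have hrel' : (C₄ : Qb) ^ 3 - (C₆ : Qb) ^ 2 = 1728 * (W'.Δ : Qb) := by
    rw [← hW'4, ← hW'6]; exact_mod_cast W'.c_relation.symm
  have hdisc : ∀ p ∈ S, W'.Δ ≠ 0 ∧ padicValInt p W'.Δ = padicValInt p (D₀ p) := fun p hp => by
    have t := hT p (hS p hp)
    refine padic_disc (hS p hp) (hP p (hS p hp)) (x := x p) (y := y p) (z := z p) (n := m₀ p)
      (C₄ := C₄) (C₆ := C₆) (by rw [← hW'4, ← hW'6]; exact W'.c_relation.symm) t.rel t.ne t.disc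
      t.int4 t.int6 ?_ ?_ (by simp [hm₀])
    · rw [hC4']; exact (hclose p hp).1
    · rw [hC6']; exact (hclose p hp).2
  have hΔ' : W'.Δ ≠ 0 := (hdisc 2 h2S).1
  have hred : ∀ p ∈ S, W'.reductionMod p = (Wp p).reductionMod p := fun p hp =>
    (hW'r p hp).trans ((hW₀ p hp).reduction (hm1 p))
  -- the discriminant in terms of the form
  have hDF : ((L : ℤ) * (m : ℤ) ^ 4) ^ 3 * W'.Δ = W.Δ * F ^ 3 := by
    apply Int.cast_injective (α := Qb)
    have hδ : 1728 * L3.hD (B.w 0) (B.w 1) ^ 3 = 1728 * (W.Δ : Qb) := by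
      rw [← L3.hesse_syzygy, (base_sat₃ hBa hBb).1, (base_sat₃ hBa hBb).2]
      exact_mod_cast W.c_relation.symm
    have hδ' := mul_left_cancel₀ (by norm_num) hδ
    have hVD : 1728 * L3.hD (V 0) (V 1) ^ 3 = 1728 * (W'.Δ : Qb) := by
      rw [← L3.hesse_syzygy, ← hc4, ← hc6, ← hC4', ← hC6', hrel']
    have hVD' := mul_left_cancel₀ (by norm_num) hVD
    have hval := hQ.value (a : Qb) (b : Qb)
    rw [hyV 0, hyV 1, L3.hD_smul] at hval
    have hFq : (F : Qb) = qform Q (a : Qb) (b : Qb) := by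
      rw [hF, ← eq_intCast (Int.castRingHom Qb), map_qform, eq_intCast, eq_intCast]
    push_cast
    rw [← hVD', ← hδ', hFq, ← mul_pow, ← mul_pow, mul_assoc, hval]
  have hF0 : F ≠ 0 := fun h => by rw [h, mul_zero] at hFneg; exact lt_irrefl _ hFneg
  have hpos : 0 < ((L : ℤ) * (m : ℤ) ^ 4) ^ 3 :=
    pow_pos (mul_pos (Int.natCast_pos.mpr hQ.pos) (pow_pos (Int.natCast_pos.mpr hm0) 4)) 3
  have hneg' : W'.Δ < 0 := by
    have h1 : W.Δ * F ^ 3 < 0 := by
      rw [show W.Δ * F ^ 3 = (W.Δ * F) * F ^ 2 by ring]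
      exact mul_neg_of_neg_of_pos hFneg (lt_of_le_of_ne (sq_nonneg F) (pow_ne_zero 2 hF0).symm)
    by_contra hle
    have h2 := mul_nonneg hpos.le (not_lt.mp hle)
    rw [hDF] at h2
    exact absurd h2 (not_le.mpr h1)
  have hodd : ∀ q : ℕ, q.Prime → (q : ℤ) ∣ W'.Δ → Odd (padicValInt q W'.Δ) := by
    intro q hq hqd
    have : Fact q.Prime := ⟨hq⟩
    by_cases hqS : q ∈ S
    · rw [(hdisc q hqS).2]
      refine (hT q hq).odd ?_
      by_contra hnd
      have h1 := (padicValInt_dvd_iff (p := q) 1 W'.Δ).mp (by simpa using hqd)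
      rw [(hdisc q hqS).2, padicValInt.eq_zero_of_not_dvd hnd] at h1
      rcases h1 with h1 | h1
      · exact hΔ' h1
      · omega
    · obtain ⟨-, hqΔ, -, hqL, -⟩ := hout q hq hqS
      have hqF : (q : ℤ) ∣ F := by
        have h : (q : ℤ) ∣ W.Δ * F ^ 3 := hDF ▸ dvd_mul_of_dvd_right hqd _
        exact (Nat.prime_iff_prime_int.mp hq).dvd_of_dvd_pow
          (((Nat.prime_iff_prime_int.mp hq).dvd_or_dvd h).resolve_left hqΔ)
      have hqm : ¬ (q : ℤ) ∣ ((L : ℤ) * (m : ℤ) ^ 4) ^ 3 := fun h => by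
        rcases (Nat.prime_iff_prime_int.mp hq).dvd_or_dvd
          ((Nat.prime_iff_prime_int.mp hq).dvd_of_dvd_pow h) with h | h
        · exact hqL (Int.natCast_dvd_natCast.mp h)
        · exact hqS (hmS' q hq (Int.natCast_dvd_natCast.mp
            ((Nat.prime_iff_prime_int.mp hq).dvd_of_dvd_pow h)))
      have e := congrArg (padicValInt q) hDF
      rw [padicValInt.mul hpos.ne' hΔ', padicValInt.eq_zero_of_not_dvd hqm, zero_add,
        padicValInt.mul hΔ (pow_ne_zero 3 hF0), padicValInt.eq_zero_of_not_dvd hqΔ, zero_add,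
        pow_succ, padicValInt.mul (pow_ne_zero 2 hF0) hF0, pow_two,
        padicValInt.mul hF0 hF0] at e
      have h1 : 1 ≤ padicValInt q F :=
        ((padicValInt_dvd_iff (p := q) 1 F).mp (by simpa using hqF)).resolve_left hF0
      have h2 : padicValInt q F < 2 := by
        by_contra h
        exact hsq q hq hqS ((pow_dvd_pow _ (not_lt.mp h)).trans (padicValInt_dvd F))
      rw [e, show padicValInt q F = 1 by omega]
      decide
  obtain ⟨h2q, h2D⟩ := (hT 2 Nat.prime_two).atTwo rfl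
  have hr2 : W'.reductionMod 2 = ⟨0, 0, 1, 0, ((Wp 2).a₆ : ZMod 2)⟩ := by
    rw [hred 2 h2S]
    nth_rw 1 [h2q]
    ext <;> simp [reductionMod]
  have hgood2 : W'.IsGoodPrimeFor 2 := by
    intro hd
    have : Fact (Nat.Prime 2) := ⟨Nat.prime_two⟩
    have h1 := (padicValInt_dvd_iff (p := 2) 1 W'.Δ).mp (by simpa using hd)
    rw [(hdisc 2 h2S).2, padicValInt.eq_zero_of_not_dvd (by exact_mod_cast h2D)] at h1
    rcases h1 with h1 | h1
    · exact hΔ' h1
    · omega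
  have hcoef : (W'.a₁ : ZMod 2) = 0 ∧ (W'.a₃ : ZMod 2) = 1 ∧
      W'.reductionMod 2 = ⟨0, 0, 1, 0, (W'.a₆ : ZMod 2)⟩ := by
    have h1 := congrArg WeierstrassCurve.a₁ hr2
    have h3' := congrArg WeierstrassCurve.a₃ hr2
    have h6 := congrArg WeierstrassCurve.a₆ hr2
    simp [reductionMod] at h1 h3' h6
    exact ⟨h1, h3', by rw [hr2, h6]⟩
  refine ⟨W', hneg', hW's, hgood2, apOfModel_two_eq_zero hcoef.2.2, ?_, hodd, ?_, ?_,
    fun q hq hq2 hqd => ?_⟩
  · refine modRepIsIrreducible_two hΔ' ((ZMod.intCast_zmod_eq_zero_iff_dvd _ 2).mp hcoef.1) fun h => ?_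
    have h' : (W'.a₃ : ZMod 2) = 0 := (ZMod.intCast_zmod_eq_zero_iff_dvd _ 2).mpr h
    rw [hcoef.2.1] at h'
    exact one_ne_zero h'
  · have key : ∀ (E : WeierstrassCurve ℤ), E.Δ ≠ 0 →
        TorsIso 3 (FA.Frob.ratCurve E) (shortKl (E.c₄ : ℚ) (E.c₆ : ℚ)) := fun E hE => by
      have := FA.Frob.ratCurve_isElliptic_of_Δ hE
      have : (shortKl (E.c₄ : ℚ) (E.c₆ : ℚ)).IsElliptic := shortKl_isElliptic fun h => by
        have h' : E.c₄ ^ 3 = E.c₆ ^ 2 := by exact_mod_cast h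
        have := E.c_relation
        rw [h', sub_self] at this
        exact hE ((mul_eq_zero.mp this).resolve_left (by norm_num))
      have : Fact (Nat.Prime 3) := ⟨Nat.prime_three⟩
      obtain ⟨C, hC⟩ := isIntegralModelOf_shortKl E
      exact TorsIso.of_vc C hC
    have hne : ∀ E : WeierstrassCurve ℤ, E.Δ ≠ 0 →
        (algebraMap ℚ Qb (E.c₄ : ℚ)) ^ 3 ≠ (algebraMap ℚ Qb (E.c₆ : ℚ)) ^ 2 := fun E hE h => by
      refine hE ?_
      have h' : E.c₄ ^ 3 = E.c₆ ^ 2 := by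
        simp only [eq_ratCast, Rat.cast_intCast] at h; exact_mod_cast h
      have := E.c_relation
      rw [h', sub_self] at this
      exact (mul_eq_zero.mp this).resolve_left (by norm_num)
    refine ((key W hΔ).trans ?_).trans (key W' hΔ').symm
    refine B.inV_base.torsIso hV ⟨(base_sat₃ hBa hBb).1.trans (by simp),
      (base_sat₃ hBa hBb).2.trans (by simp), hne W hΔ⟩ ⟨?_, ?_, hne W' hΔ'⟩
    · rw [hW'4, ← hc4, ← hC4']; simp
    · rw [hW'6, ← hc6, ← hC6']; simp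
  · rw [hred 3 h3S, ((hT 3 Nat.prime_three).away (by norm_num)).1]
  · obtain ⟨e1, e2⟩ := (hT q hq).away hq2
    have hqS := hΔS q hq hqd
    have : Fact q.Prime := ⟨hq⟩
    refine ⟨by rw [hred q hqS, e1], ?_⟩
    have h1 := ((padicValInt_dvd_iff (p := q) 1 (D₀ q)).mp (by simpa using e2 hqd)).resolve_left
      (hT q hq).ne
    have h2 := padicValInt_dvd (p := q) W'.Δ
    rw [(hdisc q hqS).2] at h2
    exact (dvd_pow_self _ (by omega)).trans h2

end

end FA.Switch
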