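/-
A semistable curve with even square discriminant has irreducible `5`-torsion.
-/
import Fermat.Agent.EC.S51Aux
import Fermat.Agent.Frob.Charpoly
import Fermat.Prelude.Def_FLTPrelim_ModularRep
import Mathlib.RingTheory.Int.Basic
import Mathlib.Data.ZMod.Basic
import Mathlib.NumberTheory.Real.Irrational

set_option autoImplicit false
set_option linter.unusedSectionVars false

open WeierstrassCurve

namespace FA.Switch

noncomputable section

lemma fourth_power_factors {x y z : ℤ} (hx : 0 ≤ x) (hy : 0 ≤ y) (hco : IsCoprime x y)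
    (h : x * y = z ^ 4) : ∃ a b : ℤ, 0 ≤ a ∧ 0 ≤ b ∧ x = a ^ 4 ∧ y = b ^ 4 := by
  have key : ∀ x y : ℤ, 0 ≤ x → IsCoprime x y → x * y = z ^ 4 → ∃ a : ℤ, 0 ≤ a ∧ x = a ^ 4 := by
    intro x y hx hco h
    obtain ⟨d, hd⟩ := exists_associated_pow_of_mul_eq_pow' hco h
    refine ⟨|d|, abs_nonneg d, ?_⟩
    have h4 : |d| ^ 4 = d ^ 4 := by rw [← abs_pow]; exact abs_of_nonneg (by positivity)
    rw [h4]
    rcases Int.associated_iff.mp hd with h | h
    · exact h.symm
    · have : (0 : ℤ) ≤ d ^ 4 := by positivity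
      omega
  obtain ⟨a, ha, ha'⟩ := key x y hx hco h
  obtain ⟨b, hb, hb'⟩ := key y x hy hco.symm (by rw [mul_comm]; exact h)
  exact ⟨a, b, ha, hb, ha', hb'⟩

lemma natAbs_eq_of_sq {x y : ℤ} (h : x ^ 2 = y ^ 2) : x.natAbs = y.natAbs := by
  rcases sq_eq_sq_iff_eq_or_eq_neg.mp h with h | h <;> simp [h]

lemma isCoprime_of_factor {u v x y a b : ℤ} (h : IsCoprime u v) (hu : u = a * x) (hv : v = b * y) :
    IsCoprime x y :=
  (hu ▸ hv ▸ h).of_mul_left_right.of_mul_right_right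

/-- `s² = m⁴ + 22 m²n² + 125 n⁴` has no solution with `mn ≠ 0`, coprime, of different parity. -/
theorem no_quartic_point : ∀ (N : ℕ) (m n s : ℤ), n.natAbs = N → m ≠ 0 → n ≠ 0 → IsCoprime m n →
    Odd (m + n) → s ^ 2 ≠ m ^ 4 + 22 * m ^ 2 * n ^ 2 + 125 * n ^ 4 := by
  intro N
  induction N using Nat.strong_induction_on with
  | _ N ih =>
  intro m n s hN hm hn hco hodd heq
  set A : ℤ := m ^ 2 + 11 * n ^ 2 with hA
  set t : ℤ := |s|
  have ht : t ^ 2 = A ^ 2 + 4 * n ^ 4 := by rw [sq_abs, heq, hA]; ring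
  have hAodd : Odd A := by
    rw [hA]
    rcases Int.even_or_odd m with hm2 | hm2
    · have hn2 : Odd n := (Int.odd_add.mp hodd).not.mp (Int.not_odd_iff_even.mpr hm2) |> Int.not_even_iff_odd.mp
      exact (Even.pow_of_ne_zero hm2 two_ne_zero).add_odd ((by decide : Odd (11 : ℤ)).mul hn2.pow)
    · have hn2 : Even n := (Int.odd_add.mp hodd).mp hm2
      exact hm2.pow.add_even ((hn2.pow_of_ne_zero two_ne_zero).mul_left 11)
  have htodd : Odd t := by
    have : Odd (t ^ 2) := by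
      rw [ht]
      exact hAodd.pow.add_even (Even.mul_right (by decide) _)
    exact (Int.odd_pow.mp this).resolve_right two_ne_zero
  obtain ⟨i, hi⟩ := htodd
  obtain ⟨j, hj⟩ := hAodd
  have hPQ : (i - j) * (i + j + 1) = n ^ 4 := by
    refine mul_left_cancel₀ (show (4 : ℤ) ≠ 0 by norm_num) ?_
    rw [hi, hj] at ht
    linear_combination ht
  have hn4 : 0 < n ^ 4 := by positivity
  have hApos : 0 < A := by positivity
  have hij : j < i := by
    by_contra hle
    have h0 : 0 ≤ t := abs_nonneg s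
    nlinarith
  have hco' : IsCoprime (i - j) (i + j + 1) := by
    refine isCoprime_of_prime_dvd (by omega) fun z hz h1 h2 => ?_
    have hzA : z ∣ A := by
      have := dvd_sub h2 h1
      rwa [show i + j + 1 - (i - j) = A by omega] at this
    have hzn : z ∣ n := hz.dvd_of_dvd_pow (hPQ ▸ dvd_mul_of_dvd_left h1 _)
    have hzm : z ∣ m := hz.dvd_of_dvd_pow (n := 2) (by
      have := dvd_sub hzA (dvd_mul_of_dvd_right (dvd_pow hzn two_ne_zero) (11 : ℤ))
      rwa [hA, add_sub_cancel_right] at this)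
    exact hz.not_unit (hco.isUnit_of_dvd' hzm hzn)
  obtain ⟨α, β, hα0, hβ0, hα, hβ⟩ := fourth_power_factors (by omega) (by omega) hco' hPQ
  have hαβ : (α * β) ^ 2 = n ^ 2 := by
    refine (sq_eq_sq₀ (by positivity) (by positivity)).mp ?_
    rw [hα, hβ] at hPQ
    linear_combination hPQ
  have hm2 : m ^ 2 = β ^ 4 - α ^ 4 - 11 * α ^ 2 * β ^ 2 := by
    have h1 : A = β ^ 4 - α ^ 4 := by omega
    rw [hA] at h1
    linear_combination h1 - 11 * (-hαβ)
  have hcoab : IsCoprime α β := by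
    rw [hα, hβ] at hco'
    exact (IsCoprime.pow_iff (by norm_num) (by norm_num)).mp hco'
  have hα4 : (4 : ℤ) ∣ α ∧ Odd β := by
    have key : ∀ x a b : ZMod 8, x ^ 2 = b ^ 4 - a ^ 4 - 11 * a ^ 2 * b ^ 2 →
        ((a = 0 ∨ a = 4) ∧ 4 * b = 4) ∨ (4 * a = 0 ∧ 4 * b = 0) := by decide +kernel
    have h8 := key m α β (by exact_mod_cast congrArg (fun z : ℤ => (z : ZMod 8)) hm2)
    have e : ∀ (z c : ℤ), (z : ZMod 8) = (c : ZMod 8) → (8 : ℤ) ∣ c - z := fun z c h =>
      (ZMod.intCast_eq_intCast_iff_dvd_sub _ _ _).mp h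
    rcases h8 with ⟨ha, hb⟩ | ⟨ha, hb⟩
    · have hb' := e (4 * β) 4 (by push_cast; exact hb)
      refine ⟨?_, Int.odd_iff.mpr (by omega)⟩
      rcases ha with ha | ha
      · have := e α 0 (by push_cast; exact ha); omega
      · have := e α 4 (by push_cast; exact ha); omega
    · have ha' := e (4 * α) 0 (by push_cast; exact ha)
      have hb' := e (4 * β) 0 (by push_cast; exact hb)
      exfalso
      have hu := hcoab.isUnit_of_dvd' (show (2 : ℤ) ∣ α by omega) (show (2 : ℤ) ∣ β by omega)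
      exact Int.prime_two.not_unit hu
  obtain ⟨⟨a, rfl⟩, hβodd⟩ := hα4
  have ha0 : a ≠ 0 := fun h => hn (by rw [h] at hαβ; simpa using hαβ.symm)
  have hβ0' : β ≠ 0 := fun h => hn (by rw [h] at hαβ; simpa using hαβ.symm)
  have hna : n.natAbs = 4 * a.natAbs * β.natAbs := by
    have h := natAbs_eq_of_sq hαβ
    rw [Int.natAbs_mul, Int.natAbs_mul] at h
    exact h.symm
  set X : ℤ := β ^ 2 - 88 * a ^ 2 with hX
  have hXm : X ^ 2 - m ^ 2 = 8000 * a ^ 4 := by rw [hm2, hX]; ring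
  have hXodd : Odd X := hβodd.pow.sub_even ((by decide : Even (88 : ℤ)).mul_right _)
  have hmodd : Odd m := by
    have : Odd (m ^ 2) := by
      rw [show m ^ 2 = X ^ 2 - 8000 * a ^ 4 by linear_combination -hXm]
      exact hXodd.pow.sub_even ((by decide : Even (8000 : ℤ)).mul_right _)
    exact (Int.odd_pow.mp this).resolve_right two_ne_zero
  have hab : IsCoprime a β := hcoab.of_mul_left_right
  -- the two factors
  have main : ∀ u v : ℤ, u + v = X → u * v = 2000 * a ^ 4 → (16 : ℤ) ∣ u → False := by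
    intro u v huv hprod h16
    have hu0 : u ≠ 0 := fun h => by rw [h, zero_mul] at hprod; simp [ha0] at hprod
    have hcop : IsCoprime u v := by
      refine isCoprime_of_prime_dvd (fun h => hu0 h.1) fun z hz h1 h2 => ?_
      have hzX : z ∣ X := huv ▸ dvd_add h1 h2
      have hza : ¬ z ∣ a := fun hza => by
        refine hz.not_unit (hab.isUnit_of_dvd' hza (hz.dvd_of_dvd_pow (n := 2) ?_))
        have := dvd_add hzX (dvd_mul_of_dvd_right (dvd_pow hza two_ne_zero) (88 : ℤ))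
        rwa [hX, sub_add_cancel] at this
      rcases hz.dvd_or_dvd (hprod ▸ dvd_mul_of_dvd_left h1 v : z ∣ 2000 * a ^ 4) with h | h
      · rcases hz.dvd_or_dvd (show z ∣ (2 : ℤ) ^ 4 * 5 ^ 3 from h) with h | h
        · have h2z := (hz.associated_of_dvd Int.prime_two (hz.dvd_of_dvd_pow h)).symm.dvd.trans hzX
          exact (Int.not_even_iff_odd.mpr hXodd) (even_iff_two_dvd.mpr h2z)
        · have h5 : Prime (5 : ℤ) := Nat.prime_iff_prime_int.mp Nat.prime_five
          have ha5 := hz.associated_of_dvd h5 (hz.dvd_of_dvd_pow h)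
          have h5X : (5 : ℤ) ∣ X := ha5.symm.dvd.trans hzX
          have key : ∀ b c : ZMod 5, b ^ 2 - 88 * c ^ 2 = 0 → c = 0 := by decide
          have hc := key β a (by
            have := (ZMod.intCast_zmod_eq_zero_iff_dvd X 5).mpr h5X
            rw [hX] at this; push_cast at this; exact this)
          exact hza (ha5.dvd.trans ((ZMod.intCast_zmod_eq_zero_iff_dvd a 5).mp hc))
      · exact hza (hz.dvd_of_dvd_pow h)
    obtain ⟨u', hu'⟩ := h16
    have hvodd : Odd v := by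
      have : Odd (X - u) := hXodd.sub_even (by rw [hu']; exact (by decide : Even (16 : ℤ)).mul_right _)
      rwa [show X - u = v by omega] at this
    rcases lt_or_gt_of_ne hu0 with hneg | hpos
    · -- negative factors
      have hvneg : v < 0 := by
        by_contra hv
        have h1 := mul_nonpos_of_nonpos_of_nonneg hneg.le (not_lt.mp hv)
        have : (0 : ℤ) < 2000 * a ^ 4 := by positivity
        omega
      have hb2 : β ^ 2 = 88 * a ^ 2 + (u + v) := by rw [huv, hX]; ring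
      have ha4 : 0 < a ^ 4 := by positivity
      have h3 : (88 * a ^ 2) ^ 2 < (u + v) ^ 2 := by
        linarith [sq_nonneg (u - v), show (u + v) ^ 2 = (u - v) ^ 2 + 4 * (u * v) by ring,
          show (88 * a ^ 2) ^ 2 = 7744 * a ^ 4 by ring]
      have h4 := sq_lt_sq.mp h3
      rw [abs_of_nonneg (by positivity : (0 : ℤ) ≤ 88 * a ^ 2), abs_of_neg (by omega : u + v < 0)] at h4
      have h5 := sq_nonneg β
      omega
    · have hvpos : 0 < v := by
        by_contra hv
        have h1 := mul_nonpos_of_nonneg_of_nonpos hpos.le (not_lt.mp hv)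
        have : (0 : ℤ) < 2000 * a ^ 4 := by positivity
        omega
      rcases (Nat.prime_iff_prime_int.mp Nat.prime_five).dvd_or_dvd
        (show (5 : ℤ) ∣ u * v from hprod ▸ Dvd.intro (400 * a ^ 4) (by ring)) with h5 | h5
      · have h125 : (125 : ℤ) ∣ u := by
          refine (((hcop.of_isCoprime_of_dvd_left h5).pow_left (m := 3))).dvd_of_dvd_mul_right ?_
          exact hprod ▸ Dvd.intro (16 * a ^ 4) (by ring)
        obtain ⟨u₁, hu₁⟩ : (2000 : ℤ) ∣ u := by
          rw [show (2000 : ℤ) = 16 * 125 by norm_num]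
          exact IsCoprime.mul_dvd ⟨-39, 5, by norm_num⟩ ⟨u', hu'⟩ h125
        obtain ⟨d, c, hd0, hc0, hd, hc⟩ := fourth_power_factors (x := u₁) (y := v) (z := a)
          (by omega) hvpos.le (isCoprime_of_factor hcop hu₁ (one_mul v).symm) (by
            refine mul_left_cancel₀ (show (2000 : ℤ) ≠ 0 by norm_num) ?_
            linear_combination hprod - v * hu₁)
        have hcd : a ^ 2 = (c * d) ^ 2 := by
          refine (sq_eq_sq₀ (by positivity) (by positivity)).mp ?_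
          refine mul_left_cancel₀ (show (2000 : ℤ) ≠ 0 by norm_num) ?_
          rw [hu₁, hd, hc] at hprod
          linear_combination -hprod
        have hd' : d ≠ 0 := fun h => ha0 (by rw [h] at hcd; simpa using hcd)
        have hc' : c ≠ 0 := fun h => ha0 (by rw [h] at hcd; simpa using hcd)
        have hcodd : Odd c := (Int.odd_pow.mp (hc ▸ hvodd)).resolve_right (by norm_num)
        have hda : d.natAbs ≤ a.natAbs := by
          rw [natAbs_eq_of_sq hcd, Int.natAbs_mul]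
          exact Nat.le_mul_of_pos_left _ (Int.natAbs_pos.mpr hc')
        refine ih (2 * d.natAbs) ?_ c (2 * d) β ?_ hc' (mul_ne_zero two_ne_zero hd') ?_
          (hcodd.add_even (even_two_mul d)) ?_
        · have h2 : 1 ≤ a.natAbs := Int.natAbs_pos.mpr ha0
          have h1 : a.natAbs ≤ a.natAbs * β.natAbs :=
            Nat.le_mul_of_pos_right _ (Int.natAbs_pos.mpr hβ0')
          rw [← hN, hna, mul_assoc]; omega
        · simp [Int.natAbs_mul]
        · refine IsCoprime.mul_right ?_ ?_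
          · obtain ⟨k, hk⟩ := hcodd
            exact ⟨1, -k, by rw [hk]; ring⟩
          · rw [hu₁, hd, hc] at hcop
            exact ((IsCoprime.pow_iff (by norm_num) (by norm_num)).mp hcop.of_mul_left_right).symm
        · rw [hu₁, hd, hc, hX] at huv
          linear_combination -huv - 88 * (-hcd)
      · have h125 : (125 : ℤ) ∣ v := by
          refine (((hcop.symm.of_isCoprime_of_dvd_left h5).pow_left (m := 3))).dvd_of_dvd_mul_left ?_
          exact hprod ▸ Dvd.intro (16 * a ^ 4) (by ring)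
        obtain ⟨v₁, hv₁⟩ := h125
        obtain ⟨c, d, hc0, hd0, hc, hd⟩ := fourth_power_factors (x := u') (y := v₁) (z := a)
          (by omega) (by omega) (isCoprime_of_factor hcop hu' hv₁) (by
            refine mul_left_cancel₀ (show (2000 : ℤ) ≠ 0 by norm_num) ?_
            rw [hu', hv₁] at hprod
            linear_combination hprod)
        have hcd : a ^ 2 = (c * d) ^ 2 := by
          refine (sq_eq_sq₀ (by positivity) (by positivity)).mp ?_
          refine mul_left_cancel₀ (show (2000 : ℤ) ≠ 0 by norm_num) ?_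
          rw [hu', hc, hv₁, hd] at hprod
          linear_combination -hprod
        have hd' : d ≠ 0 := fun h => ha0 (by rw [h] at hcd; simpa using hcd)
        have hc' : c ≠ 0 := fun h => ha0 (by rw [h] at hcd; simpa using hcd)
        have hdodd : Odd d := by
          rw [hv₁, hd] at hvodd
          exact (Int.odd_pow.mp (Int.odd_mul.mp hvodd).2).resolve_right (by norm_num)
        have hda : d.natAbs ≤ a.natAbs := by
          rw [natAbs_eq_of_sq hcd, Int.natAbs_mul]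
          exact Nat.le_mul_of_pos_left _ (Int.natAbs_pos.mpr hc')
        refine ih d.natAbs ?_ (2 * c) d β rfl (mul_ne_zero two_ne_zero hc') hd' ?_
          ((even_two_mul c).add_odd hdodd) ?_
        · have h2 : 1 ≤ a.natAbs := Int.natAbs_pos.mpr ha0
          have h1 : a.natAbs ≤ a.natAbs * β.natAbs :=
            Nat.le_mul_of_pos_right _ (Int.natAbs_pos.mpr hβ0')
          rw [← hN, hna, mul_assoc]; omega
        · refine IsCoprime.mul_left ?_ ?_
          · obtain ⟨k, hk⟩ := hdodd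
            exact ⟨-k, 1, by rw [hk]; ring⟩
          · rw [hu', hc, hv₁, hd] at hcop
            exact (IsCoprime.pow_iff (by norm_num) (by norm_num)).mp
              hcop.of_mul_left_right.of_mul_right_right
        · rw [hu', hc, hv₁, hd, hX] at huv
          linear_combination -huv - 88 * (-hcd)
  obtain ⟨i', hi'⟩ := hXodd
  obtain ⟨j', hj'⟩ := hmodd
  have hp : (i' - j') * (i' + j' + 1) = 2000 * a ^ 4 := by
    refine mul_left_cancel₀ (show (4 : ℤ) ≠ 0 by norm_num) ?_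
    rw [hi', hj'] at hXm
    linear_combination hXm
  have h16 : (16 : ℤ) ∣ (i' - j') * (i' + j' + 1) := hp ▸ Dvd.intro (125 * a ^ 4) (by ring)
  rcases Int.even_or_odd (i' - j') with h | h
  · refine main (i' - j') (i' + j' + 1) (by omega) hp ?_
    have hodd' : Odd (i' + j' + 1) := by
      obtain ⟨k, hk⟩ := h
      exact ⟨k + j', by omega⟩
    obtain ⟨k, hk⟩ := hodd'
    have hc : IsCoprime ((2 : ℤ) ^ 4) (i' + j' + 1) :=
      IsCoprime.pow_left ⟨-k, 1, by rw [hk]; ring⟩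
    exact hc.dvd_of_dvd_mul_right h16
  · refine main (i' + j' + 1) (i' - j') (by omega) (by rw [mul_comm]; exact hp) ?_
    obtain ⟨k, hk⟩ := h
    have hc : IsCoprime ((2 : ℤ) ^ 4) (i' - j') :=
      IsCoprime.pow_left ⟨-k, 1, by rw [hk]; ring⟩
    exact hc.dvd_of_dvd_mul_left h16

lemma sq_of_mul_fifth {r s d : ℤ} (hr : 0 < r) (hs : 0 < s) (hco : IsCoprime r s)
    (h : r * s ^ 5 = d ^ 2) : ∃ m n : ℤ, r = m ^ 2 ∧ s = n ^ 2 := by
  obtain ⟨m, hm⟩ : ∃ m : ℤ, r = m ^ 2 := by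
    obtain ⟨m, hm | hm⟩ := Int.sq_of_isCoprime hco.pow_right h
    · exact ⟨m, hm⟩
    · exact absurd hm (by nlinarith [sq_nonneg m])
  obtain ⟨f, hf⟩ : ∃ f : ℤ, s ^ 5 = f ^ 2 := by
    obtain ⟨f, hf | hf⟩ := Int.sq_of_isCoprime hco.pow_right.symm (by rw [mul_comm]; exact h)
    · exact ⟨f, hf⟩
    · exact absurd hf (by nlinarith [sq_nonneg f, pow_pos hs 5])
  obtain ⟨g, hg⟩ : s ^ 2 ∣ f := by
    rw [← Int.pow_dvd_pow_iff two_ne_zero, ← hf]
    exact Dvd.intro s (by ring)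
  refine ⟨m, g, hm, mul_left_cancel₀ (pow_ne_zero 4 hs.ne') ?_⟩
  rw [hg] at hf
  linear_combination hf

lemma isCoprime_c₄_Δ {W : WeierstrassCurve ℤ} (hΔ : W.Δ ≠ 0) (hW : W.IsSemistableModel) :
    IsCoprime W.Δ W.c₄ := by
  refine isCoprime_of_prime_dvd (fun h => hΔ h.1) fun z hz h1 h2 => ?_
  have hp := Int.prime_iff_natAbs_prime.mp hz
  exact hW z.natAbs hp (Int.natAbs_dvd.mpr h1) (Int.natAbs_dvd.mpr h2)

/-- The final step of the descent. -/
lemma square_step {d c E G k s : ℤ} (hd : d ≠ 0) (hs : 0 < s) (hco : IsCoprime k s)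
    (hdvd : k * s ^ 5 ∣ d ^ 2) (hdvd' : d ^ 2 ∣ k * s ^ 5) (hE : E ≠ 0) (hG : 0 < G)
    (h : c ^ 2 * (k * s ^ 5) = d ^ 2 * (G * E ^ 2)) :
    ∃ m n S : ℤ, k = m ^ 2 ∧ s = n ^ 2 ∧ G = S ^ 2 ∧ d ^ 2 = k * s ^ 5 := by
  have hd2 : 0 < d ^ 2 := lt_of_le_of_ne (sq_nonneg d) (pow_ne_zero 2 hd).symm
  have hR : 0 < d ^ 2 * (G * E ^ 2) :=
    mul_pos hd2 (mul_pos hG (lt_of_le_of_ne (sq_nonneg E) (pow_ne_zero 2 hE).symm))
  have hks : 0 < k * s ^ 5 := by
    by_contra hle
    nlinarith [mul_nonpos_of_nonneg_of_nonpos (sq_nonneg c) (not_lt.mp hle)]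
  have heq : d ^ 2 = k * s ^ 5 := Int.dvd_antisymm hd2.le hks.le hdvd' hdvd
  obtain ⟨m, n, hm, hn⟩ := sq_of_mul_fifth (pos_of_mul_pos_left hks (by positivity)) hs hco heq.symm
  rw [← heq] at h
  have hc : c ^ 2 = G * E ^ 2 := mul_left_cancel₀ hd2.ne' (by linear_combination h)
  obtain ⟨S, hS⟩ : E ∣ c := by
    rw [← Int.pow_dvd_pow_iff two_ne_zero, hc]
    exact dvd_mul_left _ _
  exact ⟨m, n, S, hm, hn, mul_left_cancel₀ (pow_ne_zero 2 hE) (by rw [hS] at hc; linear_combination -hc), heq⟩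

/-- **Irreducibility mod `5` for an even square discriminant.** -/
theorem modRepIsIrreducible_five_of_isSquare {W : WeierstrassCurve ℤ} (hΔ : W.Δ ≠ 0)
    (hW : W.IsSemistableModel) (hsq : IsSquare W.Δ) (h2 : (2 : ℤ) ∣ W.Δ) :
    W.ModRepIsIrreducible 5 := by
  by_contra hcon
  obtain ⟨d, hd'⟩ := hsq
  have hd : W.Δ = d ^ 2 := by rw [hd', sq]
  have hd0 : d ≠ 0 := fun h => hΔ (by rw [hd, h]; ring)
  have := FA.Frob.ratCurve_isElliptic_of_Δ hΔ
  obtain ⟨t, ht0, ht⟩ := FA.EC.exists_param_five (E := W.map (Int.castRingHom ℚ)) hcon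
  rw [map_c₄, map_Δ, eq_intCast, eq_intCast] at ht
  set r := t.num with hr
  set s : ℤ := (t.den : ℤ) with hs
  have hs0 : 0 < s := by rw [hs]; exact_mod_cast t.den_pos
  have hrs : IsCoprime r s := by
    rw [hr, hs, Int.isCoprime_iff_gcd_eq_one, Int.gcd_eq_natAbs, Int.natAbs_natCast]
    exact t.reduced
  have hts : (s : ℚ) * t = (r : ℚ) := by
    rw [hr, hs, Int.cast_natCast]; exact Rat.den_mul_eq_num t
  set M := r ^ 2 + 10 * r * s + 5 * s ^ 2 with hM
  have main : W.c₄ ^ 3 * r * s ^ 5 = M ^ 3 * d ^ 2 := by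
    apply Int.cast_injective (α := ℚ)
    push_cast [hM]
    rw [show (d : ℚ) ^ 2 = (W.Δ : ℚ) by rw [hd]; push_cast; rfl, ← hts]
    linear_combination (s : ℚ) ^ 6 * ht
  set E := r ^ 2 + 4 * r * s - s ^ 2 with hEdef
  have main6 : W.c₆ ^ 2 * (r * s ^ 5) = d ^ 2 * ((r ^ 2 + 22 * r * s + 125 * s ^ 2) * E ^ 2) := by
    have hc := W.c_relation
    rw [hd] at hc
    simp only [hM] at main
    simp only [hEdef]
    linear_combination r * s ^ 5 * hc + main
  have hE : E ≠ 0 := fun hE => by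
    have h5 : ((r : ℚ) + 2 * s) ^ 2 = 5 * (s : ℚ) ^ 2 := by
      have : (E : ℚ) = 0 := by rw [hE]; rfl
      push_cast [hEdef] at this
      linear_combination this
    have hs' : (s : ℚ) ≠ 0 := Int.cast_ne_zero.mpr hs0.ne'
    have h : (((r : ℚ) + 2 * s) / s) ^ 2 = 5 := by rw [div_pow, h5]; field_simp
    have hirr : Irrational (Real.sqrt ((5 : ℕ) : ℝ)) := Nat.prime_five.irrational_sqrt
    have h' : ((((r : ℚ) + 2 * s) / s : ℚ) : ℝ) ^ 2 = ((5 : ℕ) : ℝ) := by exact_mod_cast h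
    refine hirr ⟨|((r : ℚ) + 2 * s) / s|, ?_⟩
    rw [Rat.cast_abs, ← Real.sqrt_sq_eq_abs, h']
  have hcd := isCoprime_c₄_Δ hΔ hW
  rw [hd] at hcd
  have hr0 : r ≠ 0 := Rat.num_ne_zero.mpr ht0
  have hMs : IsCoprime s M := by
    rw [hM, show r ^ 2 + 10 * r * s + 5 * s ^ 2 = r ^ 2 + s * (10 * r + 5 * s) by ring]
    exact IsCoprime.add_mul_left_right hrs.symm.pow_right _
  have hpar : ∀ m n k : ℤ, IsCoprime (m ^ 2) (n ^ 2) → k * (n ^ 2) ^ 5 = d ^ 2 → k = m ^ 2 →
      m ≠ 0 ∧ n ≠ 0 ∧ IsCoprime m n ∧ Odd (m + n) := by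
    intro m n k hco hk hkm
    subst hkm
    have hco' : IsCoprime m n := (IsCoprime.pow_iff two_pos two_pos).mp hco
    have h0 : m ^ 2 * (n ^ 2) ^ 5 ≠ 0 := by rw [hk]; exact pow_ne_zero 2 hd0
    have hm : m ≠ 0 := fun h => h0 (by rw [h]; ring)
    have hn : n ≠ 0 := fun h => h0 (by rw [h]; ring)
    refine ⟨hm, hn, hco', Int.odd_add.mpr ⟨fun ho => ?_, fun he => ?_⟩⟩
    · have h2n : (2 : ℤ) ∣ m ^ 2 * (n ^ 2) ^ 5 := by rw [hk, ← hd]; exact h2
      rcases Int.prime_two.dvd_or_dvd h2n with h | h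
      · exact absurd (even_iff_two_dvd.mpr (Int.prime_two.dvd_of_dvd_pow h))
          (Int.not_even_iff_odd.mpr ho)
      · exact even_iff_two_dvd.mpr (Int.prime_two.dvd_of_dvd_pow (Int.prime_two.dvd_of_dvd_pow h))
    · refine Int.not_even_iff_odd.mp fun hme => ?_
      exact Int.prime_two.not_unit
        (hco'.isUnit_of_dvd' (even_iff_two_dvd.mp hme) (even_iff_two_dvd.mp he))
  by_cases h5 : (5 : ℤ) ∣ r
  · obtain ⟨r', hr'⟩ := h5
    set M' := 5 * r' ^ 2 + 10 * r' * s + s ^ 2 with hM'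
    have h5p : Prime (5 : ℤ) := Nat.prime_iff_prime_int.mp Nat.prime_five
    have hs5 : ¬ (5 : ℤ) ∣ s := fun h => h5p.not_unit (hrs.isUnit_of_dvd' ⟨r', hr'⟩ h)
    have hM5 : ¬ (5 : ℤ) ∣ M' := fun h => hs5 (h5p.dvd_of_dvd_pow (n := 2) (by
      have h' := dvd_sub h (Dvd.intro (r' ^ 2 + 2 * r' * s) rfl : (5 : ℤ) ∣ 5 * (r' ^ 2 + 2 * r' * s))
      rwa [show M' - 5 * (r' ^ 2 + 2 * r' * s) = s ^ 2 by rw [hM']; ring] at h'))
    have m1 : W.c₄ ^ 3 * r' * s ^ 5 = 25 * M' ^ 3 * d ^ 2 := by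
      refine mul_left_cancel₀ (show (5 : ℤ) ≠ 0 by norm_num) ?_
      rw [hM, hr'] at main
      rw [hM']
      linear_combination main
    have h5d : ∀ {c : ℤ}, (5 : ℤ) ∣ W.c₄ → c ∣ d ^ 2 → ¬ (5 : ℤ) ∣ c := fun h4 hc h5c =>
      h5p.not_unit (hcd.isUnit_of_dvd' (h5c.trans hc) h4)
    have step : ∀ (r'' : ℤ) (e : ℕ), W.c₄ ^ 3 * r'' * s ^ 5 = 5 ^ e * M' ^ 3 * d ^ 2 →
        0 < e → e < 3 → (5 : ℤ) ∣ r'' := fun r'' e he he0 he3 => by
      by_contra hn
      have h : (5 : ℤ) ∣ W.c₄ := by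
        have h' : (5 : ℤ) ∣ W.c₄ ^ 3 * r'' * s ^ 5 := by
          rw [he]
          exact ((dvd_pow_self (5 : ℤ) he0.ne').mul_right _).mul_right _
        rcases h5p.dvd_or_dvd h' with h' | h'
        · exact h5p.dvd_of_dvd_pow ((h5p.dvd_or_dvd h').resolve_right hn)
        · exact absurd (h5p.dvd_of_dvd_pow h') hs5
      have h125 : (5 : ℤ) ^ e * 5 ∣ 5 ^ e * (M' ^ 3 * d ^ 2) := by
        rw [← pow_succ, ← mul_assoc, ← he]
        exact ((pow_dvd_pow (5 : ℤ) (show e + 1 ≤ 3 by omega)).trans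
          (pow_dvd_pow_of_dvd h 3)).mul_right _ |>.mul_right _
      rw [mul_dvd_mul_iff_left (pow_ne_zero e (by norm_num))] at h125
      rcases h5p.dvd_or_dvd h125 with h' | h'
      · exact hM5 (h5p.dvd_of_dvd_pow h')
      · exact h5d h h' dvd_rfl
    obtain ⟨r₁, hr₁⟩ := step r' 2 (by rw [m1]; norm_num) two_pos (by norm_num)
    have m2 : W.c₄ ^ 3 * r₁ * s ^ 5 = 5 * M' ^ 3 * d ^ 2 := by
      refine mul_left_cancel₀ (show (5 : ℤ) ≠ 0 by norm_num) ?_
      rw [hr₁] at m1; linear_combination m1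
    obtain ⟨k, hk⟩ := step r₁ 1 (by rw [pow_one]; exact m2) one_pos (by norm_num)
    have m3 : W.c₄ ^ 3 * (k * s ^ 5) = M' ^ 3 * d ^ 2 := by
      refine mul_left_cancel₀ (show (5 : ℤ) ≠ 0 by norm_num) ?_
      rw [hk] at m2; linear_combination m2
    have hks : IsCoprime k s :=
      IsCoprime.of_isCoprime_of_dvd_left hrs (Dvd.intro 125 (by rw [hr', hr₁, hk]; ring))
    have hkM : IsCoprime k M' := by
      rw [hM', show r' = 25 * k by rw [hr₁, hk]; ring,
        show 5 * (25 * k) ^ 2 + 10 * (25 * k) * s + s ^ 2 = s ^ 2 + k * (3125 * k + 250 * s) by ring]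
      exact IsCoprime.add_mul_left_right hks.pow_right _
    have hsM : IsCoprime s M' := by
      rw [hM', show 5 * r' ^ 2 + 10 * r' * s + s ^ 2 = 5 * r' ^ 2 + s * (10 * r' + s) by ring]
      refine IsCoprime.add_mul_left_right ?_ _
      exact ((h5p.coprime_iff_not_dvd).mpr hs5).symm.mul_right
        (IsCoprime.of_isCoprime_of_dvd_left hrs (Dvd.intro_left 5 hr'.symm)).symm.pow_right
    have hE2 : 5 ^ 3 * (k ^ 2 * 125 + 22 * k * s + s ^ 2) =
        r ^ 2 + 22 * r * s + 125 * s ^ 2 := by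
      rw [hr', hr₁, hk]; ring
    obtain ⟨m, n, S, hkm, hsn, hS, hdk⟩ := square_step (c := W.c₆) (E := E)
      (G := s ^ 2 + 22 * s * k + 125 * k ^ 2) hd0 hs0 hks
      (((hkM.mul_left (hsM.pow_left (m := 5))).pow_right (n := 3)).dvd_of_dvd_mul_left ⟨W.c₄ ^ 3, by linear_combination -m3⟩)
      ((hcd.pow_right (n := 3)).dvd_of_dvd_mul_left ⟨M' ^ 3, by linear_combination m3⟩) hE
      (by nlinarith [sq_nonneg (s + 11 * k), sq_pos_of_pos hs0, sq_nonneg k]) (by
        refine mul_left_cancel₀ (show (125 : ℤ) ≠ 0 by norm_num) ?_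
        rw [hr', hr₁, hk] at main6
        linear_combination main6)
    obtain ⟨h1, h2', h3, h4⟩ := hpar m n k (hkm ▸ hsn ▸ hks) (by rw [← hsn]; exact hdk.symm) hkm
    exact no_quartic_point _ n m S rfl h2' h1 h3.symm (by rwa [add_comm])
      (by rw [← hS, hkm, hsn]; ring)
  · have hrM : IsCoprime r M := by
      rw [hM, show r ^ 2 + 10 * r * s + 5 * s ^ 2 = 5 * s ^ 2 + r * (r + 10 * s) by ring]
      refine IsCoprime.add_mul_left_right ?_ _
      exact (((Nat.prime_iff_prime_int.mp Nat.prime_five).coprime_iff_not_dvd).mpr h5).symm.mul_right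
        hrs.pow_right
    obtain ⟨m, n, S, hrm, hsn, hS, hdk⟩ := square_step (c := W.c₆) (E := E)
      (G := r ^ 2 + 22 * r * s + 125 * s ^ 2) hd0 hs0 hrs
      (((hrM.mul_left (hMs.pow_left (m := 5))).pow_right (n := 3)).dvd_of_dvd_mul_left ⟨W.c₄ ^ 3, by linear_combination -main⟩)
      ((hcd.pow_right (n := 3)).dvd_of_dvd_mul_left ⟨M ^ 3, by linear_combination main⟩) hE
      (by nlinarith [sq_nonneg (r + 11 * s), sq_pos_of_pos hs0]) main6
    obtain ⟨h1, h2', h3, h4⟩ := hpar m n r (hrm ▸ hsn ▸ hrs) (by rw [← hsn]; exact hdk.symm) hrm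
    exact no_quartic_point _ m n S rfl h1 h2' h3 h4 (by rw [← hS, hrm, hsn]; ring)

end

end FA.Switch
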